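import Mathlib

set_option autoImplicit false

/-!
# Fundamental sets of a commutative group relative to a subgroup
-/

noncomputable section

namespace FermatAgent.LT.Inert

variable {G α : Type*} [Group G] [MulAction G α]

/-- A fundamental set for `T` on `P` relative to `U`: it is `U`-stable and meets every `T`-orbit of
`P` in exactly one `U`-orbit. -/
structure IsFundSet (T U : Subgroup G) (P Ω : Set α) : Prop where
  subset : Ω ⊆ P
  stable : ∀ u ∈ U, ∀ x ∈ Ω, u • x ∈ Ω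
  cover : ∀ x ∈ P, ∃ t ∈ T, t • x ∈ Ω
  unique : ∀ x ∈ Ω, ∀ t ∈ T, t • x ∈ Ω → ∃ u ∈ U, t • x = u • x

/-- Invariant functions have the same sum over any two fundamental sets. -/
theorem IsFundSet.finsum_eq {T U : Subgroup G} {P Ω Ω' : Set α} (hUT : U ≤ T)
    (hcomm : ∀ a ∈ T, ∀ b ∈ T, a * b = b * a) (h : IsFundSet T U P Ω) (h' : IsFundSet T U P Ω')
    {Φ : α → ℂ} (hΦ : ∀ t ∈ T, ∀ x ∈ P, Φ (t • x) = Φ x) :
    ((Ω ∩ Φ.support).Finite → (Ω' ∩ Φ.support).Finite) ∧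
      ∑ᶠ x ∈ Ω, Φ x = ∑ᶠ x ∈ Ω', Φ x := by
  classical
  -- a representative in `Ω` of each orbit, and a translation into `Ω'`
  let r : Setoid α :=
    { r := fun x y => ∃ t ∈ T, t • x = y
      iseqv :=
        { refl := fun x => ⟨1, T.one_mem, one_smul _ _⟩
          symm := fun {x y} ⟨t, ht, e⟩ => ⟨t⁻¹, T.inv_mem ht, by rw [← e, inv_smul_smul]⟩
          trans := fun {x y z} ⟨t, ht, e⟩ ⟨s, hs, e'⟩ =>
            ⟨s * t, T.mul_mem hs ht, by rw [mul_smul, e, e']⟩ } }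
  have hsel : ∀ o : Quotient r, ∃ x : α, ∃ t : G, t ∈ T ∧
      ((∃ y ∈ Ω, Quotient.mk r y = o) → x ∈ Ω ∧ Quotient.mk r x = o ∧ t • x ∈ Ω') := by
    intro o
    by_cases ho : ∃ y ∈ Ω, Quotient.mk r y = o
    · obtain ⟨y, hy, hyo⟩ := ho
      obtain ⟨t, ht, hty⟩ := h'.cover y (h.subset hy)
      exact ⟨y, t, ht, fun _ => ⟨hy, hyo, hty⟩⟩
    · exact ⟨o.out, 1, T.one_mem, fun hh => absurd hh ho⟩
  choose rep tr htr hrep using hsel
  let φ : α → α := fun x => tr (Quotient.mk r x) • x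
  have hbij : Set.BijOn φ Ω Ω' := by
    refine ⟨fun x hx => ?_, fun x hx y hy e => ?_, fun y hy => ?_⟩
    · obtain ⟨h1, h2, h3⟩ := hrep (Quotient.mk r x) ⟨x, hx, rfl⟩
      obtain ⟨s, hs, e⟩ := Quotient.exact h2
      have ht₀ := htr (Quotient.mk r x)
      show tr (Quotient.mk r x) • x ∈ Ω'
      generalize rep (Quotient.mk r x) = x₀, tr (Quotient.mk r x) = t₀ at h1 h2 h3 e ht₀ ⊢
      obtain ⟨u, hu, eu⟩ := h.unique _ h1 s hs (by rwa [e])
      rw [← e, eu, ← mul_smul, hcomm _ ht₀ _ (hUT hu), mul_smul]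
      exact h'.stable u hu _ h3
    · have hq : Quotient.mk r x = Quotient.mk r y := by
        refine Quotient.sound ⟨(tr (Quotient.mk r y))⁻¹ * tr (Quotient.mk r x),
          T.mul_mem (T.inv_mem (htr _)) (htr _), ?_⟩
        rw [mul_smul]
        exact (congrArg ((tr (Quotient.mk r y))⁻¹ • ·) e).trans (inv_smul_smul _ _)
      simp only [φ, hq] at e
      exact (smul_left_cancel _ e)
    · obtain ⟨s, hs, hsy⟩ := h.cover y (h'.subset hy)
      have hq : Quotient.mk r (s • y) = Quotient.mk r y :=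
        (Quotient.sound (s := r) (a := y) (b := s • y) ⟨s, hs, rfl⟩).symm
      obtain ⟨h1, h2, h3⟩ := hrep (Quotient.mk r y) ⟨_, hsy, hq⟩
      obtain ⟨a, ha, ea⟩ := Quotient.exact h2
      set o := Quotient.mk r y
      obtain ⟨u, hu, eu⟩ := h'.unique _ h3 (a * (tr o)⁻¹) (T.mul_mem ha (T.inv_mem (htr _)))
        (by rw [mul_smul, inv_smul_smul, ea]; exact hy)
      rw [mul_smul, inv_smul_smul, ea] at eu
      refine ⟨u • rep o, h.stable u hu _ h1, ?_⟩
      have hq' : Quotient.mk r (u • rep o) = o :=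
        (Quotient.sound (s := r) (a := rep o) (b := u • rep o) ⟨u, hUT hu, rfl⟩).symm.trans h2
      show tr (Quotient.mk r (u • rep o)) • u • rep o = y
      rw [hq', ← mul_smul, hcomm _ (htr _) _ (hUT hu), mul_smul, ← eu]
  have hval : ∀ x ∈ Ω, Φ x = Φ (φ x) := fun x hx => (hΦ _ (htr _) x (h.subset hx)).symm
  refine ⟨fun hfin => ?_, finsum_mem_eq_of_bijOn φ hbij hval⟩
  refine (hfin.image φ).subset ?_
  rintro y ⟨hy, hy'⟩
  obtain ⟨x, hx, rfl⟩ := hbij.surjOn hy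
  exact ⟨x, ⟨hx, by rwa [Function.mem_support, hval x hx]⟩, rfl⟩

end FermatAgent.LT.Inert
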