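import Fermat.Agent.LT.Descent.Local.Inert.Matching

set_option autoImplicit false

/-!
# Matching of spherical orbital sums at an inert place of a cubic extension
-/

noncomputable section

open IsLocalRing IsDiscreteValuationRing Matrix

namespace FermatAgent.LT.Inert

/-- The residue field has the cube of the fixed cardinality. -/
theorem card_residue {O : Type*} [CommRing O] [IsDomain O] [IsDiscreteValuationRing O]
    [Finite (ResidueField O)]
    {τ : O ≃+* O} (hτ : IsCubic τ) :
    Nat.card (ResidueField O) = Nat.card (resFixed τ) ^ 3 := by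
  set r := resAut τ
  obtain ⟨x, hx⟩ := exists_resAut_ne hτ
  have hr3 : r ^ 3 = 1 := RingEquiv.ext fun y => resAut_cube hτ y
  have hord : orderOf r = 3 := by
    refine (Nat.dvd_prime Nat.prime_three).mp (orderOf_dvd_of_pow_eq_one hr3) |>.resolve_left ?_
    intro h1
    rw [orderOf_eq_one_iff] at h1
    exact hx (by rw [show resAut τ = 1 from h1]; rfl)
  set H := Subgroup.zpowers r
  have : Finite (RingAut (ResidueField O)) := Finite.of_injective (fun e => (e : _ → _))
    DFunLike.coe_injective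
  have : Fintype H := Fintype.ofFinite _
  have hfin : Module.finrank (FixedPoints.subfield H (ResidueField O)) (ResidueField O) = 3 := by
    rw [FixedPoints.finrank_eq_card, ← Nat.card_eq_fintype_card, Nat.card_zpowers, hord]
  have e : Nat.card (FixedPoints.subfield H (ResidueField O)) = Nat.card (resFixed τ) := by
    refine Nat.card_congr (Equiv.subtypeEquivRight fun y => ⟨fun h => h ⟨r, Subgroup.mem_zpowers r⟩,
      fun h g => ?_⟩)
    obtain ⟨g, k, rfl⟩ := g
    show (r ^ k) y = y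
    have : MulAction.stabilizer (RingAut (ResidueField O)) y ≥ Subgroup.zpowers r :=
      Subgroup.zpowers_le.mpr h
    exact this ⟨k, rfl⟩
  rw [Module.natCard_eq_pow_finrank (K := FixedPoints.subfield H (ResidueField O)), hfin, e]

variable {O F : Type*} [CommRing O] [IsDomain O] [IsDiscreteValuationRing O] [Field F] [Algebra O F]
  [IsFractionRing O F]
variable {τ : O ≃+* O} {s : F ≃+* F} (hs : ∀ x, s (algebraMap O F x) = algebraMap O F (τ x))
variable {π : O} (hπ : Irreducible π)

/-- The fixed centraliser. -/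
def centFix (s : F ≃+* F) (γ : GL (Fin 2) F) : Subgroup (GL (Fin 2) F) :=
  (gAut s).eqLocus (MonoidHom.id _) ⊓ Subgroup.centralizer {γ}

variable (O) in
/-- Its elements with integral characteristic polynomial and unit determinant up to scalars. -/
def centUnitSet (s : F ≃+* F) (γ : GL (Fin 2) F) : Set (GL (Fin 2) F) :=
  {g | g ∈ centFix s γ ∧ ∃ (c : F) (a : O) (b : Oˣ),
    c * (g : Matrix (Fin 2) (Fin 2) F).trace = algebraMap O F a ∧
      c ^ 2 * (g : Matrix (Fin 2) (Fin 2) F).det = algebraMap O F b}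

variable (O) in
/-- The subgroup they generate (they form a subgroup). -/
def centUnits (s : F ≃+* F) (γ : GL (Fin 2) F) : Subgroup (GL (Fin 2) F) :=
  Subgroup.closure (centUnitSet O s γ)

omit [IsDomain O] [IsDiscreteValuationRing O] [IsFractionRing O F] in
include hs in
theorem gAut_smul_vtx {g : GL (Fin 2) F} (hg : gAut s g = g) (x : Vtx O F) :
    vAut hs (g • x) = g • vAut hs x := by
  obtain ⟨y, rfl⟩ := QuotientGroup.mk_surjective x
  rw [MulAction.Quotient.smul_coe, smul_eq_mul, vAut_mk, vAut_mk, map_mul, hg]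
  rfl

include hs hπ in
theorem moveDist_smul {h : GL (Fin 2) F} (hh : gAut s h = h) (δ : GL (Fin 2) F) (x : Vtx O F) :
    moveDist hs hπ δ (h • x) = moveDist hs hπ (h⁻¹ * δ * h) x := by
  obtain ⟨y, rfl⟩ := QuotientGroup.mk_surjective x
  rw [MulAction.Quotient.smul_coe, smul_eq_mul, moveDist_mk, moveDist_mk, map_mul, hh]
  congr 1
  group

include hs hπ in
theorem moveDist_scalar {a : GL (Fin 2) F} (ha : a ∈ sphSub O F) (hc : ∀ g, a * g = g * a)
    (δ : GL (Fin 2) F) (x : Vtx O F) : moveDist hs hπ (a * δ) x = moveDist hs hπ δ x := by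
  obtain ⟨y, rfl⟩ := QuotientGroup.mk_surjective x
  rw [moveDist_mk, moveDist_mk, show y⁻¹ * (a * δ) * gAut s y = a * (y⁻¹ * δ * gAut s y) * 1 by
    rw [mul_one, ← mul_assoc y⁻¹, ← hc y⁻¹]; group]
  exact depth_mul_mul hπ ha (one_mem _)

/-! ### Normal form of a fixed regular element -/

variable (hπτ : τ π = π) (hτ : IsCubic τ) [Finite (ResidueField O)]
include hs hπ hπτ hτ

-- the unused hypotheses keep the uniform signature of the section
set_option linter.unusedSectionVars false in
omit [IsFractionRing O F] [Finite (ResidueField O)] in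
theorem exists_fixed_step {T N : O} (hT : τ T = T) (hN : τ N = N)
    (hnot : ¬IsMaximalOrder π T N) :
    ∃ a T' N' : O, τ a = a ∧ τ T' = T' ∧ τ N' = N' ∧ T - 2 * a = π * T' ∧
      poly T N a = π ^ 2 * N' := by
  simp only [IsMaximalOrder, not_forall, not_not] at hnot
  obtain ⟨b, hb1, hb2⟩ := hnot
  have hres : resAut τ (residue O b) = residue O b := by
    refine resAut_root hτ (t := residue O T) (n := residue O N) (by rw [resAut_residue, hT])
      (by rw [resAut_residue, hN]) ?_
    have := (residue_eq_zero_iff_dvd hπ).mpr ((dvd_pow_self π two_ne_zero).trans hb2)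
    simpa using this
  have hmem : τ b - b ∈ Ideal.span {π} := by
    rw [Ideal.mem_span_singleton, ← residue_eq_zero_iff_dvd hπ, map_sub, ← resAut_residue, hres,
      sub_self]
  obtain ⟨a, ha, hab⟩ := exists_fixed_sub_mem hτ (J := Ideal.span {π}) (fun z hz => by
    rw [Ideal.mem_span_singleton] at hz ⊢
    simpa [hπτ] using map_dvd τ hz) hmem
  rw [Ideal.mem_span_singleton] at hab
  obtain ⟨T', hT'⟩ : π ∣ T - 2 * a := by
    rw [show T - 2 * a = -(2 * b - T) - 2 * (a - b) by ring]
    exact dvd_sub hb1.neg_right (hab.mul_left _)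
  obtain ⟨N', hN'⟩ : π ^ 2 ∣ poly T N a := by
    have e : poly T N a = (b ^ 2 - T * b + N) + (a - b) * ((a - b) + (2 * b - T)) := by
      simp only [poly]; ring
    rw [e, sq π]
    exact dvd_add (sq π ▸ hb2) (mul_dvd_mul hab (dvd_add hab hb1))
  refine ⟨a, T', N', ha, ?_, ?_, hT', hN'⟩
  · apply mul_left_cancel₀ hπ.ne_zero
    have := congrArg τ hT'
    rw [map_sub, map_mul, map_ofNat, hT, ha, map_mul, hπτ] at this
    rw [← this, hT']
  · apply mul_left_cancel₀ (pow_ne_zero 2 hπ.ne_zero)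
    have := congrArg τ hN'
    simp only [poly, map_add, map_sub, map_mul, map_pow, hT, hN, ha, hπτ] at this
    rw [← this, ← hN', poly]

omit [Finite (ResidueField O)] in
/-- A companion matrix is fixedly conjugate into the torus of a maximal order. -/
theorem exists_conj_companion (d : ℕ) : ∀ T N : O, τ T = T → τ N = N →
    addVal O (T ^ 2 - 4 * N) = d →
    ∃ (h : GL (Fin 2) F) (t n : O) (α β : F), gAut s h = h ∧ τ t = t ∧ τ n = n ∧
      IsMaximalOrder π t n ∧
      genMat T N * (h : Matrix (Fin 2) (Fin 2) F) =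
        (h : Matrix (Fin 2) (Fin 2) F) * (α • 1 + β • genMat t n) := by
  induction d using Nat.strong_induction_on with
  | _ d ih =>
    intro T N hT hN hd
    by_cases hmax : IsMaximalOrder π T N
    · exact ⟨1, T, N, 0, 1, map_one _, hT, hN, hmax, by simp⟩
    obtain ⟨a, T', N', ha, hT', hN', eT, eN⟩ := exists_fixed_step hs hπ hπτ hτ hT hN hmax
    have hdisc : T ^ 2 - 4 * N = π ^ 2 * (T' ^ 2 - 4 * N') := by
      have e : T ^ 2 - 4 * N = (T - 2 * a) ^ 2 - 4 * poly T N a := by simp only [poly]; ring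
      rw [e, eT, eN]; ring
    rw [hdisc, addVal_mul, addVal_pow, addVal_uniformizer hπ] at hd
    obtain ⟨d', hd'⟩ : ∃ d' : ℕ, addVal O (T' ^ 2 - 4 * N') = d' := by
      refine (ENat.ne_top_iff_exists.mp (fun h => ?_)).imp fun e he => he.symm
      rw [h, add_top] at hd
      exact ENat.natCast_ne_top d hd.symm
    rw [hd'] at hd
    have hdd : d = 2 + d' := by
      have : ((2 + d' : ℕ) : ℕ∞) = (d : ℕ∞) := by rw [← hd]; simp
      exact_mod_cast this.symm
    obtain ⟨h, t, n, α, β, hh, ht, hn, hmax', he⟩ := ih d' (by omega) T' N' hT' hN' hd'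
    have hp := piF_ne_zero (F := F) hπ
    set A := algebraMap O F a
    set p := algebraMap O F π
    let P : GL (Fin 2) F := GeneralLinearGroup.mkOfDetNeZero !![1, -A / p; 0, 1 / p] (by
      simpa [det_fin_two] using hp)
    have hP : gAut s P = P := by
      ext i j
      fin_cases i <;> fin_cases j <;> simp [gAut, P, A, p, hs, ha, hπτ]
    have hPC : genMat T N * (P : Matrix (Fin 2) (Fin 2) F) =
        (P : Matrix (Fin 2) (Fin 2) F) * (A • 1 + p • genMat T' N') := by
      have e1 : algebraMap O F T = 2 * A + p * algebraMap O F T' := by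
        rw [← map_mul, ← eT, map_sub, map_mul, map_ofNat]; ring
      have e2 : algebraMap O F N = p ^ 2 * algebraMap O F N' - A ^ 2 + algebraMap O F T * A := by
        rw [← map_pow, ← map_mul, ← eN]
        simp only [poly, map_add, map_sub, map_mul, map_pow, A]
        ring
      ext i j
      fin_cases i <;> fin_cases j <;>
        simp [genMat, P, Matrix.mul_apply, Fin.sum_univ_two, e1, e2] <;> field_simp <;> ring
    refine ⟨P * h, t, n, A + p * α, p * β, by rw [map_mul, hP, hh], ht, hn, hmax', ?_⟩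
    rw [Units.val_mul, ← mul_assoc, hPC, mul_assoc, mul_assoc]
    congr 1
    rw [add_mul, Matrix.smul_mul, Matrix.smul_mul, one_mul, he]
    simp only [mul_add, smul_add, Matrix.mul_smul, smul_smul, add_smul, mul_one]
    abel

omit [Finite (ResidueField O)] in
/-- A fixed regular element is fixedly conjugate into the torus of a maximal order. -/
theorem exists_normalForm {γ : GL (Fin 2) F} (hγ : gAut s γ = γ)
    (hreg : (γ : Matrix (Fin 2) (Fin 2) F).trace ^ 2 ≠ 4 * (γ : Matrix (Fin 2) (Fin 2) F).det) :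
    ∃ (h : GL (Fin 2) F) (t n : O) (ht : τ t = t) (hn : τ n = n) (z : (LAlg F t n)ˣ),
      gAut s h = h ∧ IsMaximalOrder π t n ∧ (z : LAlg F t n).im ≠ 0 ∧
      Units.map (lMap hs ht hn).toMonoidHom z = z ∧ h⁻¹ * γ * h = embU z := by
  set G := (γ : Matrix (Fin 2) (Fin 2) F)
  have hGs : ∀ i j, s (G i j) = G i j := fun i j => by
    have := congrArg (fun g : GL (Fin 2) F => (g : Matrix (Fin 2) (Fin 2) F) i j) hγ
    simpa [gAut] using this
  -- an integral multiple by a power of the uniformizer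
  obtain ⟨k, A, hA, hAs⟩ : ∃ (k : ℕ) (A : Matrix (Fin 2) (Fin 2) O),
      algebraMap O F π ^ k • G = intMat O F A ∧ ∀ i j, τ (A i j) = A i j := by
    obtain ⟨b, hb⟩ := IsLocalization.exist_integer_multiples_of_finite (nonZeroDivisors O)
      fun q : Fin 2 × Fin 2 => G q.1 q.2
    choose A hA using fun i j => hb (i, j)
    obtain ⟨k, u, hu⟩ :=
      IsDiscreteValuationRing.eq_unit_mul_pow_irreducible (nonZeroDivisors.coe_ne_zero b) hπ
    have e : algebraMap O F π ^ k • G = intMat O F (of fun i j => ↑u⁻¹ * A i j) := by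
      ext i j
      rw [intMat_apply, of_apply, map_mul, hA i j, Algebra.smul_def (R := O) (b : O), hu, map_mul,
        map_pow, ← mul_assoc, ← mul_assoc, ← map_mul, Units.inv_mul, map_one, one_mul]
      rfl
    refine ⟨k, _, e, fun i j => IsFractionRing.injective O F ?_⟩
    have h1 := congrFun (congrFun e i) j
    simp only [Matrix.smul_apply, smul_eq_mul, intMat_apply] at h1
    rw [← hs, ← h1, map_mul, map_pow, hs, hπτ, hGs]
  set p := algebraMap O F π ^ k
  have hp : p ≠ 0 := pow_ne_zero _ (piF_ne_zero hπ)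
  have hdisc : A.trace ^ 2 - 4 * A.det ≠ 0 := by
    intro h0
    apply hreg
    have h1 := congrArg (algebraMap O F) h0
    rw [map_zero, map_sub, map_pow, map_mul, map_ofNat, ← intMat_det (F := F), trace_fin_two,
      map_add, ← intMat_apply (F := F), ← intMat_apply (F := F), ← hA, det_smul,
      Fintype.card_fin] at h1
    simp only [Matrix.smul_apply, smul_eq_mul] at h1
    rw [trace_fin_two]
    apply mul_left_cancel₀ (pow_ne_zero 2 hp)
    linear_combination h1
  obtain ⟨d, hd⟩ := ENat.ne_top_iff_exists.mp fun h => hdisc (addVal_eq_top_iff.mp h)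
  have hTs : τ A.trace = A.trace := by rw [trace_fin_two, map_add, hAs, hAs]
  have hNs : τ A.det = A.det := by rw [det_fin_two, map_sub, map_mul, map_mul, hAs, hAs, hAs, hAs]
  -- a fixed cyclic vector
  obtain ⟨e₀, e₁, he₀, he₁, hne⟩ : ∃ e₀ e₁ : O, τ e₀ = e₀ ∧ τ e₁ = e₁ ∧
      e₀ * (A 1 0 * e₀ + A 1 1 * e₁) - e₁ * (A 0 0 * e₀ + A 0 1 * e₁) ≠ 0 := by
    by_cases h10 : A 1 0 = 0
    · by_cases h01 : A 0 1 = 0
      · refine ⟨1, 1, map_one _, map_one _, fun h0 => hdisc ?_⟩
        rw [trace_fin_two, det_fin_two]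
        simp only [h10, h01, mul_one, one_mul, zero_add, add_zero] at h0 ⊢
        linear_combination (A 1 1 - A 0 0) * h0
      · exact ⟨0, 1, map_zero _, map_one _, by simpa using h01⟩
    · exact ⟨1, 0, map_one _, map_zero _, by simpa using h10⟩
  let P : GL (Fin 2) F := GeneralLinearGroup.mkOfDetNeZero
    (intMat O F !![e₀, A 0 0 * e₀ + A 0 1 * e₁; e₁, A 1 0 * e₀ + A 1 1 * e₁]) (by
      rw [intMat_det, det_fin_two]
      refine fun h0 => hne ((IsFractionRing.injective O F) (Eq.trans ?_ (h0.trans (map_zero _).symm)))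
      congr 1
      simp
      ring)
  have hP : gAut s P = P := by
    ext i j
    fin_cases i <;> fin_cases j <;> simp [gAut, P, hs, hAs, he₀, he₁]
  have hAP : intMat O F A * (P : Matrix (Fin 2) (Fin 2) F) =
      (P : Matrix (Fin 2) (Fin 2) F) * genMat A.trace A.det := by
    rw [trace_fin_two, det_fin_two]
    ext i j
    fin_cases i <;> fin_cases j <;> simp [P, genMat, Matrix.mul_apply, Fin.sum_univ_two] <;> ring
  obtain ⟨h, t, n, α, β, hh, ht, hn, hmax, he⟩ :=
    exists_conj_companion hs hπ hπτ hτ d A.trace A.det hTs hNs hd.symm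
  set H := P * h
  set y : LAlg F t n := ⟨p⁻¹ * α, p⁻¹ * β⟩
  have hy : G * (H : Matrix (Fin 2) (Fin 2) F) = (H : Matrix (Fin 2) (Fin 2) F) * emb y := by
    have e1 : G = p⁻¹ • intMat O F A := by rw [← hA, smul_smul, inv_mul_cancel₀ hp, one_smul]
    have e2 : emb y = p⁻¹ • (α • 1 + β • genMat t n) := by
      ext i j; fin_cases i <;> fin_cases j <;> simp [emb, y, genMat] <;> ring
    rw [e1, e2, Units.val_mul, Matrix.smul_mul, ← mul_assoc, hAP, mul_assoc, he, ← mul_assoc,
      Matrix.mul_smul]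
  have hyu : IsUnit y := by
    rw [QuadraticAlgebra.isUnit_iff_norm_isUnit, ← det_emb, isUnit_iff_ne_zero]
    intro h0
    have := congrArg Matrix.det hy
    rw [det_mul, det_mul, h0, mul_zero] at this
    exact mul_ne_zero γ.det_ne_zero H.det_ne_zero this
  have hconj : H⁻¹ * γ * H = embU hyu.unit := by
    rw [mul_assoc, inv_mul_eq_iff_eq_mul]
    exact Units.ext hy
  have hH : gAut s H = H := by rw [map_mul, hP, hh]
  refine ⟨H, t, n, ht, hn, hyu.unit, hH, hmax, ?_, ?_, hconj⟩
  · intro h0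
    apply hreg
    have hγe : γ = H * embU hyu.unit * H⁻¹ := by rw [← hconj]; group
    have e3 : G = (H : Matrix (Fin 2) (Fin 2) F) * emb y * (H⁻¹ : GL (Fin 2) F).1 := by
      show (γ : Matrix (Fin 2) (Fin 2) F) = _
      rw [hγe]; rfl
    rw [e3, trace_units_conj, det_units_conj, det_emb, QuadraticAlgebra.norm_def, trace_fin_two]
    simp only [IsUnit.unit_spec] at h0
    simp [emb, h0]
    ring
  · refine embU_injective ?_
    rw [← gAut_embU hs ht hn, ← hconj, map_mul, map_mul, map_inv, hH, hγ]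

omit hs hπ hπτ hτ

variable {t n : O}

omit [IsDomain O] [IsDiscreteValuationRing O] [IsFractionRing O F] [Finite (ResidueField O)] in
theorem trace_emb (z : LAlg F t n) :
    (emb z).trace = 2 * z.re + algebraMap O F t * z.im := by
  simp [trace_fin_two, emb]; ring

omit [Finite (ResidueField O)] in
/-- The two descriptions of the maximal compact subgroup of the torus. -/
theorem exists_smul_toL_of_integral {π : O} (hπ : Irreducible π) (hmax : IsMaximalOrder π t n)
    (z : (LAlg F t n)ˣ) {c : F} {a : O} {b : Oˣ}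
    (htr : c * (emb (z : LAlg F t n)).trace = algebraMap O F a)
    (hdet : c ^ 2 * (z : LAlg F t n).norm = algebraMap O F b) :
    ∃ (c' : F) (w : (QA O t n)ˣ), (z : LAlg F t n) = c' • toL F (w : QA O t n) := by
  obtain ⟨d, w, hd, hz, hprim, hN⟩ := exists_prim_smul hπ z
  refine ⟨d, IsUnit.unit (a := w) ?_, hz⟩
  rw [QuadraticAlgebra.isUnit_iff_norm_isUnit]
  by_contra hNu
  have hi := isUnit_im_of_prim hπ hprim hNu
  obtain ⟨i, hi'⟩ := hi
  have h1 : c * d * algebraMap O F (2 * w.re + t * w.im) = algebraMap O F a := by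
    rw [← htr, trace_emb, hz]
    simp [toL, map_ofNat]
    ring
  have h2 : (c * d) ^ 2 * algebraMap O F w.norm = algebraMap O F b := by
    rw [← hdet, hz, qa_norm, QuadraticAlgebra.norm_def]
    simp [toL]
    ring
  have hb0 : algebraMap O F (b : O) ≠ 0 := (b.isUnit.map _).ne_zero
  -- the trace squared is divisible by the norm
  have h3 : (2 * w.re + t * w.im) ^ 2 = a ^ 2 * ↑b⁻¹ * w.norm := by
    apply IsFractionRing.injective O F
    rw [map_pow, map_mul, map_mul, map_pow, map_units_inv, ← h1]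
    field_simp
    rw [← h2]
    ring
  have hπN : π ∣ w.norm := (not_isUnit_iff_dvd hπ).mp hNu
  have hπT : π ∣ 2 * w.re + t * w.im := hπ.prime.dvd_of_dvd_pow (h3 ▸ hπN.mul_left _)
  -- the norm has even valuation
  obtain ⟨num, den, hden, hcd⟩ := IsFractionRing.div_surjective (A := O) (c * d)
  have hden0 : algebraMap O F den ≠ 0 := IsFractionRing.to_map_ne_zero_of_mem_nonZeroDivisors hden
  rw [← hcd, div_pow, div_mul_eq_mul_div, div_eq_iff (pow_ne_zero _ hden0), ← map_pow, ← map_pow,
    ← map_mul, ← map_mul] at h2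
  have h4 : num ^ 2 * w.norm = ↑b * den ^ 2 := IsFractionRing.injective O F h2
  have hπ2 : π ^ 2 ∣ w.norm := by
    by_contra h2'
    obtain ⟨v, hv⟩ := hπN
    have hvu : IsUnit v := by
      by_contra hvu
      exact h2' (hv ▸ by rw [sq]; exact mul_dvd_mul_left _ ((not_isUnit_iff_dvd hπ).mp hvu))
    have h5 := congrArg (addVal O) h4
    rw [hv, addVal_mul, addVal_mul, addVal_mul, addVal_uniformizer hπ, addVal_pow, addVal_pow,
      addVal_eq_zero_iff.mpr hvu, addVal_eq_zero_iff.mpr b.isUnit] at h5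
    obtain ⟨P, hP⟩ : ∃ P : ℕ, addVal O num = P := by
      refine (ENat.ne_top_iff_exists.mp fun h => ?_).imp fun e he => he.symm
      have hd0 : addVal O den ≠ ⊤ := fun h' => nonZeroDivisors.ne_zero hden (addVal_eq_top_iff.mp h')
      rw [h] at h5
      obtain ⟨D, hD⟩ := ENat.ne_top_iff_exists.mp hd0
      rw [← hD] at h5
      simp [← Nat.cast_add, two_mul] at h5
    obtain ⟨D, hD⟩ := ENat.ne_top_iff_exists.mp (fun h' =>
      nonZeroDivisors.ne_zero hden (addVal_eq_top_iff.mp h'))
    rw [hP, ← hD] at h5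
    have h6 : ((2 * P + 1 : ℕ) : ℕ∞) = ((2 * D : ℕ) : ℕ∞) := by
      push_cast
      simpa using h5
    have := ENat.natCast_inj.mp h6
    omega
  refine hmax (-(w.re * ↑i⁻¹)) ?_ ?_
  · have e : 2 * -(w.re * ↑i⁻¹) - t = -(↑i⁻¹ * (2 * w.re + t * w.im)) := by
      rw [← hi']
      linear_combination t * i.inv_mul
    rw [e]
    exact (hπT.mul_left _).neg_right
  · have e : (-(w.re * ↑i⁻¹)) ^ 2 - t * -(w.re * ↑i⁻¹) + n = ↑i⁻¹ * ↑i⁻¹ * w.norm := by
      rw [qa_norm, ← hi']
      linear_combination (-(t * w.re * ↑i⁻¹) - n * (↑i⁻¹ * ↑i + 1)) * i.inv_mul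
    rw [e]
    exact hπ2.mul_left _

include hs hπ hπτ hτ

-- the unused hypotheses keep the uniform signature of the section
set_option linter.unusedSectionVars false in
/-- Fundamental sets transported to the torus of the normal form. -/
theorem isFundSet_conj {h γ : GL (Fin 2) F} {t n : O} {ht : τ t = t} {hn : τ n = n}
    {z : (LAlg F t n)ˣ} (hh : gAut s h = h) (hmax : IsMaximalOrder π t n)
    (hzim : (z : LAlg F t n).im ≠ 0) (hconj : h⁻¹ * γ * h = embU z) :
    (∀ Ω : Set (Vtx O F), IsFundSet (centFix s γ) (centUnits O s γ) Set.univ Ω →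
      IsFundSet (torusK hs ht hn) (unitsK hs ht hn) Set.univ {x | h • x ∈ Ω}) ∧
    (∀ Ω : Set (Vtx O F), IsFundSet (centFix s γ) (centUnits O s γ) (fixedVtx O F hs) Ω →
      IsFundSet (torusK hs ht hn) (unitsK hs ht hn) (fixedVtx O F hs) {x | h • x ∈ Ω}) := by
  have hγe : γ = h * embU z * h⁻¹ := by rw [← hconj]; group
  have hcent : ∀ g, g ∈ centFix s γ ↔ h⁻¹ * g * h ∈ torusK hs ht hn := by
    intro g
    rw [centFix, Subgroup.mem_inf, Subgroup.mem_centralizer_singleton_iff]
    constructor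
    · rintro ⟨hg1, hg2⟩
      have hm : ((h⁻¹ * g * h : GL (Fin 2) F) : Matrix (Fin 2) (Fin 2) F) *
          emb (z : LAlg F t n) = emb (z : LAlg F t n) * (h⁻¹ * g * h : GL (Fin 2) F).1 := by
        refine congrArg Units.val (show (h⁻¹ * g * h) * embU z = embU z * (h⁻¹ * g * h) from ?_)
        rw [← hconj]
        calc h⁻¹ * g * h * (h⁻¹ * γ * h) = h⁻¹ * (g * γ) * h := by group
          _ = h⁻¹ * (γ * g) * h := by rw [hg2]
          _ = _ := by group
      have he : emb (z : LAlg F t n) =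
          (z : LAlg F t n).re • 1 + (z : LAlg F t n).im • genMat t n := by
        ext i j; fin_cases i <;> fin_cases j <;> simp [emb, genMat] <;> ring
      rw [he, mul_add, add_mul, Matrix.mul_smul, Matrix.smul_mul, mul_one, one_mul,
        Matrix.mul_smul, Matrix.smul_mul, add_right_inj] at hm
      obtain ⟨y, hy, -, -⟩ := exists_emb_of_commute (smul_right_injective _ hzim hm).symm
      have hyu : IsUnit y := by
        rw [QuadraticAlgebra.isUnit_iff_norm_isUnit, ← det_emb, hy]
        exact isUnit_iff_ne_zero.mpr (h⁻¹ * g * h).det_ne_zero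
      have hy' : embU hyu.unit = h⁻¹ * g * h := Units.ext hy
      refine ⟨hyu.unit, embU_injective ?_, hy'⟩
      rw [← gAut_embU hs ht hn, hy', map_mul, map_mul, map_inv, hh, show gAut s g = g from hg1]
    · rintro ⟨y, hy, e⟩
      have hge : g = h * embU y * h⁻¹ := by rw [e]; group
      refine ⟨?_, ?_⟩
      · show gAut s g = g
        rw [hge, map_mul, map_mul, map_inv, hh, gAut_embU hs ht hn, hy]
      · rw [hge, hγe]
        calc h * embU y * h⁻¹ * (h * embU z * h⁻¹) = h * embU (y * z) * h⁻¹ := by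
              rw [map_mul]; group
          _ = h * embU (z * y) * h⁻¹ := by rw [mul_comm]
          _ = _ := by rw [map_mul]; group
  have hset : ∀ g, g ∈ centUnitSet O s γ ↔ h⁻¹ * g * h ∈ unitsK hs ht hn := by
    intro g
    constructor
    · rintro ⟨hg, a, b₁, b, htr, hdet⟩
      obtain ⟨y, hy, e⟩ := (hcent g).mp hg
      have he : (g : Matrix (Fin 2) (Fin 2) F) =
          (h : Matrix (Fin 2) (Fin 2) F) * emb (y : LAlg F t n) * (h⁻¹ : GL (Fin 2) F).1 := by
        rw [show g = h * embU y * h⁻¹ by rw [e]; group]; rfl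
      rw [he, trace_units_conj] at htr
      rw [he, det_units_conj, det_emb] at hdet
      exact ⟨y, ⟨hy, exists_smul_toL_of_integral hπ hmax y htr hdet⟩, e⟩
    · rintro ⟨y, ⟨hy, c', v, hyv⟩, e⟩
      refine ⟨(hcent g).mpr ⟨y, hy, e⟩, c'⁻¹, 2 * (v : QA O t n).re + t * (v : QA O t n).im,
        (QuadraticAlgebra.isUnit_iff_norm_isUnit.mp v.isUnit).unit, ?_, ?_⟩
      all_goals
        have hc' : c' ≠ 0 := fun h0 => y.ne_zero (by rw [hyv, h0, zero_smul])
        rw [show (g : Matrix (Fin 2) (Fin 2) F) =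
          (h : Matrix (Fin 2) (Fin 2) F) * emb (y : LAlg F t n) * (h⁻¹ : GL (Fin 2) F).1 by
          rw [show g = h * embU y * h⁻¹ by rw [e]; group]; rfl]
      · rw [trace_units_conj, trace_emb, hyv]
        simp [toL, map_ofNat]
        field_simp
      · rw [det_units_conj, det_emb, hyv, IsUnit.unit_spec, QuadraticAlgebra.norm_def, qa_norm]
        simp [toL]
        field_simp
  have hunits : ∀ g, g ∈ centUnits O s γ ↔ h⁻¹ * g * h ∈ unitsK hs ht hn := by
    intro g
    refine ⟨fun hg => ?_, fun hg => Subgroup.subset_closure ((hset g).mpr hg)⟩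
    induction hg using Subgroup.closure_induction with
    | mem x hx => exact (hset x).mp hx
    | one => simp [one_mem]
    | mul x y _ _ hx hy =>
      have := mul_mem hx hy
      rwa [show h⁻¹ * x * h * (h⁻¹ * y * h) = h⁻¹ * (x * y) * h by group] at this
    | inv x _ hx =>
      have := inv_mem hx
      rwa [show (h⁻¹ * x * h)⁻¹ = h⁻¹ * x⁻¹ * h by group] at this
  have htrans : ∀ {P : Set (Vtx O F)} {Ω : Set (Vtx O F)}, (∀ x, h • x ∈ P ↔ x ∈ P) →
      IsFundSet (centFix s γ) (centUnits O s γ) P Ω →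
      IsFundSet (torusK hs ht hn) (unitsK hs ht hn) P {x | h • x ∈ Ω} := by
    intro P Ω hP hΩ
    have hgo : ∀ k, h⁻¹ * (h * k * h⁻¹) * h = k := fun k => by group
    refine ⟨fun x hx => (hP x).mp (hΩ.subset hx), fun u hu x hx => ?_, fun x hx => ?_,
      fun x hx k hk hkx => ?_⟩
    · have := hΩ.stable _ ((hunits (h * u * h⁻¹)).mpr (by rwa [hgo])) _ hx
      show h • u • x ∈ Ω
      rwa [← mul_smul, inv_mul_cancel_right, mul_smul] at this
    · obtain ⟨g, hg, hgx⟩ := hΩ.cover (h • x) ((hP x).mpr hx)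
      refine ⟨h⁻¹ * g * h, (hcent g).mp hg, ?_⟩
      show h • (h⁻¹ * g * h) • x ∈ Ω
      rwa [mul_smul, mul_smul, smul_inv_smul]
    · obtain ⟨u, hu, e⟩ := hΩ.unique _ hx (h * k * h⁻¹) ((hcent _).mpr (by rwa [hgo]))
        (by rw [← mul_smul, inv_mul_cancel_right, mul_smul]; exact hkx)
      refine ⟨h⁻¹ * u * h, (hunits u).mp hu, ?_⟩
      rw [← mul_smul, inv_mul_cancel_right, mul_smul] at e
      rw [mul_smul, mul_smul, ← e, inv_smul_smul]
  have hPfix : ∀ x, h • x ∈ fixedVtx O F hs ↔ x ∈ fixedVtx O F hs := fun x => by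
    show vAut hs (h • x) = h • x ↔ vAut hs x = x
    rw [gAut_smul_vtx hs hh]
    exact ⟨fun e => smul_left_cancel h e, fun e => by rw [e]⟩
  exact ⟨fun Ω hΩ => htrans (fun x => by simp) hΩ, fun Ω hΩ => htrans hPfix hΩ⟩

/-- **Spherical base change matching at an inert place.**  For a fixed regular `γ` and `δ`
commuting with it with norm a multiple of `γ`, the twisted orbital sum of `f` equals the orbital
sum of `bcFun q f M`. -/
theorem inert_matching {γ δ : GL (Fin 2) F} (hγ : gAut s γ = γ)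
    (hreg : (γ : Matrix (Fin 2) (Fin 2) F).trace ^ 2 ≠ 4 * (γ : Matrix (Fin 2) (Fin 2) F).det)
    (hcomm : δ * γ = γ * δ)
    (hnm : ∃ c : F, ((δ * gAut s δ * gAut s (gAut s δ) : GL (Fin 2) F) :
      Matrix (Fin 2) (Fin 2) F) = c • (γ : Matrix (Fin 2) (Fin 2) F))
    {f : ℕ → ℂ} {M : ℕ} (hf : ∀ k, M ≤ k → f k = 0)
    {Ω Ω' : Set (Vtx O F)}
    (hΩ : IsFundSet (centFix s γ) (centUnits O s γ) Set.univ Ω)
    (hΩ' : IsFundSet (centFix s γ) (centUnits O s γ) (fixedVtx O F hs) Ω') :
    (Ω ∩ Function.support (f ∘ moveDist hs hπ δ)).Finite ∧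
    (Ω' ∩ Function.support
      (bcFun (Nat.card (resFixed τ) : ℂ) f M ∘ moveDist hs hπ γ)).Finite ∧
    ∑ᶠ x ∈ Ω, f (moveDist hs hπ δ x) =
      ∑ᶠ x ∈ Ω', bcFun (Nat.card (resFixed τ) : ℂ) f M (moveDist hs hπ γ x) := by
  classical
  obtain ⟨h, t, n, ht, hn, z, hh, hmax, hzim, hzfix, hconj⟩ :=
    exists_normalForm hs hπ hπτ hτ hγ hreg
  have hγe : γ = h * embU z * h⁻¹ := by rw [← hconj]; group
  -- the twisted element in the torus
  obtain ⟨w, hw⟩ : ∃ w : (LAlg F t n)ˣ, h⁻¹ * δ * h = embU w := by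
    have hcom : (h⁻¹ * δ * h) * embU z = embU z * (h⁻¹ * δ * h) := by
      rw [← hconj]
      calc h⁻¹ * δ * h * (h⁻¹ * γ * h) = h⁻¹ * (δ * γ) * h := by group
        _ = h⁻¹ * (γ * δ) * h := by rw [hcomm]
        _ = _ := by group
    set X := ((h⁻¹ * δ * h : GL (Fin 2) F) : Matrix (Fin 2) (Fin 2) F)
    have hm : X * emb (z : LAlg F t n) = emb (z : LAlg F t n) * X :=
      congrArg Units.val hcom
    have he : emb (z : LAlg F t n) =
        (z : LAlg F t n).re • 1 + (z : LAlg F t n).im • genMat t n := by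
      ext i j; fin_cases i <;> fin_cases j <;> simp [emb, genMat] <;> ring
    rw [he, mul_add, add_mul, Matrix.mul_smul, Matrix.smul_mul, mul_one, one_mul, Matrix.mul_smul,
      Matrix.smul_mul, add_right_inj] at hm
    obtain ⟨y, hy, -, -⟩ := exists_emb_of_commute (smul_right_injective _ hzim hm).symm
    have hyu : IsUnit y := by
      rw [QuadraticAlgebra.isUnit_iff_norm_isUnit, ← det_emb, hy]
      exact isUnit_iff_ne_zero.mpr (h⁻¹ * δ * h).det_ne_zero
    exact ⟨hyu.unit, Units.ext hy.symm⟩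
  set lm := Units.map (lMap hs ht hn).toMonoidHom
  set N := nmHom lm w
  have hN : embU N = h⁻¹ * (δ * gAut s δ * gAut s (gAut s δ)) * h := by
    show embU (w * lm w * lm (lm w)) = _
    have e2 : ∀ y, embU (lm y) = gAut s (embU y) := fun y => (gAut_embU hs ht hn y).symm
    rw [map_mul, map_mul, e2 (lm w), e2 w, ← hw]
    simp only [map_mul, map_inv, hh]
    group
  obtain ⟨c, hc⟩ := hnm
  have hc0 : c ≠ 0 := fun h0 =>
    (δ * gAut s δ * gAut s (gAut s δ)).ne_zero (by rw [hc, h0, zero_smul])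
  have hNz : (N : LAlg F t n) = c • (z : LAlg F t n) := by
    have h1 : emb (N : LAlg F t n) = c • emb (z : LAlg F t n) := by
      have h2 := congrArg Units.val hN
      have h3 := congrArg Units.val hconj
      simp only [Units.val_mul] at h2 h3
      rw [show emb (N : LAlg F t n) = _ from h2, show emb (z : LAlg F t n) = _ from h3.symm]
      simp only [Units.val_mul] at hc
      rw [hc, Matrix.mul_smul, Matrix.smul_mul]
    have a0 := congrFun (congrFun h1 0) 0
    have a1 := congrFun (congrFun h1 1) 0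
    simp [emb] at a0 a1
    exact QuadraticAlgebra.ext (by simpa using a0) (by simpa using a1)
  have hreg' : (N : LAlg F t n).im ≠ 0 := by
    rw [hNz]; simpa using mul_ne_zero hc0 hzim
  obtain ⟨hfinF, hfinK, heq⟩ := inert_matching_std hs hπ hπτ ht hn hmax hτ hf w hreg'
  set q : ℂ := (Nat.card (resFixed τ) : ℂ)
  -- the scalar between the norm and `γ`
  have hcu : IsUnit (c • (1 : LAlg F t n)) :=
    ⟨⟨c • 1, c⁻¹ • 1, by rw [smul_mul_smul_comm, mul_inv_cancel₀ hc0, one_mul, one_smul],
      by rw [smul_mul_smul_comm, inv_mul_cancel₀ hc0, one_mul, one_smul]⟩, rfl⟩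
  have hNe : embU N = embU hcu.unit * embU z := by
    rw [← map_mul]
    congr 1
    exact Units.ext (by rw [hNz, Units.val_mul, IsUnit.unit_spec, smul_one_mul])
  have hdF : ∀ x, moveDist hs hπ δ (h • x) = moveDist hs hπ (embU w) x := fun x => by
    rw [moveDist_smul hs hπ hh, hw]
  have hdK : ∀ x, moveDist hs hπ γ (h • x) = moveDist hs hπ (embU N) x := fun x => by
    rw [moveDist_smul hs hπ hh, hconj, hNe,
      moveDist_scalar hs hπ (scalar_mem_sphSub (IsUnit.unit_spec hcu))
        (scalar_commute (IsUnit.unit_spec hcu))]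
  -- transport of the fundamental sets
  obtain ⟨hFF', hKK'⟩ := isFundSet_conj hs hπ hπτ hτ (ht := ht) (hn := hn) hh hmax hzim hconj
  have hFF := hFF' Ω hΩ
  have hKK := hKK' Ω' hΩ'
  have hcommT := torusK_comm (F := F) hs ht hn
  have hle := unitsK_le (F := F) hs ht hn
  have hinv : ∀ (y : (LAlg F t n)ˣ), ∀ k ∈ torusK hs ht hn, ∀ x,
      moveDist hs hπ (embU y) (k • x) = moveDist hs hπ (embU y) x := by
    rintro y _ ⟨a, ha, rfl⟩ x
    rw [moveDist_smul hs hπ (by rw [gAut_embU hs ht hn, ha]), ← map_inv, ← map_mul, ← map_mul,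
      mul_comm a⁻¹, inv_mul_cancel_right]
  obtain ⟨hfF, hsF⟩ := IsFundSet.finsum_eq hle hcommT (isFundSet_stdF hs hπ ht hn hτ hπτ hmax)
    hFF (Φ := f ∘ moveDist hs hπ (embU w)) fun k hk x _ => congrArg f (hinv w k hk x)
  obtain ⟨hfK, hsK⟩ := IsFundSet.finsum_eq hle hcommT (isFundSet_stdK hs hπ ht hn hτ hπτ hmax)
    hKK (Φ := bcFun q f M ∘ moveDist hs hπ (embU N)) fun k hk x _ =>
      congrArg (bcFun q f M) (hinv N k hk x)
  have hbij : ∀ Ω : Set (Vtx O F), Set.BijOn (fun x => h • x) {x | h • x ∈ Ω} Ω := fun Ω =>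
    ⟨fun x hx => hx, fun x _ y _ e => smul_left_cancel h e,
      fun y hy => ⟨h⁻¹ • y, by show h • h⁻¹ • y ∈ Ω; rwa [smul_inv_smul], smul_inv_smul _ _⟩⟩
  refine ⟨((hfF hfinF).image (fun x => h • x)).subset ?_,
    ((hfK hfinK).image (fun x => h • x)).subset ?_, ?_⟩
  · rintro y ⟨hy, hy'⟩
    exact ⟨h⁻¹ • y, ⟨by show h • h⁻¹ • y ∈ Ω; rwa [smul_inv_smul],
      by rw [Function.mem_support, Function.comp_apply, ← hdF, smul_inv_smul]; exact hy'⟩,
      smul_inv_smul _ _⟩
  · rintro y ⟨hy, hy'⟩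
    exact ⟨h⁻¹ • y, ⟨by show h • h⁻¹ • y ∈ Ω'; rwa [smul_inv_smul],
      by rw [Function.mem_support, Function.comp_apply, ← hdK, smul_inv_smul]; exact hy'⟩,
      smul_inv_smul _ _⟩
  calc ∑ᶠ x ∈ Ω, f (moveDist hs hπ δ x)
      = ∑ᶠ x ∈ {x | h • x ∈ Ω}, f (moveDist hs hπ (embU w) x) :=
        (finsum_mem_eq_of_bijOn _ (hbij Ω) fun x _ => (congrArg f (hdF x)).symm).symm
    _ = ∑ᶠ x ∈ stdF (F := F) hπ t n, f (moveDist hs hπ (embU w) x) := hsF.symm
    _ = _ := heq (card_residue hτ)
    _ = ∑ᶠ x ∈ {x | h • x ∈ Ω'}, bcFun q f M (moveDist hs hπ (embU N) x) := hsK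
    _ = _ := finsum_mem_eq_of_bijOn _ (hbij Ω') fun x _ => (congrArg (bcFun q f M) (hdK x)).symm

omit [Finite (ResidueField O)] in
/-- A fixed vertex has a fixed representative. -/
theorem exists_fixed_vertex_rep {x : Vtx O F} (hx : vAut hs x = x) :
    ∃ g : GL (Fin 2) F, gAut s g = g ∧ (g : Vtx O F) = x := by
  have ht : τ (1 : O) = 1 := map_one τ
  have hn : τ (0 : O) = 0 := map_zero τ
  have hmax : IsMaximalOrder π (1 : O) 0 := by
    intro a h1 h2
    have h3 : π ∣ a * (a - 1) := by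
      have := (dvd_pow_self π two_ne_zero).trans h2
      rwa [show a ^ 2 - 1 * a + 0 = a * (a - 1) by ring] at this
    rcases hπ.prime.dvd_or_dvd h3 with h | h
    · exact hπ.not_isUnit (isUnit_of_dvd_one (by simpa using dvd_sub (h.mul_left 2) h1))
    · exact hπ.not_isUnit (isUnit_of_dvd_one (by
        simpa [show 2 * a - 1 - 2 * (a - 1) = (1 : O) by ring] using dvd_sub h1 (h.mul_left 2)))
  have hK := isFundSet_stdK (F := F) hs hπ ht hn hτ hπτ hmax
  obtain ⟨k, hk, m, u, hu, e⟩ := hK.cover x hx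
  obtain ⟨z, hz, rfl⟩ := hk
  refine ⟨(embU z)⁻¹ * (tU u * stepMat hπ m), ?_, ?_⟩
  · rw [map_mul, map_mul, map_inv, gAut_embU hs ht hn, hz, gAut_stepMat hs hπ hπτ]
    congr 2
    rw [tU, MonoidHom.comp_apply, gAut_embU hs ht hn]
    congr 1
    exact Units.ext ((lMap_toL hs ht hn _).trans (congrArg (fun v : (QA O (1 : O) 0)ˣ => toL F (v : QA O (1 : O) 0)) hu))
  · show (((embU z)⁻¹ • vert hπ m u : Vtx O F)) = x
    rw [e, inv_smul_smul]

end FermatAgent.LT.Inert
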