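import Fermat.Agent.LT.Descent.Local.Inert.Satake

set_option autoImplicit false

/-!
# Base change of the powers of the Hecke operator
-/

noncomputable section

open Finset

namespace FermatAgent.LT.Inert

/-- Composition with the Hecke operator on functions of the distance, in a tree of valency `q+1`:
`(T f) d = ∑ f d'` over the neighbours. -/
def heckeStep (q : ℂ) (f : ℕ → ℂ) : ℕ → ℂ
  | 0 => (q + 1) * f 1
  | n + 1 => f n + q * f (n + 2)

/-- The base change of one Hecke operator: `T³ - 3 q T`. -/
def bcStep (q : ℂ) (f : ℕ → ℂ) : ℕ → ℂ :=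
  fun n => heckeStep q (heckeStep q (heckeStep q f)) n - 3 * q * heckeStep q f n

/-- The function of the identity. -/
def unitFun : ℕ → ℂ := fun n => if n = 0 then 1 else 0

/-- The action of the Hecke operator on transforms. -/
def specStep (q : ℂ) (S : ℕ → ℂ) : ℕ → ℂ
  | 0 => 2 * q * S 1
  | n + 1 => S n + q * S (n + 2)

variable {q : ℂ} {f g : ℕ → ℂ} {M : ℕ}

theorem heckeStep_eq_zero (hf : ∀ n, M ≤ n → f n = 0) {n : ℕ} (hn : M + 1 ≤ n) :
    heckeStep q f n = 0 := by
  obtain ⟨k, rfl⟩ : ∃ k, n = k + 1 := ⟨n - 1, by omega⟩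
  simp only [heckeStep]
  rw [hf k (by omega), hf (k + 2) (by omega)]
  ring

theorem satake_heckeStep (hf : ∀ n, M ≤ n → f n = 0) {B : ℕ} (hB : M + 1 ≤ B) (n : ℕ) :
    satake q (heckeStep q f) B n = specStep q (satake q f M) n := by
  have hT : ∀ m, B ≤ m → heckeStep q f m = 0 := fun m hm => heckeStep_eq_zero hf (by omega)
  have hS : ∀ m, M ≤ m → satake q f M m = 0 := fun m hm => satake_eq_zero hf hm
  have key : ∀ d n, B + 1 ≤ n + d →
      satake q (heckeStep q f) B n = specStep q (satake q f M) n := by
    intro d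
    induction d with
    | zero =>
      intro n hn
      obtain ⟨k, rfl⟩ : ∃ k, n = k + 1 := ⟨n - 1, by omega⟩
      rw [satake_eq_zero hT (by omega), specStep, hS k (by omega), hS (k + 2) (by omega)]
      ring
    | succ d ih =>
      intro n hn
      have h1 := satake_step (q := q) hT n
      rw [ih (n + 2) (by omega)] at h1
      rcases n with _ | k
      · simp only [specStep, heckeStep] at h1 ⊢
        linear_combination h1 - q * satake_step (q := q) hf 1
      · simp only [specStep, heckeStep] at h1 ⊢
        linear_combination h1 - satake_step (q := q) hf k - q * satake_step (q := q) hf (k + 2)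
  exact key (B + 1) n (by omega)

/-- The transform determines a finitely supported function. -/
theorem eq_of_satake_eq (hf : ∀ n, M ≤ n → f n = 0) (hg : ∀ n, M ≤ n → g n = 0)
    (h : ∀ n, satake q f M n = satake q g M n) : f = g := by
  have key : ∀ d n, M ≤ n + d → f n = g n := by
    intro d
    induction d with
    | zero => intro n hn; rw [hf n (by omega), hg n (by omega)]
    | succ d ih =>
      intro n hn
      have h1 := satake_step (q := q) hf n
      rw [h, h, satake_step hg n, ih (n + 2) (by omega)] at h1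
      linear_combination -h1
  funext n
  exact key M n (by omega)

theorem specStep_cube (q : ℂ) (S : ℕ → ℂ) (n : ℕ) :
    specStep q (specStep q (specStep q S)) n - 3 * q * specStep q S n =
      if n = 0 then 2 * q ^ 3 * S 3 else if n = 1 then q ^ 2 * S 2 + q ^ 3 * S 4
      else if n = 2 then q * S 1 + q ^ 3 * S 5 else S (n - 3) + q ^ 3 * S (n + 3) := by
  rcases n with _ | _ | _ | k <;> simp [specStep] <;> ring

/-- The spectral form of `T ↦ T³ - 3 q T`. -/
theorem specStep_third (q : ℂ) (S : ℕ → ℂ) (n : ℕ) :
    specStep q (specStep q (specStep q fun j => if j % 3 = 0 then S (j / 3) else 0)) n -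
        3 * q * specStep q (fun j => if j % 3 = 0 then S (j / 3) else 0) n =
      if n % 3 = 0 then specStep (q ^ 3) S (n / 3) else 0 := by
  rw [specStep_cube]
  rcases n with _ | _ | _ | k
  · simp [specStep]
  · simp
  · simp
  · rw [if_neg (by omega), if_neg (by omega), if_neg (by omega), show k + 1 + 1 + 1 - 3 = k by omega,
      show (k + 1 + 1 + 1) % 3 = k % 3 by omega, show (k + 1 + 1 + 1 + 3) % 3 = k % 3 by omega,
      show (k + 1 + 1 + 1) / 3 = k / 3 + 1 by omega,
      show (k + 1 + 1 + 1 + 3) / 3 = k / 3 + 2 by omega]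
    split_ifs <;> simp [specStep]

theorem bcStep_eq_zero (hf : ∀ n, M ≤ n → f n = 0) {n : ℕ} (hn : M + 3 ≤ n) :
    bcStep q f n = 0 := by
  have h1 : ∀ m, M + 1 ≤ m → heckeStep q f m = 0 := fun m hm => heckeStep_eq_zero hf hm
  have h2 : ∀ m, M + 1 + 1 ≤ m → heckeStep q (heckeStep q f) m = 0 :=
    fun m hm => heckeStep_eq_zero h1 hm
  simp [bcStep, heckeStep_eq_zero h2 (show M + 1 + 1 + 1 ≤ n by omega), h1 n (by omega)]

/-- Base change intertwines `T` with `T³ - 3 q T`. -/
theorem bcFun_heckeStep (hf : ∀ n, M ≤ n → f n = 0) :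
    bcFun q (heckeStep (q ^ 3) f) (M + 1) = bcStep q (bcFun q f M) := by
  set h := bcFun q f M
  have hh : ∀ n, 3 * M ≤ n → h n = 0 := fun n hn => bcFun_eq_zero hf hn
  have hT : ∀ n, M + 1 ≤ n → heckeStep (q ^ 3) f n = 0 := fun n hn => heckeStep_eq_zero hf hn
  refine eq_of_satake_eq (q := q) (M := 3 * (M + 1)) (fun n hn => bcFun_eq_zero hT hn)
    (fun n hn => bcStep_eq_zero hh (by omega)) fun n => ?_
  rw [satake_bcFun hT]
  have h1 : ∀ m, 3 * M + 1 ≤ m → heckeStep q h m = 0 := fun m hm => heckeStep_eq_zero hh hm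
  have h2 : ∀ m, 3 * M + 2 ≤ m → heckeStep q (heckeStep q h) m = 0 :=
    fun m hm => heckeStep_eq_zero h1 hm
  have hlin : satake q (bcStep q h) (3 * (M + 1)) n =
      satake q (heckeStep q (heckeStep q (heckeStep q h))) (3 * (M + 1)) n -
        3 * q * satake q (heckeStep q h) (3 * (M + 1)) n := by
    simp only [satake, bcStep]
    rw [sum_congr rfl fun i _ => show q ^ i * (q - 1) *
        (heckeStep q (heckeStep q (heckeStep q h)) (n + 2 * (i + 1)) -
          3 * q * heckeStep q h (n + 2 * (i + 1))) =
        q ^ i * (q - 1) * heckeStep q (heckeStep q (heckeStep q h)) (n + 2 * (i + 1)) -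
          3 * q * (q ^ i * (q - 1) * heckeStep q h (n + 2 * (i + 1))) by ring,
      sum_sub_distrib, ← mul_sum]
    ring
  have e1 : satake q (heckeStep q h) (3 * M + 1) = specStep q (satake q h (3 * M)) :=
    funext fun m => satake_heckeStep hh le_rfl m
  have e2 : satake q (heckeStep q (heckeStep q h)) (3 * M + 2) =
      specStep q (satake q (heckeStep q h) (3 * M + 1)) :=
    funext fun m => satake_heckeStep h1 le_rfl m
  rw [hlin, satake_heckeStep h2 (by omega), satake_heckeStep hh (by omega), e2, e1,
    show satake q h (3 * M) = fun j => if j % 3 = 0 then satake (q ^ 3) f M (j / 3) else 0 from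
      funext fun j => satake_bcFun hf j, specStep_third]
  split_ifs
  · rw [satake_heckeStep hf le_rfl]
  · rfl

theorem heckeStep_iterate_eq_zero : ∀ (k : ℕ) {n : ℕ}, k + 1 ≤ n →
    (heckeStep q)^[k] unitFun n = 0 := by
  intro k
  induction k with
  | zero => intro n hn; simp [unitFun]; omega
  | succ k ih =>
    intro n hn
    rw [Function.iterate_succ_apply']
    exact heckeStep_eq_zero (fun m hm => ih hm) hn

theorem bcFun_unitFun : bcFun q unitFun 1 = unitFun := by
  funext n
  rcases n with _ | _ | _ | n <;> simp [bcFun, satakeInv, satake, unitFun, sum_range_succ,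
    show ∀ a, ¬(a + 3 < 3) by omega, add_assoc]

/-- The `k`-th power of the Hecke operator at `Q = q³` matches the `k`-th power of `T³ - 3 q T`. -/
theorem bcFun_pow (k : ℕ) :
    bcFun q ((heckeStep (q ^ 3))^[k] unitFun) (k + 1) = (bcStep q)^[k] unitFun := by
  induction k with
  | zero => exact bcFun_unitFun
  | succ k ih =>
    rw [Function.iterate_succ_apply', Function.iterate_succ_apply', ← ih,
      bcFun_heckeStep (fun n hn => heckeStep_iterate_eq_zero k hn)]

end FermatAgent.LT.Inert
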