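import Fermat.Agent.LT.Descent.Local.Inert.Lattice
import Fermat.Agent.LT.Descent.Local.Inert.Walk

set_option autoImplicit false

/-!
# The Hecke operator on functions of the distance
-/

noncomputable section

open Matrix IsLocalRing IsDiscreteValuationRing

namespace FermatAgent.LT.Inert

variable {O : Type*} [CommRing O] [IsDomain O] [IsDiscreteValuationRing O]
variable {F : Type*} [Field F] [Algebra O F] [IsFractionRing O F]
variable {π : O} (hπ : Irreducible π)
include hπ

theorem prim_of_addVal_det_le_one {B : Matrix (Fin 2) (Fin 2) O} (h : addVal O B.det ≤ 1) :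
    Prim B := by
  by_contra hp
  simp only [Prim, not_exists, ← dvd_iff_not_isUnit hπ] at hp
  have h2 : π ^ 2 ∣ B.det := by
    rw [det_fin_two, sq]
    exact dvd_sub (mul_dvd_mul (hp 0 0) (hp 1 1)) (mul_dvd_mul (hp 0 1) (hp 1 0))
  have h3 := (addVal_le_iff_dvd.mpr h2).trans h
  rw [addVal_pow, addVal_uniformizer hπ, nsmul_one] at h3
  simp at h3

/-- The `q + 1` neighbours of the base vertex, from the point of view of a vertex at distance `d`:
all are one step further for `d = 0`; otherwise exactly one is nearer. -/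
theorem sum_neighbours {ι : Type*} [Finite ι] (R : ι → O)
    (hR : Function.Bijective fun i => residue O (R i))
    (N : ι → GL (Fin 2) F) (N' : GL (Fin 2) F)
    (hN : ∀ i, (N i : Matrix (Fin 2) (Fin 2) F) =
      !![algebraMap O F π, algebraMap O F (R i); 0, 1])
    (hN' : (N' : Matrix (Fin 2) (Fin 2) F) = !![1, 0; 0, algebraMap O F π])
    (f : ℕ → ℂ) (g : GL (Fin 2) F) :
    (∑ᶠ i, f (depth O ((N i)⁻¹ * g))) + f (depth O (N'⁻¹ * g)) =
      heckeStep (Nat.card ι : ℂ) f (depth O g) := by
  classical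
  have : Fintype ι := Fintype.ofFinite ι
  have hp : algebraMap O F π ≠ 0 := piF_ne_zero hπ
  obtain ⟨d, hd⟩ := exists_hasDepth hπ g
  rw [depth_eq hd, finsum_eq_sum_of_fintype, Nat.card_eq_fintype_card]
  obtain ⟨c, hc, A, hA, hcA, hdA⟩ := hd
  -- the numerators of the translates
  set B : ι → Matrix (Fin 2) (Fin 2) O := fun i =>
    !![A 0 0 - R i * A 1 0, A 0 1 - R i * A 1 1; π * A 1 0, π * A 1 1]
  set B' : Matrix (Fin 2) (Fin 2) O := !![π * A 0 0, π * A 0 1; A 1 0, A 1 1]
  have hB : ∀ i, (c * algebraMap O F π) •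
      (((N i)⁻¹ * g : GL (Fin 2) F) : Matrix (Fin 2) (Fin 2) F) = intMat O F (B i) := by
    intro i
    have e : intMat O F (B i) = !![1, -algebraMap O F (R i); 0, algebraMap O F π] *
        intMat O F A := by
      ext a b; fin_cases a <;> fin_cases b <;> simp [B, Matrix.mul_apply, Fin.sum_univ_two, sub_eq_add_neg]
    rw [e, ← hcA, Matrix.mul_smul, Units.val_mul, mul_smul, ← Matrix.smul_mul]
    congr 2
    apply (N i).isUnit.mul_left_inj.mp
    rw [Matrix.smul_mul, Units.inv_mul, hN]
    ext a b; fin_cases a <;> fin_cases b <;> simp [Matrix.mul_apply, Fin.sum_univ_two]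
  have hB' : (c * algebraMap O F π) •
      ((N'⁻¹ * g : GL (Fin 2) F) : Matrix (Fin 2) (Fin 2) F) = intMat O F B' := by
    have e : intMat O F B' = !![algebraMap O F π, 0; 0, 1] * intMat O F A := by
      ext a b; fin_cases a <;> fin_cases b <;> simp [B', Matrix.mul_apply, Fin.sum_univ_two]
    rw [e, ← hcA, Matrix.mul_smul, Units.val_mul, mul_smul, ← Matrix.smul_mul]
    congr 2
    apply N'.isUnit.mul_left_inj.mp
    rw [Matrix.smul_mul, Units.inv_mul, hN']
    ext a b; fin_cases a <;> fin_cases b <;> simp [Matrix.mul_apply, Fin.sum_univ_two]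
  have hdB : ∀ i, addVal O (B i).det = (d + 1 : ℕ) := by
    intro i
    rw [show (B i).det = π * A.det by simp [B, det_fin_two]; ring, addVal_mul,
      addVal_uniformizer hπ, hdA]
    push_cast; ring
  have hdB' : addVal O B'.det = (d + 1 : ℕ) := by
    rw [show B'.det = π * A.det by simp [B', det_fin_two]; ring, addVal_mul,
      addVal_uniformizer hπ, hdA]
    push_cast; ring
  have hfar : ∀ i, Prim (B i) → depth O ((N i)⁻¹ * g) = d + 1 := fun i h =>
    depth_eq ⟨_, mul_ne_zero hc hp, B i, h, hB i, hdB i⟩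
  have hfar' : Prim B' → depth O (N'⁻¹ * g) = d + 1 := fun h =>
    depth_eq ⟨_, mul_ne_zero hc hp, B', h, hB', hdB'⟩
  have hnear : ∀ {G : GL (Fin 2) F} {C C' : Matrix (Fin 2) (Fin 2) O},
      (c * algebraMap O F π) • (G : Matrix (Fin 2) (Fin 2) F) = intMat O F C →
      addVal O C.det = (d + 1 : ℕ) → C = π • C' → Prim C' → ∃ e, d = e + 1 ∧ depth O G = e := by
    intro G C C' hG hC he hC'
    obtain ⟨e, he'⟩ : ∃ e : ℕ, addVal O C'.det = e := by
      refine (ENat.ne_top_iff_exists.mp fun htop => ?_).imp fun e he => he.symm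
      rw [he, det_smul, Fintype.card_fin, addVal_mul, addVal_pow, addVal_uniformizer hπ, htop,
        add_top] at hC
      exact ENat.natCast_ne_top _ hC.symm
    rw [he, det_smul, Fintype.card_fin, addVal_mul, addVal_pow, addVal_uniformizer hπ, he',
      nsmul_one] at hC
    have : 2 + e = d + 1 := by exact_mod_cast hC
    refine ⟨e, by omega, depth_eq ⟨c, hc, C', hC', ?_, he'⟩⟩
    apply smul_right_injective (Matrix (Fin 2) (Fin 2) F) hp
    show algebraMap O F π • c • (G : Matrix (Fin 2) (Fin 2) F) = algebraMap O F π • intMat O F C'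
    rw [smul_smul, mul_comm, hG, he]
    ext a b; simp
  rcases d with _ | d
  · rw [Finset.sum_congr rfl fun i _ => by
      rw [hfar i (prim_of_addVal_det_le_one hπ (by rw [hdB i]; rfl))],
      hfar' (prim_of_addVal_det_le_one hπ (by rw [hdB']; rfl))]
    simp [heckeStep]
    ring
  have hdet0 : residue O (A 0 0) * residue O (A 1 1) = residue O (A 0 1) * residue O (A 1 0) := by
    rw [← map_mul, ← map_mul, ← sub_eq_zero, ← map_sub, ← det_fin_two, residue_eq_zero_iff,
      mem_maximalIdeal]
    intro hu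
    rw [addVal_eq_zero_iff.mpr hu] at hdA
    exact Nat.succ_ne_zero d (by exact_mod_cast hdA.symm)
  have hres : ∀ {x : O}, ¬IsUnit x ↔ residue O x = 0 := fun {x} => by
    rw [residue_eq_zero_iff, mem_maximalIdeal]; rfl
  by_cases h1 : ∃ j, IsUnit (A 1 j)
  · obtain ⟨j, hj⟩ := h1
    have hj0 : residue O (A 1 j) ≠ 0 := fun h => hres.mpr h hj
    obtain ⟨i₀, hi₀⟩ := hR.2 (residue O (A 0 j) / residue O (A 1 j))
    change residue O (R i₀) = _ at hi₀
    rw [eq_div_iff hj0] at hi₀
    have hrow : ∀ j', residue O (A 0 j' - R i₀ * A 1 j') = 0 := by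
      intro j'
      rw [map_sub, map_mul, sub_eq_zero]
      have hcross : ∀ a b : Fin 2, residue O (A 0 a) * residue O (A 1 b) =
          residue O (A 0 b) * residue O (A 1 a) := by
        intro a b
        fin_cases a <;> fin_cases b <;> first | rfl | exact hdet0 | exact hdet0.symm
      apply mul_right_cancel₀ hj0
      linear_combination hcross j' j - residue O (A 1 j') * hi₀
    have hdvd : ∀ j', π ∣ A 0 j' - R i₀ * A 1 j' := fun j' =>
      (dvd_iff_not_isUnit hπ).mpr (hres.mpr (hrow j'))
    choose C hC using hdvd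
    obtain ⟨e, he, hnr⟩ := hnear (C' := !![C 0, C 1; A 1 0, A 1 1]) (hB i₀) (hdB i₀) (by
      ext a b; fin_cases a <;> fin_cases b <;> simp [B, hC]) ⟨1, j, by fin_cases j <;> simpa using hj⟩
    obtain rfl : e = d := by omega
    have hother : ∀ i ∈ Finset.univ.erase i₀, f (depth O ((N i)⁻¹ * g)) = f (e + 2) := by
      intro i hi
      rw [hfar i ⟨0, j, ?_⟩]
      have hne : residue O (A 0 j - R i * A 1 j) ≠ 0 := by
        intro h0
        rw [map_sub, map_mul, sub_eq_zero, ← hi₀] at h0
        exact (Finset.mem_erase.mp hi).1 (hR.1 (mul_right_cancel₀ hj0 h0)).symm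
      fin_cases j <;> simpa [B] using not_not.mp fun h => hne (hres.mp h)
    rw [← Finset.add_sum_erase _ _ (Finset.mem_univ i₀), hnr, Finset.sum_congr rfl hother,
      hfar' ⟨1, j, by fin_cases j <;> simpa [B'] using hj⟩, Finset.sum_const,
      Finset.card_erase_of_mem (Finset.mem_univ i₀), Finset.card_univ, nsmul_eq_mul,
      Nat.cast_sub (Fintype.card_pos_iff.mpr ⟨i₀⟩), heckeStep]
    push_cast
    ring
  · simp only [not_exists] at h1
    obtain ⟨j, hj⟩ : ∃ j, IsUnit (A 0 j) := by
      obtain ⟨a, b, hab⟩ := hA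
      fin_cases a
      · exact ⟨b, hab⟩
      · exact absurd hab (h1 b)
    choose C hC using fun j' => (dvd_iff_not_isUnit hπ).mpr (h1 j')
    obtain ⟨e, he, hnr⟩ := hnear (C' := !![A 0 0, A 0 1; C 0, C 1]) hB' hdB' (by
      ext a b; fin_cases a <;> fin_cases b <;> simp [B', hC]) ⟨0, j, by fin_cases j <;> simpa using hj⟩
    obtain rfl : e = d := by omega
    have hall : ∀ i ∈ Finset.univ, f (depth O ((N i)⁻¹ * g)) = f (e + 2) := by
      intro i _
      rw [hfar i ⟨0, j, ?_⟩]
      have hne : residue O (A 0 j - R i * A 1 j) ≠ 0 := by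
        rw [map_sub, map_mul, hres.mp (h1 j), mul_zero, sub_zero]
        exact fun h => hres.mpr h hj
      fin_cases j <;> simpa [B] using not_not.mp fun h => hne (hres.mp h)
    rw [hnr, Finset.sum_congr rfl hall, Finset.sum_const, Finset.card_univ, nsmul_eq_mul, heckeStep]
    ring

end FermatAgent.LT.Inert
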