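import Fermat.Agent.LT.Descent.Local.Inert.Main

set_option autoImplicit false

/-!
# Split classes whose eigenvalue ratio has valuation prime to three
-/

noncomputable section

open IsLocalRing IsDiscreteValuationRing Finset

namespace FermatAgent.LT.Inert

variable {O F : Type*} [CommRing O] [IsDomain O] [IsDiscreteValuationRing O] [Field F] [Algebra O F]
  [IsFractionRing O F]
variable {τ : O ≃+* O} {s : F ≃+* F} (hs : ∀ x, s (algebraMap O F x) = algebraMap O F (τ x))
variable {π t n : O} (hπ : Irreducible π) (hπτ : τ π = π) (hτ : IsCubic τ)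
  [Finite (ResidueField O)]

omit [Finite (ResidueField O)] in
include hπ in
/-- A torus element `p u` with `π ^ k · trace² = unit · norm`, for `0 < k`, comes from a simple root
of level `k`. -/
theorem pole_level (hmax : IsMaximalOrder π t n) {a₀ : O} {i k : ℕ} (hi : i ≠ 0)
    (hva : addVal O (poly t n a₀) = i) (v : (QA O t n)ˣ) {ε : Oˣ}
    (he : π ^ k * (2 * ((lin a₀ : QA O t n) * (v : QA O t n)).re +
      t * ((lin a₀ : QA O t n) * (v : QA O t n)).im) ^ 2 =
      (ε : O) * ((lin a₀ : QA O t n) * (v : QA O t n)).norm) :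
    i = k ∧ numRoots t n = 2 := by
  set r := (v : QA O t n).re
  set s' := (v : QA O t n).im
  set w := (lin a₀ : QA O t n) * (v : QA O t n)
  set T := 2 * w.re + t * w.im
  have hT : T = (t - 2 * a₀) * (r + (t - a₀) * s') - 2 * poly t n a₀ * s' := by
    simp [T, w, r, s', lin, QuadraticAlgebra.re_mul, QuadraticAlgebra.im_mul, poly]
    ring
  have hN : addVal O w.norm = i := by
    rw [map_mul, norm_lin, addVal_mul, hva,
      addVal_eq_zero_iff.mpr (QuadraticAlgebra.isUnit_iff_norm_isUnit.mp v.isUnit), add_zero]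
  have h1 : π ∣ poly t n a₀ :=
    addVal_le_iff_dvd.mp (by rw [addVal_uniformizer hπ, hva]; exact_mod_cast Nat.one_le_iff_ne_zero.mpr hi)
  have hval := congrArg (addVal O) he
  rw [addVal_mul, addVal_mul, addVal_pow, addVal_pow, addVal_uniformizer hπ,
    addVal_eq_zero_iff.mpr ε.isUnit, zero_add, hN] at hval
  by_cases hd : π ∣ 2 * a₀ - t
  · exfalso
    have hi1 : ¬2 ≤ i := fun h2 => hmax a₀ hd (addVal_le_iff_dvd.mp (by
      rw [addVal_pow, addVal_uniformizer hπ, show addVal O (a₀ ^ 2 - t * a₀ + n) = (i : ℕ∞) from hva]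
      simp only [nsmul_one]; exact_mod_cast h2))
    have hπT : π ∣ T := by
      rw [hT]
      exact dvd_sub ((show π ∣ t - 2 * a₀ by simpa using hd.neg_right).mul_right _)
        ((h1.mul_left _).mul_right _)
    obtain rfl : i = 1 := by omega
    have h3 : π ^ (k + 2) ∣ (ε : O) * w.norm := by
      rw [← he, pow_add]
      exact mul_dvd_mul_left _ (pow_dvd_pow_of_dvd hπT 2)
    have h4 := addVal_le_iff_dvd.mpr ((IsUnit.dvd_mul_left ε.isUnit).mp h3)
    rw [addVal_pow, addVal_uniformizer hπ, hN] at h4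
    have : k + 2 ≤ 1 := by
      simp only [nsmul_one] at h4
      exact_mod_cast h4
    omega
  · refine ⟨?_, (numRoots_of_root hπ h1).2 hd⟩
    have hTu : IsUnit T := by
      by_contra hcon
      rw [not_isUnit_iff_dvd hπ, hT] at hcon
      have h5 := dvd_add hcon ((h1.mul_left 2).mul_right s')
      rw [sub_add_cancel] at h5
      rcases hπ.prime.dvd_or_dvd h5 with h | h
      · exact hd (by simpa using h.neg_right)
      · have hN' : (v : QA O t n).norm = (r + a₀ * s') * (r + (t - a₀) * s') + poly t n a₀ * s' ^ 2 := by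
          rw [qa_norm]; simp only [poly, r, s']; ring
        refine (not_isUnit_iff_dvd hπ).mpr ?_ (QuadraticAlgebra.isUnit_iff_norm_isUnit.mp v.isUnit)
        rw [hN']
        exact dvd_add (h.mul_left _) (h1.mul_right _)
    rw [addVal_eq_zero_iff.mpr hTu] at hval
    simp at hval
    exact_mod_cast hval.symm

include hs hπ hπτ hτ

open Classical in
/-- **Vanishing when `trace² / det` has a pole of order prime to three.** -/
theorem inert_vanishing_pole {γ : GL (Fin 2) F} (hγ : gAut s γ = γ)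
    (hreg : (γ : Matrix (Fin 2) (Fin 2) F).trace ^ 2 ≠ 4 * (γ : Matrix (Fin 2) (Fin 2) F).det)
    {k : ℕ} (hk : ¬ 3 ∣ k) {ε : Oˣ}
    (hr : algebraMap O F π ^ k * (γ : Matrix (Fin 2) (Fin 2) F).trace ^ 2 =
      algebraMap O F (ε : O) * (γ : Matrix (Fin 2) (Fin 2) F).det)
    {f : ℕ → ℂ} {M : ℕ} (hf : ∀ j, M ≤ j → f j = 0) {Ω' : Set (Vtx O F)}
    (hΩ' : IsFundSet (centFix s γ) (centUnits O s γ) (fixedVtx O F hs) Ω') :
    (Ω' ∩ Function.support
      (bcFun (Nat.card (resFixed τ) : ℂ) f M ∘ moveDist hs hπ γ)).Finite ∧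
    ∑ᶠ x ∈ Ω', bcFun (Nat.card (resFixed τ) : ℂ) f M (moveDist hs hπ γ x) = 0 := by
  obtain ⟨h, t, n, ht, hn, z, hh, hmax, hzim, hzfix, hconj⟩ :=
    exists_normalForm hs hπ hπτ hτ hγ hreg
  obtain ⟨c, i, p, u, hc, hzp, hp⟩ := exists_split hπ hτ hπτ ht hn hmax z
  have hγe : (γ : Matrix (Fin 2) (Fin 2) F) = (h : Matrix (Fin 2) (Fin 2) F) *
      emb (z : LAlg F t n) * (h⁻¹ : GL (Fin 2) F).1 := by
    have e : γ = h * embU z * h⁻¹ := by rw [← hconj]; group
    rw [e]; rfl
  have htr : (γ : Matrix (Fin 2) (Fin 2) F).trace = 2 * (z : LAlg F t n).re +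
      algebraMap O F t * (z : LAlg F t n).im := by
    rw [hγe, Matrix.trace_mul_cycle, Units.inv_mul, one_mul, Matrix.trace_fin_two]
    simp [emb]; ring
  have hdet : (γ : Matrix (Fin 2) (Fin 2) F).det = (z : LAlg F t n).norm := by
    rw [hγe, Matrix.det_units_conj, det_emb]
  set w := p * (u : QA O t n)
  have he : π ^ k * (2 * w.re + t * w.im) ^ 2 = (ε : O) * w.norm := by
    apply IsFractionRing.injective O F
    apply mul_left_cancel₀ (pow_ne_zero 2 hc)
    rw [htr, hdet, hzp, QuadraticAlgebra.norm_def] at hr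
    simp [toL] at hr
    simp only [qa_norm, map_mul, map_pow, map_add, map_ofNat]
    linear_combination hr
  have hk0 : k ≠ 0 := fun e => hk (e ▸ dvd_zero 3)
  rcases hp with ⟨rfl, rfl⟩ | ⟨hi0, a₀, ha₀, rfl, hva⟩
  · exfalso
    have h1 : π ∣ (ε : O) * w.norm := he ▸ (dvd_pow_self π hk0).mul_right _
    refine (not_isUnit_iff_dvd hπ).mpr h1 (ε.isUnit.mul ?_)
    simp only [w, one_mul]
    exact QuadraticAlgebra.isUnit_iff_norm_isUnit.mp u.isUnit
  obtain ⟨rfl, hroots⟩ := pole_level hπ hmax hi0 hva u he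
  set q : ℂ := (Nat.card (resFixed τ) : ℂ)
  set g := bcFun q f M
  have hh' : ∀ j, 3 * M ≤ j → g j = 0 := fun j hj => bcFun_eq_zero hf hj
  have hd : ∀ m u', moveDist hs hπ (embU z) (vert hπ m u') = i + 2 * m := fun m u' => by
    rw [moveDist_vert hs hπ hπτ ht hn hc hzp (i := i) (by rw [norm_lin, hva])
      (Or.inr ⟨fun hu => hi0 (by
        rw [norm_lin] at hu
        rw [addVal_eq_zero_iff.mpr hu] at hva
        exact_mod_cast hva.symm), isUnit_one⟩), if_neg hi0]
  obtain ⟨hfin, ι, hι, hK⟩ := finsum_stdK hs hπ hπτ ht hn hτ g (3 * M + 1)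
    (moveDist hs hπ (embU z)) (fun m u' hm => by rw [hd]; exact hh' _ (by omega))
  have hP : ∀ m, ∑ᶠ x : {x : ClsM π t n m | sgM hπτ ht hn m x = x},
      g (moveDist hs hπ (embU z) (vert hπ m (ι m x))) =
      clsSize q ((numRoots t n : ℂ) - 1) m * g (i + 2 * m) := by
    intro m
    have := finite_clsM (t := t) (n := n) (m := m) hπ
    have : Fintype {x : ClsM π t n m | sgM hπτ ht hn m x = x} := Fintype.ofFinite _
    rw [finsum_eq_sum_of_fintype, sum_congr rfl fun x _ => by rw [hd], sum_const, card_univ,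
      ← Nat.card_eq_fintype_card, nsmul_eq_mul, (card_clsM (m := m) hπτ ht hn hπ hτ).2]
  have hsum : ∑ᶠ x ∈ stdK (F := F) hπ ht hn, g (moveDist hs hπ (embU z) x) = 0 := by
    rw [hK, sum_congr rfl fun m _ => hP m,
      sum_clsSize (M := 3 * M) q _ (g := fun m => g (i + 2 * m)) (fun l hl => hh' _ (by omega))
        (by omega), hroots]
    have e1 := bc_split_zero (q := q) hf (n := i) (by omega)
    simp only [satake] at e1
    norm_num
    simpa using e1
  -- transport
  have hdh : ∀ x, moveDist hs hπ γ (h • x) = moveDist hs hπ (embU z) x := fun x => by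
    rw [moveDist_smul hs hπ hh, hconj]
  have hKK := (isFundSet_conj hs hπ hπτ hτ (ht := ht) (hn := hn) hh hmax hzim hconj).2 Ω' hΩ'
  obtain ⟨hfK, hsK⟩ := IsFundSet.finsum_eq (unitsK_le (F := F) hs ht hn)
    (torusK_comm (F := F) hs ht hn) (isFundSet_stdK hs hπ ht hn hτ hπτ hmax) hKK
    (Φ := g ∘ moveDist hs hπ (embU z)) (by
      rintro _ ⟨a, ha, rfl⟩ x -
      refine congrArg g ?_
      rw [moveDist_smul hs hπ (by rw [gAut_embU hs ht hn, ha]), ← map_inv, ← map_mul, ← map_mul,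
        mul_comm a⁻¹, inv_mul_cancel_right])
  have hbij : Set.BijOn (fun x => h • x) {x | h • x ∈ Ω'} Ω' :=
    ⟨fun x hx => hx, fun x _ y _ e => smul_left_cancel h e,
      fun y hy => ⟨h⁻¹ • y, by show h • h⁻¹ • y ∈ Ω'; rwa [smul_inv_smul], smul_inv_smul _ _⟩⟩
  refine ⟨((hfK hfin).image (fun x => h • x)).subset ?_, ?_⟩
  · rintro y ⟨hy, hy'⟩
    exact ⟨h⁻¹ • y, ⟨by show h • h⁻¹ • y ∈ Ω'; rwa [smul_inv_smul],
      by rw [Function.mem_support, Function.comp_apply, ← hdh, smul_inv_smul]; exact hy'⟩,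
      smul_inv_smul _ _⟩
  calc ∑ᶠ x ∈ Ω', g (moveDist hs hπ γ x)
      = ∑ᶠ x ∈ {x | h • x ∈ Ω'}, g (moveDist hs hπ (embU z) x) :=
        (finsum_mem_eq_of_bijOn _ hbij fun x _ => (congrArg g (hdh x)).symm).symm
    _ = _ := hsK.symm.trans hsum

end FermatAgent.LT.Inert
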