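import Fermat.Agent.LT.Descent.Local.Inert.Torus

set_option autoImplicit false

/-!
# Reduction of units of the maximal order to the class groups modulo `πᵐ`
-/

noncomputable section

open IsLocalRing IsDiscreteValuationRing

namespace FermatAgent.LT.Inert

variable {O : Type*} [CommRing O]

/-- The class group at level `m`. -/
abbrev ClsM (π t n : O) (m : ℕ) : Type _ := Cls (Qm π m) (qmk π m t) (qmk π m n)

/-- Reduction of the quadratic order. -/
def qaRed (π t n : O) (m : ℕ) : QA O t n →+* QA (Qm π m) (qmk π m t) (qmk π m n) where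
  toFun w := ⟨qmk π m w.re, qmk π m w.im⟩
  map_one' := by ext <;> simp [QuadraticAlgebra.re_one, QuadraticAlgebra.im_one]
  map_zero' := by ext <;> simp
  map_add' z w := by ext <;> simp
  map_mul' z w := by ext <;> simp

/-- The class of a unit. -/
def redU (π t n : O) (m : ℕ) : (QA O t n)ˣ →* ClsM π t n m :=
  (QuotientGroup.mk' _).comp (Units.map (qaRed π t n m : QA O t n →* _))

variable {π t n : O} {m : ℕ}

theorem redU_def (u : (QA O t n)ˣ) : redU π t n m u =
    ((Units.map (qaRed π t n m : QA O t n →* _) u : (QA (Qm π m) (qmk π m t) (qmk π m n))ˣ) :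
      ClsM π t n m) := rfl

theorem redU_eq_one_iff {u : (QA O t n)ˣ} :
    redU π t n m u = 1 ↔ π ^ m ∣ (u : QA O t n).im := by
  rw [redU_def, QuotientGroup.eq_one_iff, mem_scalarUnits]
  exact qmk_eq_zero_iff

theorem redU_eq_iff {u v : (QA O t n)ˣ} :
    redU π t n m u = redU π t n m v ↔ π ^ m ∣ ((u⁻¹ * v : (QA O t n)ˣ) : QA O t n).im := by
  rw [← redU_eq_one_iff, map_mul, map_inv, inv_mul_eq_one]

theorem redU_mem_levSub {u : (QA O t n)ˣ} {j : ℕ} (hj : j ≤ m) :
    redU π t n m u ∈ levSub (qmk π m t) (qmk π m n) (Ideal.span {qmk π m (π ^ j)}) ↔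
      π ^ j ∣ (u : QA O t n).im := by
  rw [redU_def, mk_mem_levSub]
  show qmk π m (u : QA O t n).im ∈ _ ↔ _
  rw [Ideal.mem_span_singleton']
  constructor
  · rintro ⟨c, hc⟩
    obtain ⟨c, rfl⟩ := Ideal.Quotient.mk_surjective c
    rw [← map_mul, eq_comm, ← sub_eq_zero, ← map_sub, qmk_eq_zero_iff] at hc
    have h := dvd_add ((pow_dvd_pow π hj).trans hc) (dvd_mul_left (π ^ j) c)
    rwa [sub_add_cancel] at h
  · rintro ⟨c, hc⟩
    exact ⟨qmk π m c, by rw [hc, ← map_mul, mul_comm]⟩

variable {τ : O ≃+* O} (hπτ : τ π = π) (ht : τ t = t) (hn : τ n = n)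

/-- The action on units. -/
def uMap : (QA O t n)ˣ →* (QA O t n)ˣ := Units.map (qaMap τ ht hn : QA O t n →* QA O t n)

/-- The action on classes at level `m`. -/
def sgM (m : ℕ) : ClsM π t n m →* ClsM π t n m :=
  clsMap (τ := tauQ hπτ m) (by rw [tauQ_qmk, ht]) (by rw [tauQ_qmk, hn])

theorem sgM_redU (u : (QA O t n)ˣ) :
    sgM hπτ ht hn m (redU π t n m u) = redU π t n m (uMap ht hn u) := by
  rw [redU_def, redU_def, sgM, clsMap_mk]
  congr 1

variable [IsDomain O] [IsDiscreteValuationRing O] (hπ : Irreducible π)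
include hπ

-- the unused hypotheses keep the uniform signature of the section
set_option linter.unusedSectionVars false in
omit [IsDomain O] [IsDiscreteValuationRing O] hπτ in
theorem subsingleton_clsM : Subsingleton (ClsM π t n 0) := by
  have : Subsingleton (Qm π 0) := Ideal.Quotient.subsingleton_iff.mpr (by simp)
  refine ⟨fun a b => ?_⟩
  induction a using QuotientGroup.induction_on with
  | H a =>
    induction b using QuotientGroup.induction_on with
    | H b => exact congrArg _ (Subsingleton.elim a b)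

theorem redU_surjective : Function.Surjective (redU π t n m) := by
  intro x
  rcases Nat.eq_zero_or_pos m with rfl | hm
  · exact ⟨1, (subsingleton_clsM hπ).elim _ _⟩
  induction x using QuotientGroup.induction_on with
  | H x =>
    obtain ⟨a, ha⟩ := Ideal.Quotient.mk_surjective (x : QA (Qm π m) (qmk π m t) (qmk π m n)).re
    obtain ⟨b, hb⟩ := Ideal.Quotient.mk_surjective (x : QA (Qm π m) (qmk π m t) (qmk π m n)).im
    have hx := QuadraticAlgebra.isUnit_iff_norm_isUnit.mp x.isUnit
    have he : (x : QA (Qm π m) (qmk π m t) (qmk π m n)).norm = qmk π m (⟨a, b⟩ : QA O t n).norm := by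
      rw [qa_norm, qa_norm, ← ha, ← hb]
      simp
    rw [he, isUnit_qmk_iff hπ (by omega)] at hx
    refine ⟨(QuadraticAlgebra.isUnit_iff_norm_isUnit.mpr hx).unit, ?_⟩
    rw [redU_def]
    congr 1
    exact Units.ext (QuadraticAlgebra.ext ha hb)

variable (hτ : IsCubic τ)
include hτ

theorem exists_fixed_redU {x : ClsM π t n m} (hx : sgM hπτ ht hn m x = x) :
    ∃ u : (QA O t n)ˣ, uMap ht hn u = u ∧ redU π t n m u = x := by
  rcases Nat.eq_zero_or_pos m with rfl | hm
  · exact ⟨1, map_one _, (subsingleton_clsM hπ).elim _ _⟩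
  have := isLocalRing_qm hπ (m := m) (by omega)
  obtain ⟨v, hv, hfix⟩ := exists_fixed_rep _ _ hx
  have h1 := congrArg QuadraticAlgebra.re hfix
  have h2 := congrArg QuadraticAlgebra.im hfix
  obtain ⟨a, ha, hav⟩ := exists_fixed_lift hπ hπτ hτ h1
  obtain ⟨b, hb, hbv⟩ := exists_fixed_lift hπ hπτ hτ h2
  have hu := QuadraticAlgebra.isUnit_iff_norm_isUnit.mp v.isUnit
  have he : (v : QA (Qm π m) (qmk π m t) (qmk π m n)).norm = qmk π m (⟨a, b⟩ : QA O t n).norm := by
    rw [qa_norm, qa_norm, ← hav, ← hbv]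
    simp
  rw [he, isUnit_qmk_iff hπ (by omega)] at hu
  refine ⟨(QuadraticAlgebra.isUnit_iff_norm_isUnit.mpr hu).unit, Units.ext ?_, ?_⟩
  · exact QuadraticAlgebra.ext ha hb
  · rw [redU_def, ← hv]
    congr 1
    exact Units.ext (QuadraticAlgebra.ext hav hbv)

variable [Finite (ResidueField O)]

omit hπτ hτ in
theorem finite_clsM : Finite (ClsM π t n m) := by
  have := (finite_qm hπ m).1
  infer_instance

/-- The value of a size function at level `m`. -/
def clsSize (Q η : ℂ) (m : ℕ) : ℂ := if m = 0 then 1 else Q ^ (m - 1) * (Q - η)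

theorem card_clsM :
    (Nat.card (ClsM π t n m) : ℂ) =
      clsSize (Nat.card (ResidueField O) : ℂ) ((numRoots t n : ℂ) - 1) m ∧
    (Nat.card {x : ClsM π t n m | sgM hπτ ht hn m x = x} : ℂ) =
      clsSize (Nat.card (resFixed τ) : ℂ) ((numRoots t n : ℂ) - 1) m := by
  rcases Nat.eq_zero_or_pos m with rfl | hm
  · have := subsingleton_clsM (t := t) (n := n) hπ
    simp [clsSize]
    have : Nonempty {x : ClsM π t n 0 | sgM hπτ ht hn 0 x = x} := ⟨⟨1, map_one _⟩⟩
    exact ⟨1, by ext x; simp [Subsingleton.elim x 1]⟩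
  have hm0 : m ≠ 0 := by omega
  have := isLocalRing_qm hπ hm0
  have := (finite_qm hπ m).1
  set R : Set (ResidueField O) := {z | z ^ 2 + residue O t * z + residue O n = 0}
  have hT : ∀ x : Qm π m, IsUnit (x ^ 2 + qmk π m t * x + qmk π m n) ↔ redQ hπ hm0 x ∈ Rᶜ := by
    intro x
    rw [← redQ_ne_zero_iff hπ hm0]
    simp [R, redQ_qmk]
  have h0 : ∀ x : Qm π m, ¬IsUnit x ↔ redQ hπ hm0 x ∈ ({0} : Set (ResidueField O)) := fun x => by
    rw [← redQ_ne_zero_iff hπ hm0]; simp
  have hfixR : ∀ z ∈ R, resAut τ z = z := fun z hz => resAut_root hτ (t := -residue O t)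
    (n := residue O n) (by rw [map_neg, resAut_residue, ht]) (by rw [resAut_residue, hn])
    (by simp only [R, Set.mem_ofPred_eq] at hz; linear_combination hz)
  have hR : Nat.card R = numRoots t n := rfl
  have hQ : numRoots t n + Nat.card (Rᶜ : Set (ResidueField O)) = Nat.card (ResidueField O) := by
    rw [← hR, Nat.card_coe_set_eq, Nat.card_coe_set_eq, Set.ncard_add_ncard_compl]
  have hq : numRoots t n + Nat.card {z | z ∈ Rᶜ ∧ resAut τ z = z} = Nat.card (resFixed τ) := by
    rw [← hR, Nat.card_coe_set_eq, Nat.card_coe_set_eq,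
      show Nat.card (resFixed τ) = Set.ncard {z | resAut τ z = z} from Nat.card_coe_set_eq _,
      ← Set.ncard_union_eq (Set.disjoint_left.mpr fun z hz hz' => hz'.1 hz)]
    congr 1
    ext z
    by_cases hz : z ∈ R
    · simp [hz, hfixR z hz]
    · simp [hz]
  have hone : Nat.card {z : ResidueField O | z ∈ ({0} : Set (ResidueField O)) ∧ resAut τ z = z} = 1 := by
    rw [Nat.card_coe_set_eq, Set.ncard_eq_one]
    exact ⟨0, by ext z; simp +contextual [eq_comm]⟩
  constructor
  · rw [card_cls, Nat.card_congr (Equiv.subtypeEquivRight h0),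
      Nat.card_congr (Equiv.subtypeEquivRight hT), (card_red_mem hπ hπτ hτ hm0 _).1,
      (card_red_mem hπ hπτ hτ hm0 _).1, clsSize, if_neg hm0]
    have hQ' : (numRoots t n : ℂ) + (Nat.card (Rᶜ : Set (ResidueField O)) : ℂ) =
        (Nat.card (ResidueField O) : ℂ) := by exact_mod_cast hQ
    rw [Nat.card_coe_set_eq ({0} : Set (ResidueField O)), Set.ncard_singleton]
    push_cast
    linear_combination (Nat.card (ResidueField O) : ℂ) ^ (m - 1) * hQ'
  · have e : Nat.card {x : ClsM π t n m | sgM hπτ ht hn m x = x} =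
        Nat.card (fixedSub (G := ClsM π t n m) (sgM hπτ ht hn m)) :=
      Nat.card_congr (Equiv.subtypeEquivRight fun x => (mem_fixedSub (G := ClsM π t n m) _).symm)
    rw [e, sgM, card_fixedSub,
      Nat.card_congr (Equiv.subtypeEquivRight fun b => and_congr_left' (h0 b)),
      Nat.card_congr (Equiv.subtypeEquivRight fun a => and_congr_left' (hT a)),
      (card_red_mem hπ hπτ hτ hm0 _).2, (card_red_mem hπ hπτ hτ hm0 _).2, hone, clsSize, if_neg hm0]
    have hq' : (numRoots t n : ℂ) + (Nat.card {z | z ∈ Rᶜ ∧ resAut τ z = z} : ℂ) =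
        (Nat.card (resFixed τ) : ℂ) := by exact_mod_cast hq
    push_cast
    linear_combination (Nat.card (resFixed τ) : ℂ) ^ (m - 1) * hq'

/-- The twisted count at a positive level. -/
theorem card_twisted_clsM {j : ℕ} (hj : 1 ≤ j) (hjm : j ≤ m) (δ : ClsM π t n m) :
    (Nat.card {v | δ * dHom (sgM hπτ ht hn m) v ∈
        levSub (qmk π m t) (qmk π m n) (Ideal.span {qmk π m (π ^ j)})} : ℂ) =
      open Classical in
      if nmHom (sgM hπτ ht hn m) δ ∈
          levSub (qmk π m t) (qmk π m n) (Ideal.span {qmk π m (π ^ j)}) then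
        clsSize (Nat.card (resFixed τ) : ℂ) ((numRoots t n : ℂ) - 1) j *
          (Nat.card (ResidueField O) : ℂ) ^ (m - j)
      else 0 := by
  classical
  have hm0 : m ≠ 0 := by omega
  have := isLocalRing_qm hπ hm0
  have := (finite_qm hπ m).1
  obtain ⟨h1, h2⟩ := card_twisted_levSub (τ := tauQ hπτ m)
    (t := qmk π m t) (n := qmk π m n) (by rw [tauQ_qmk, ht]) (by rw [tauQ_qmk, hn])
    (tauQ_isCubic hπ hπτ hτ hm0) (c := qmk π m (π ^ j)) (by rw [tauQ_qmk, map_pow, hπτ]) δ
  split_ifs with hγ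
  · have hne : Ideal.span {qmk π m (π ^ j)} ≠ ⊤ := by
      rw [Ne, Ideal.span_singleton_eq_top, isUnit_qmk_iff hπ hm0, isUnit_pow_iff (by omega)]
      exact hπ.not_isUnit
    have h := h1 hγ
    rw [card_levSub_fixed _ _ hne, card_levSub hne] at h
    obtain ⟨i, rfl⟩ : ∃ i, m = i + j := ⟨m - j, by omega⟩
    have hfix : Nat.card {b | b ∈ Ideal.span {qmk π (i + j) (π ^ j)} ∧
        tauQ hπτ (i + j) b = b} = Nat.card (resFixed τ) ^ i := by
      rw [card_span_pi_pow_fixed hπ hπτ]
      exact card_fixed_qm hπ hπτ hτ i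
    rw [hfix, card_span_pi_pow hπ, (finite_qm hπ i).2] at h
    have h' := congrArg (fun x : ℕ => (x : ℂ)) h
    simp only [Nat.cast_mul, Nat.cast_pow] at h'
    have e : (Nat.card (fixedSub (G := ClsM π t n (i + j))
        (clsMap (τ := tauQ hπτ (i + j)) (by rw [tauQ_qmk, ht]) (by rw [tauQ_qmk, hn]))) : ℂ) =
        clsSize (Nat.card (resFixed τ) : ℂ) ((numRoots t n : ℂ) - 1) (i + j) := by
      rw [← (card_clsM (m := i + j) hπτ ht hn hπ hτ).2]
      congr 1
      exact Nat.card_congr (Equiv.subtypeEquivRight fun x => mem_fixedSub _)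
    rw [e] at h'
    have hq : (Nat.card (resFixed τ) : ℂ) ^ i ≠ 0 := by
      have : Nonempty (resFixed τ) := ⟨⟨0, map_zero _⟩⟩
      exact pow_ne_zero _ (by exact_mod_cast Nat.card_pos.ne')
    refine mul_right_cancel₀ hq (h'.trans ?_)
    rw [Nat.add_sub_cancel, clsSize, clsSize, if_neg (by omega), if_neg (by omega),
      show i + j - 1 = (j - 1) + i by omega, pow_add]
    ring
  · exact_mod_cast h2 hγ

end FermatAgent.LT.Inert
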