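import Fermat.Agent.LT.Descent.Local.Inert.Ring

set_option autoImplicit false

/-!
# Counting twisted conjugates in the finite class groups
-/

noncomputable section

open IsLocalRing

namespace FermatAgent.LT.Inert

/-! ### A finite abelian group with an endomorphism of order three -/

section Group

variable {G : Type*} [CommGroup G] (s : G →* G)

/-- `v ↦ s v / v`. -/
def dHom : G →* G := s / MonoidHom.id G

/-- `v ↦ v · s v · s² v`. -/
def nmHom : G →* G := MonoidHom.id G * s * s.comp s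

/-- The fixed subgroup. -/
def fixedSub : Subgroup G := (dHom s).ker

theorem mem_fixedSub {x : G} : x ∈ fixedSub s ↔ s x = x := by
  simp [fixedSub, dHom, MonoidHom.mem_ker, div_eq_one]

theorem card_preimage (f : G →* G) (A : Set G) (hA : A ⊆ Set.range f) :
    Nat.card (f ⁻¹' A) = Nat.card f.ker * Nat.card A := by
  classical
  choose g hg using fun a : A => hA a.2
  rw [← Nat.card_prod]
  exact Nat.card_congr
    { toFun := fun v => (⟨v.1 / g ⟨f v.1, v.2⟩, by simp [MonoidHom.mem_ker, hg]⟩, ⟨f v.1, v.2⟩)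
      invFun := fun p => ⟨p.1.1 * g p.2, by
        simp [Set.mem_preimage, MonoidHom.mem_ker.mp p.1.2, hg]⟩
      left_inv := fun v => by simp
      right_inv := fun p => by
        have h : f (p.1.1 * g p.2) = p.2.1 := by simp [MonoidHom.mem_ker.mp p.1.2, hg]
        have h2 : (⟨f (p.1.1 * g p.2), h ▸ p.2.2⟩ : A) = p.2 := Subtype.ext h
        refine Prod.ext (Subtype.ext ?_) h2
        show p.1.1 * g p.2 / g ⟨f (p.1.1 * g p.2), _⟩ = p.1.1
        rw [h2, mul_div_cancel_right] }

theorem card_eq_ker_mul_range (f : G →* G) :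
    Nat.card G = Nat.card f.ker * Nat.card f.range := by
  rw [← Nat.card_univ (α := G), show Set.univ = f ⁻¹' (f.range : Set G) by ext; simp]
  exact card_preimage f f.range (by simp)

variable {s} (hs : ∀ x, s (s (s x)) = x)
include hs

theorem nmHom_dHom (v : G) : nmHom s (dHom s v) = 1 := by
  simp only [nmHom, dHom, MonoidHom.mul_apply, MonoidHom.div_apply, MonoidHom.id_apply,
    MonoidHom.coe_comp, Function.comp_apply, map_div, hs]
  simp [mul_comm, mul_left_comm]

theorem s_nmHom (v : G) : s (nmHom s v) = nmHom s v := by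
  simp only [nmHom, MonoidHom.mul_apply, MonoidHom.id_apply, MonoidHom.coe_comp,
    Function.comp_apply, map_mul, hs]
  simp [mul_comm, mul_left_comm]

variable [Finite G]

theorem nmHom_surj_of_h90 (h90 : ∀ y, nmHom s y = 1 → ∃ v, dHom s v = y) {u : G} (hu : s u = u) :
    ∃ v, nmHom s v = u := by
  have e : (nmHom s).ker = (dHom s).range :=
    le_antisymm (fun y hy => h90 y hy) (by rintro _ ⟨v, rfl⟩; exact nmHom_dHom hs v)
  have hle : (nmHom s).range ≤ fixedSub s := by
    rintro _ ⟨v, rfl⟩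
    exact (mem_fixedSub s).mpr (s_nmHom hs v)
  have h1 := card_eq_ker_mul_range (nmHom s)
  rw [card_eq_ker_mul_range (dHom s), e, mul_comm] at h1
  have h2 : Nat.card (fixedSub s) = Nat.card (nmHom s).range :=
    Nat.eq_of_mul_eq_mul_left Nat.card_pos h1
  have h3 := Subgroup.eq_of_le_of_card_ge hle h2.le
  have hu' : u ∈ fixedSub s := (mem_fixedSub s).mpr hu
  rw [← h3] at hu'
  exact hu'

theorem ker_nmHom_eq (hsurj : ∀ u, s u = u → ∃ v, nmHom s v = u) :
    (nmHom s).ker = (dHom s).range := by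
  have hr : (nmHom s).range = fixedSub s :=
    le_antisymm (by rintro _ ⟨v, rfl⟩; exact (mem_fixedSub s).mpr (s_nmHom hs v))
      (fun u hu => hsurj u ((mem_fixedSub s).mp hu))
  have h1 := card_eq_ker_mul_range (nmHom s)
  rw [card_eq_ker_mul_range (dHom s), hr, mul_comm] at h1
  have h2 : Nat.card (nmHom s).ker = Nat.card (dHom s).range :=
    (Nat.eq_of_mul_eq_mul_right Nat.card_pos h1).symm
  exact (Subgroup.eq_of_le_of_card_ge
    (by rintro _ ⟨v, rfl⟩; exact nmHom_dHom hs v) h2.le).symm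

/-- The number of `v` with `δ · s v / v` in a stable subgroup `H` with surjective norm. -/
theorem card_twisted (hsurj : ∀ u, s u = u → ∃ v, nmHom s v = u) {H : Subgroup G}
    (hH : ∀ x ∈ H, s x ∈ H) (hHsurj : ∀ u ∈ H, s u = u → ∃ v ∈ H, nmHom s v = u) (δ : G) :
    (nmHom s δ ∈ H →
      Nat.card {v | δ * dHom s v ∈ H} * Nat.card {x | x ∈ H ∧ s x = x} =
        Nat.card (fixedSub s) * Nat.card H) ∧
    (nmHom s δ ∉ H → Nat.card {v | δ * dHom s v ∈ H} = 0) := by
  have hN : ∀ x ∈ H, nmHom s x ∈ H := fun x hx => mul_mem (mul_mem hx (hH _ hx)) (hH _ (hH _ hx))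
  have hNd : ∀ v, nmHom s (δ * dHom s v) = nmHom s δ := fun v => by
    rw [map_mul, nmHom_dHom hs, mul_one]
  refine ⟨fun hγ => ?_, fun hγ => ?_⟩
  · obtain ⟨h₀, hh₀, hh₀'⟩ := hHsurj _ hγ (s_nmHom hs δ)
    set A : Set G := {y | δ * y ∈ H} ∩ (dHom s).range with hA
    have e1 : Nat.card {v | δ * dHom s v ∈ H} = Nat.card (dHom s).ker * Nat.card A := by
      rw [← card_preimage (dHom s) A Set.inter_subset_right]
      congr 2
      ext v
      simp [hA]
    -- `A` is a coset of the kernel of the norm on `H`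
    let N : H →* G := (nmHom s).comp H.subtype
    have e2 : Nat.card A = Nat.card N.ker := Nat.card_congr
      { toFun := fun y => ⟨⟨δ * y.1 / h₀, H.div_mem y.2.1 hh₀⟩, by
          have hy : nmHom s y.1 = 1 := by
            rw [← MonoidHom.mem_ker, ker_nmHom_eq hs hsurj]; exact y.2.2
          simp [N, MonoidHom.mem_ker, hy, hh₀']⟩
        invFun := fun z => ⟨h₀ * z.1.1 / δ, by
          have hz : nmHom s z.1.1 = 1 := z.2
          refine ⟨?_, ?_⟩
          · show δ * (h₀ * z.1.1 / δ) ∈ H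
            rw [mul_div_cancel]
            exact H.mul_mem hh₀ z.1.2
          · show h₀ * z.1.1 / δ ∈ ((dHom s).range : Set G)
            rw [SetLike.mem_coe, ← ker_nmHom_eq hs hsurj, MonoidHom.mem_ker, map_div, map_mul, hz,
              mul_one, hh₀', div_self']⟩
        left_inv := fun y => Subtype.ext (by simp)
        right_inv := fun z => Subtype.ext (Subtype.ext (by simp)) }
    have hr : N.range = H ⊓ fixedSub s := by
      ext u
      rw [Subgroup.mem_inf, mem_fixedSub]
      constructor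
      · rintro ⟨v, rfl⟩
        exact ⟨hN _ v.2, s_nmHom hs _⟩
      · rintro ⟨hu, hu'⟩
        obtain ⟨v, hv, rfl⟩ := hHsurj u hu hu'
        exact ⟨⟨v, hv⟩, rfl⟩
    have e3 : Nat.card H = Nat.card N.ker * Nat.card {x | x ∈ H ∧ s x = x} := by
      have h := Subgroup.card_eq_card_quotient_mul_card_subgroup N.ker
      rw [Nat.card_congr (QuotientGroup.quotientKerEquivRange N).toEquiv, hr, mul_comm] at h
      rw [h]
      congr 1
      exact Nat.card_congr (Equiv.subtypeEquivRight fun x => by simp [mem_fixedSub])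
    rw [e1, e2, mul_assoc, ← e3]
    rfl
  · have he : {v | δ * dHom s v ∈ H} = ∅ :=
      Set.eq_empty_of_forall_notMem fun v hv => hγ (hNd v ▸ hN _ hv)
    simp [he]

end Group

/-! ### The classes -/

section Classes

variable {S : Type*} [CommRing S] {τ : S ≃+* S} {t n : S} (ht : τ t = t) (hn : τ n = n)

instance [Finite S] : Finite (QA S t n) := Finite.of_equiv _ (QuadraticAlgebra.equivProd _ _).symm

/-- The action on classes. -/
def clsMap : Cls S t n →* Cls S t n :=
  QuotientGroup.map _ _ (Units.map (qaMap τ ht hn : QA S t n →* QA S t n)) (by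
    rintro _ ⟨x, rfl⟩
    rw [Subgroup.mem_comap, mem_scalarUnits]
    simp [qaMap, QuadraticAlgebra.algebraMap_eq])

theorem clsMap_mk (u : (QA S t n)ˣ) :
    clsMap ht hn (u : Cls S t n) =
      ((Units.map (qaMap τ ht hn : QA S t n →* QA S t n) u : (QA S t n)ˣ) : Cls S t n) := rfl

theorem clsMap_cube (hc : ∀ x, τ (τ (τ x)) = x) (x : Cls S t n) :
    clsMap ht hn (clsMap ht hn (clsMap ht hn x)) = x := by
  induction x using QuotientGroup.induction_on with
  | H u =>
    simp only [clsMap_mk]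
    congr 1
    exact Units.ext (QuadraticAlgebra.ext (by simp [qaMap, hc]) (by simp [qaMap, hc]))

variable (t n) in
/-- Classes whose `ω`-coefficient lies in `J`. -/
def levSub (J : Ideal S) : Subgroup (Cls S t n) :=
  Subgroup.map (QuotientGroup.mk' (scalarUnits S t n))
    { carrier := {u | (u : QA S t n).im ∈ J}
      one_mem' := by simp [QuadraticAlgebra.im_one]
      mul_mem' := fun {u v} hu hv => by
        simp only [Set.mem_ofPred_eq, Units.val_mul, QuadraticAlgebra.im_mul] at hu hv ⊢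
        exact add_mem (add_mem (J.mul_mem_left _ hv) (J.mul_mem_right _ hu))
          (J.mul_mem_left _ hv)
      inv_mem' := fun {u} hu => by
        simp only [Set.mem_ofPred_eq] at hu ⊢
        have h := congrArg QuadraticAlgebra.im u.inv_mul
        have h0 := congrArg QuadraticAlgebra.re u.inv_mul
        simp only [QuadraticAlgebra.im_mul, QuadraticAlgebra.re_mul, QuadraticAlgebra.im_one,
          QuadraticAlgebra.re_one] at h h0
        -- `im (u⁻¹) = -N(u⁻¹) im u`
        have key : ((u⁻¹ : (QA S t n)ˣ) : QA S t n).im =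
            -((((u⁻¹ : (QA S t n)ˣ) : QA S t n).norm) * (u : QA S t n).im) := by
          rw [qa_norm]
          linear_combination (((u⁻¹ : (QA S t n)ˣ) : QA S t n).re) * h
            - (((u⁻¹ : (QA S t n)ˣ) : QA S t n).im) * h0
        rw [key]
        exact neg_mem (J.mul_mem_left _ hu) }

theorem mk_mem_levSub {J : Ideal S} {u : (QA S t n)ˣ} :
    (u : Cls S t n) ∈ levSub t n J ↔ (u : QA S t n).im ∈ J := by
  constructor
  · rintro ⟨v, hv, hvu⟩
    obtain ⟨w, hw, rfl⟩ : ∃ w ∈ scalarUnits S t n, u = v * w :=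
      ⟨v⁻¹ * u, (QuotientGroup.eq).mp hvu, by simp⟩
    rw [mem_scalarUnits] at hw
    simp only [Units.val_mul, QuadraticAlgebra.im_mul, hw, mul_zero, zero_add, add_zero]
    exact J.mul_mem_right _ hv
  · exact fun h => ⟨u, h, rfl⟩

variable [IsLocalRing S]

variable (t n) in
/-- The normal forms of classes. -/
abbrev NormalForm : Type _ :=
  {b : S // ¬IsUnit b} ⊕ {a : S // IsUnit (a ^ 2 + t * a + n)}

theorem isUnit_inl {b : S} (hb : ¬IsUnit b) : IsUnit (⟨1, b⟩ : QA S t n) := by
  rw [QuadraticAlgebra.isUnit_iff_norm_isUnit, qa_norm, ← residue_ne_zero_iff_isUnit]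
  rw [← residue_ne_zero_iff_isUnit, not_not] at hb
  simp [hb]

omit [IsLocalRing S] in
theorem isUnit_inr {a : S} (ha : IsUnit (a ^ 2 + t * a + n)) : IsUnit (⟨a, 1⟩ : QA S t n) := by
  rw [QuadraticAlgebra.isUnit_iff_norm_isUnit, qa_norm]
  simpa using ha

/-- The class of a normal form. -/
def ofNormal : NormalForm t n → Cls S t n
  | Sum.inl b => ((isUnit_inl b.2).unit : (QA S t n)ˣ)
  | Sum.inr a => ((isUnit_inr a.2).unit : (QA S t n)ˣ)

theorem ofNormal_bijective : Function.Bijective (ofNormal : NormalForm t n → Cls S t n) := by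
  constructor
  · rintro (⟨b, hb⟩ | ⟨a, ha⟩) (⟨b', hb'⟩ | ⟨a', ha'⟩) h <;>
      simp only [ofNormal, mk_eq_mk, IsUnit.unit_spec, one_mul, mul_one] at h
    · simp [h]
    · exact absurd (IsUnit.of_mul_eq_one (a := b) a' (by simpa using h.symm)) hb
    · exact absurd (IsUnit.of_mul_eq_one (a := b') a (by rw [mul_comm]; simpa using h)) hb'
    · simp [h]
  · intro x
    induction x using QuotientGroup.induction_on with
    | H u =>
    rcases cls_cases u with hi | ⟨hi, hr⟩
    · obtain ⟨i, hi⟩ := hi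
      have hu := QuadraticAlgebra.isUnit_iff_norm_isUnit.mp u.isUnit
      rw [qa_norm] at hu
      refine ⟨Sum.inr ⟨(u : QA S t n).re * ↑i⁻¹, ?_⟩, ?_⟩
      · have e : ((u : QA S t n).re * ↑i⁻¹) ^ 2 + t * ((u : QA S t n).re * ↑i⁻¹) + n =
            ((u : QA S t n).re ^ 2 + t * (u : QA S t n).re * (u : QA S t n).im
              + n * (u : QA S t n).im ^ 2) * (↑i⁻¹ * ↑i⁻¹) := by
          rw [← hi]
          linear_combination (-(t * (u : QA S t n).re * ↑i⁻¹) - n * (↑i * ↑i⁻¹ + 1)) * i.mul_inv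
        rw [e]
        exact hu.mul (i⁻¹.isUnit.mul i⁻¹.isUnit)
      · simp only [ofNormal, mk_eq_mk, IsUnit.unit_spec, one_mul]
        rw [← hi]
        simp [mul_assoc]
    · obtain ⟨r, hr⟩ := hr
      refine ⟨Sum.inl ⟨(u : QA S t n).im * ↑r⁻¹, fun h => hi (by
        simpa [mul_assoc] using h.mul r.isUnit)⟩, ?_⟩
      simp only [ofNormal, mk_eq_mk, IsUnit.unit_spec, one_mul]
      rw [← hr]
      simp [mul_assoc]

theorem card_cls [Finite S] :
    Nat.card (Cls S t n) = Nat.card {b : S // ¬IsUnit b} +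
      Nat.card {a : S // IsUnit (a ^ 2 + t * a + n)} := by
  rw [← Nat.card_congr (Equiv.ofBijective _ (ofNormal_bijective (t := t) (n := n))), Nat.card_sum]

theorem clsMap_ofNormal (x : NormalForm t n) :
    clsMap ht hn (ofNormal x) = ofNormal (Sum.map
      (fun b => ⟨τ b.1, fun h => b.2 (isUnit_apply.mp h)⟩)
      (fun a => ⟨τ a.1, by simpa [ht, hn] using a.2.map τ⟩) x) := by
  rcases x with b | a <;>
  · simp only [ofNormal, Sum.map_inl, Sum.map_inr, clsMap_mk]
    congr 1
    exact Units.ext (QuadraticAlgebra.ext (by simp [qaMap]) (by simp [qaMap]))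

theorem exists_fixed_rep {x : Cls S t n} (hx : clsMap ht hn x = x) :
    ∃ u : (QA S t n)ˣ, (u : Cls S t n) = x ∧ qaMap τ ht hn u = u := by
  obtain ⟨y, rfl⟩ := ofNormal_bijective.2 x
  have h := ofNormal_bijective.1 ((clsMap_ofNormal ht hn y).symm.trans hx)
  rcases y with b | a
  · exact ⟨_, rfl, QuadraticAlgebra.ext (by simp [qaMap])
      (by simpa [qaMap] using congrArg Subtype.val (Sum.inl.inj h))⟩
  · exact ⟨_, rfl, QuadraticAlgebra.ext
      (by simpa [qaMap] using congrArg Subtype.val (Sum.inr.inj h)) (by simp [qaMap])⟩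

/-- The number of fixed classes. -/
theorem card_fixedSub [Finite S] :
    Nat.card (fixedSub (G := Cls S t n) (clsMap ht hn)) = Nat.card {b : S // ¬IsUnit b ∧ τ b = b} +
      Nat.card {a : S // IsUnit (a ^ 2 + t * a + n) ∧ τ a = a} := by
  let f : {b : S // ¬IsUnit b ∧ τ b = b} ⊕ {a : S // IsUnit (a ^ 2 + t * a + n) ∧ τ a = a} →
      fixedSub (G := Cls S t n) (clsMap ht hn) :=
    fun x => ⟨ofNormal (Sum.map (fun b => (⟨b.1, b.2.1⟩ : {b : S // ¬IsUnit b}))
      (fun a => (⟨a.1, a.2.1⟩ : {a : S // IsUnit (a ^ 2 + t * a + n)})) x), by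
        rw [mem_fixedSub, clsMap_ofNormal]
        rcases x with b | a
        · simp [b.2.2]
        · simp [a.2.2]⟩
  have hf : Function.Bijective f := by
    constructor
    · intro x y h
      have h' := congrArg Subtype.val h
      simp only [f] at h'
      have := ofNormal_bijective.1 h'
      rcases x with b | a <;> rcases y with b' | a' <;> simp [Subtype.ext_iff] at this ⊢ <;>
        exact this
    · rintro ⟨z, hz⟩
      rw [mem_fixedSub] at hz
      obtain ⟨y, rfl⟩ := ofNormal_bijective.2 z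
      have h := ofNormal_bijective.1 ((clsMap_ofNormal ht hn y).symm.trans hz)
      rcases y with b | a
      · exact ⟨Sum.inl ⟨b.1, b.2, congrArg Subtype.val (Sum.inl.inj h)⟩, rfl⟩
      · exact ⟨Sum.inr ⟨a.1, a.2, congrArg Subtype.val (Sum.inr.inj h)⟩, rfl⟩
  rw [← Nat.card_sum, Nat.card_congr (Equiv.ofBijective f hf)]

variable {J : Ideal S}

omit [IsLocalRing S] in
theorem levSub_stable (hJ : ∀ x ∈ J, τ x ∈ J) :
    ∀ x ∈ levSub t n J, clsMap ht hn x ∈ levSub t n J := by
  intro x hx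
  induction x using QuotientGroup.induction_on with
  | H u =>
    rw [mk_mem_levSub] at hx
    rw [clsMap_mk, mk_mem_levSub]
    exact hJ _ hx

theorem ofNormal_mem_levSub (hJ : J ≠ ⊤) (x : NormalForm t n) :
    ofNormal x ∈ levSub t n J ↔ ∃ b : {b : S // ¬IsUnit b}, x = Sum.inl b ∧ b.1 ∈ J := by
  rcases x with b | a
  · simp [ofNormal, mk_mem_levSub]
  · simp [ofNormal, mk_mem_levSub, IsUnit.unit_spec, ← Ideal.eq_top_iff_one, hJ]

theorem card_levSub [Finite S] (hJ : J ≠ ⊤) : Nat.card (levSub t n J) = Nat.card J := by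
  have hnu : ∀ b ∈ J, ¬IsUnit b := fun b hb h => hJ (Ideal.eq_top_of_isUnit_mem _ hb h)
  let f : J → levSub t n J := fun b => ⟨ofNormal (Sum.inl ⟨b.1, hnu _ b.2⟩),
    (ofNormal_mem_levSub hJ _).mpr ⟨_, rfl, b.2⟩⟩
  refine (Nat.card_congr (Equiv.ofBijective f ⟨fun b c h => ?_, fun z => ?_⟩)).symm
  · have h' := congrArg Subtype.val h
    simp only [f] at h'
    exact Subtype.ext (congrArg Subtype.val (Sum.inl.inj (ofNormal_bijective.1 h')) : _)
  · obtain ⟨y, hy⟩ := ofNormal_bijective.2 z.1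
    obtain ⟨b, rfl, hb⟩ := (ofNormal_mem_levSub hJ y).mp (hy ▸ z.2)
    exact ⟨⟨b.1, hb⟩, Subtype.ext hy⟩

theorem card_levSub_fixed [Finite S] (hJ : J ≠ ⊤) :
    Nat.card {x | x ∈ levSub t n J ∧ clsMap ht hn x = x} = Nat.card {b | b ∈ J ∧ τ b = b} := by
  have hnu : ∀ b ∈ J, ¬IsUnit b := fun b hb h => hJ (Ideal.eq_top_of_isUnit_mem _ hb h)
  let f : {b | b ∈ J ∧ τ b = b} → {x | x ∈ levSub t n J ∧ clsMap ht hn x = x} :=
    fun b => ⟨ofNormal (Sum.inl ⟨b.1, hnu _ b.2.1⟩), (ofNormal_mem_levSub hJ _).mpr ⟨_, rfl, b.2.1⟩,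
      by rw [clsMap_ofNormal]; simp [b.2.2]⟩
  refine (Nat.card_congr (Equiv.ofBijective f ⟨fun b c h => ?_, fun z => ?_⟩)).symm
  · have h' := congrArg Subtype.val h
    simp only [f] at h'
    exact Subtype.ext (congrArg Subtype.val (Sum.inl.inj (ofNormal_bijective.1 h')) : _)
  · obtain ⟨y, hy⟩ := ofNormal_bijective.2 z.1
    obtain ⟨b, rfl, hb⟩ := (ofNormal_mem_levSub hJ y).mp (hy ▸ z.2.1)
    have h := z.2.2
    rw [← hy, clsMap_ofNormal] at h
    exact ⟨⟨b.1, hb, congrArg Subtype.val (Sum.inl.inj (ofNormal_bijective.1 h))⟩, Subtype.ext hy⟩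

variable (hτ : IsCubic τ) [Finite S]
include hτ

theorem qa_nm_surj {u : (QA S t n)ˣ} (hu : qaMap τ ht hn u = u) :
    ∃ v : (QA S t n)ˣ, nmHom (Units.map (qaMap τ ht hn : QA S t n →* QA S t n)) v = u := by
  have hs : ∀ x : (QA S t n)ˣ, Units.map (qaMap τ ht hn : QA S t n →* QA S t n)
      (Units.map (qaMap τ ht hn : QA S t n →* QA S t n)
        (Units.map (qaMap τ ht hn : QA S t n →* QA S t n) x)) = x := fun x =>
    Units.ext (QuadraticAlgebra.ext (by simp [qaMap, hτ.cube]) (by simp [qaMap, hτ.cube]))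
  refine nmHom_surj_of_h90 hs (fun y hy => ?_) (Units.ext hu)
  obtain ⟨θ, hv⟩ := exists_isUnit_h90 hτ (y : QA S t n) (qaMap τ ht hn)
  set v := algebraMap S (QA S t n) θ + (y : QA S t n) * algebraMap S _ (τ θ)
    + (y : QA S t n) * qaMap τ ht hn y * algebraMap S _ (τ (τ θ)) with hvdef
  have halg : ∀ x, qaMap τ ht hn (algebraMap S _ x) = algebraMap S _ (τ x) := fun x =>
    QuadraticAlgebra.ext (by simp [qaMap, QuadraticAlgebra.algebraMap_eq])
      (by simp [qaMap, QuadraticAlgebra.algebraMap_eq])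
  have hN : (y : QA S t n) * qaMap τ ht hn y * qaMap τ ht hn (qaMap τ ht hn y) = 1 :=
    congrArg Units.val hy
  have key : (y : QA S t n) * qaMap τ ht hn v = v := by
    rw [hvdef]
    simp only [map_add, map_mul, halg, hτ.cube]
    linear_combination (algebraMap S (QA S t n) θ) * hN
  refine ⟨hv.unit⁻¹, ?_⟩
  rw [map_inv, inv_eq_iff_eq_inv, dHom, MonoidHom.div_apply, MonoidHom.id_apply,
    div_eq_iff_eq_mul, eq_inv_mul_iff_mul_eq]
  exact Units.ext key

theorem levSub_nm_surj {c : S} (hc : τ c = c) (x : Cls S t n)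
    (hx : x ∈ levSub t n (Ideal.span {c})) (hx' : clsMap ht hn x = x) :
    ∃ y ∈ levSub t n (Ideal.span {c}), nmHom (G := Cls S t n) (clsMap ht hn) y = x := by
  obtain ⟨u, rfl, hu⟩ := exists_fixed_rep ht hn hx'
  rw [mk_mem_levSub, Ideal.mem_span_singleton'] at hx
  obtain ⟨b, hb⟩ := hx
  have hre : τ (u : QA S t n).re = (u : QA S t n).re := congrArg QuadraticAlgebra.re hu
  have him : τ (u : QA S t n).im = (u : QA S t n).im := congrArg QuadraticAlgebra.im hu
  obtain ⟨b', hb', hbb⟩ : ∃ b', τ b' = b' ∧ b' * c = (u : QA S t n).im := by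
    obtain ⟨θ, hθ⟩ := exists_trace_unit hτ
    set tr := θ + τ θ + τ (τ θ) with htr
    have hfix : τ tr = tr := by rw [htr, map_add, map_add, hτ.cube]; ring
    obtain ⟨w, hw⟩ := hθ
    have hτw : τ (↑w⁻¹ : S) = ↑w⁻¹ := by
      refine (Units.mul_left_inj w).mp ?_
      conv_lhs => rw [hw, ← hfix, ← map_mul, ← hw, Units.inv_mul, map_one]
      rw [Units.inv_mul]
    have e1 : τ (b * c) = b * c := by rw [hb, him]
    rw [map_mul, hc] at e1
    have e2 : τ (τ b) * c = b * c := by
      have := congrArg τ e1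
      simp only [map_mul, hc] at this
      rw [this, e1]
    refine ⟨↑w⁻¹ * (θ * b + τ θ * τ b + τ (τ θ) * τ (τ b)), ?_, ?_⟩
    · simp only [map_mul, map_add, hτw, hτ.cube]; ring
    · rw [← hb]
      calc ↑w⁻¹ * (θ * b + τ θ * τ b + τ (τ θ) * τ (τ b)) * c
          = ↑w⁻¹ * (tr * (b * c)) := by
            rw [htr]
            linear_combination (↑w⁻¹ * τ θ) * e1 + (↑w⁻¹ * τ (τ θ)) * e2
        _ = b * c := by rw [← mul_assoc, ← hw, Units.inv_mul, one_mul]
  have ht' : τ (c * t) = c * t := by rw [map_mul, hc, ht]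
  have hn' : τ (c ^ 2 * n) = c ^ 2 * n := by rw [map_mul, map_pow, hc, hn]
  let φ : QA S (c * t) (c ^ 2 * n) →* QA S t n :=
    { toFun := fun z => ⟨z.re, c * z.im⟩
      map_one' := by ext <;> simp [QuadraticAlgebra.re_one, QuadraticAlgebra.im_one]
      map_mul' := fun z w => by
        ext <;> simp [QuadraticAlgebra.re_mul, QuadraticAlgebra.im_mul] <;> ring }
  have hN := QuadraticAlgebra.isUnit_iff_norm_isUnit.mp u.isUnit
  rw [qa_norm] at hN
  have hu' : IsUnit (⟨(u : QA S t n).re, b'⟩ : QA S (c * t) (c ^ 2 * n)) := by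
    rw [QuadraticAlgebra.isUnit_iff_norm_isUnit, qa_norm]
    convert hN using 1
    simp only
    rw [← hbb]; ring
  obtain ⟨v, hv⟩ := qa_nm_surj ht' hn' hτ (u := hu'.unit)
    (QuadraticAlgebra.ext (by simpa [qaMap] using hre) (by simpa [qaMap] using hb'))
  refine ⟨((Units.map φ v : (QA S t n)ˣ) : Cls S t n), ?_, ?_⟩
  · rw [mk_mem_levSub]
    exact Ideal.mem_span_singleton'.mpr ⟨(v : QA S (c * t) (c ^ 2 * n)).im, mul_comm _ _⟩
  · have hφ : ∀ z : QA S (c * t) (c ^ 2 * n),
        qaMap τ ht hn (φ z) = φ (qaMap τ ht' hn' z) := fun z => by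
      ext <;> simp [φ, qaMap, hc]
    show ((nmHom (Units.map (qaMap τ ht hn : QA S t n →* QA S t n)) (Units.map φ v) :
      (QA S t n)ˣ) : Cls S t n) = (u : Cls S t n)
    refine congrArg QuotientGroup.mk (Units.ext ?_)
    have hv' : φ (((v : QA S (c * t) (c ^ 2 * n)) * qaMap τ ht' hn' v) *
        qaMap τ ht' hn' (qaMap τ ht' hn' v)) = φ ⟨(u : QA S t n).re, b'⟩ :=
      congrArg φ (congrArg Units.val hv)
    show φ (v : QA S (c * t) (c ^ 2 * n)) * qaMap τ ht hn (φ v) *
      qaMap τ ht hn (qaMap τ ht hn (φ v)) = _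
    rw [hφ, hφ, ← map_mul, ← map_mul, hv']
    exact QuadraticAlgebra.ext rfl (by simp [φ, ← hbb, mul_comm])

theorem cls_nm_surj (x : Cls S t n) (hx : clsMap ht hn x = x) :
    ∃ y, nmHom (G := Cls S t n) (clsMap ht hn) y = x := by
  induction x using QuotientGroup.induction_on with
  | H u =>
    obtain ⟨y, -, hy⟩ := levSub_nm_surj ht hn hτ (map_one τ) (u : Cls S t n)
      (by rw [mk_mem_levSub, Ideal.span_singleton_one]; trivial) hx
    exact ⟨y, hy⟩

/-- The twisted count in a level subgroup. -/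
theorem card_twisted_levSub {c : S} (hc : τ c = c) (δ : Cls S t n) :
    (nmHom (G := Cls S t n) (clsMap ht hn) δ ∈ levSub t n (Ideal.span {c}) →
      Nat.card {v | δ * dHom (G := Cls S t n) (clsMap ht hn) v ∈ levSub t n (Ideal.span {c})} *
          Nat.card {x | x ∈ levSub t n (Ideal.span {c}) ∧ clsMap ht hn x = x} =
        Nat.card (fixedSub (G := Cls S t n) (clsMap ht hn)) * Nat.card (levSub t n (Ideal.span {c}))) ∧
    (nmHom (G := Cls S t n) (clsMap ht hn) δ ∉ levSub t n (Ideal.span {c}) →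
      Nat.card {v | δ * dHom (G := Cls S t n) (clsMap ht hn) v ∈ levSub t n (Ideal.span {c})} = 0) := by
  refine card_twisted (clsMap_cube ht hn hτ.cube) (fun u hu => cls_nm_surj ht hn hτ u hu)
    (levSub_stable ht hn fun x hx => ?_) (levSub_nm_surj ht hn hτ hc) δ
  rw [Ideal.mem_span_singleton'] at hx ⊢
  obtain ⟨a, rfl⟩ := hx
  exact ⟨τ a, by rw [map_mul, hc]⟩

end Classes

end FermatAgent.LT.Inert
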