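import Mathlib

set_option autoImplicit false

/-!
# Lattice classes relative to a maximal quadratic order

Over a discrete valuation ring `O` with fraction field `F`: the tree distance `depth`, the
decomposition `GL₂ F = T · diag(1, πᵐ) · Fˣ GL₂ O` for the torus `T = F[ω]ˣ` of a maximal order
`O[ω]`, `ω² = tω - n`, stabilisers, and distances moved by torus elements.
-/

noncomputable section

open Matrix IsDiscreteValuationRing

namespace FermatAgent.LT.Inert

variable {O : Type*} [CommRing O] [IsDomain O] [IsDiscreteValuationRing O]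
variable {F : Type*} [Field F] [Algebra O F] [IsFractionRing O F]

variable (O F) in
/-- The image of an integral matrix. -/
def intMat : Matrix (Fin 2) (Fin 2) O →+* Matrix (Fin 2) (Fin 2) F :=
  (algebraMap O F).mapMatrix

omit [IsDomain O] [IsDiscreteValuationRing O] [IsFractionRing O F] in
@[simp] theorem intMat_apply (A : Matrix (Fin 2) (Fin 2) O) (i j : Fin 2) :
    intMat O F A i j = algebraMap O F (A i j) := rfl

omit [IsDomain O] [IsDiscreteValuationRing O] [IsFractionRing O F] in
theorem intMat_det (A : Matrix (Fin 2) (Fin 2) O) :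
    (intMat O F A).det = algebraMap O F A.det := ((algebraMap O F).map_det A).symm

omit [IsDomain O] [IsDiscreteValuationRing O] in
theorem intMat_injective : Function.Injective (intMat O F) :=
  fun _ _ h => Matrix.map_injective (IsFractionRing.injective O F) h

variable (O F) in
/-- The stabiliser of the base vertex: scalars times `GL₂ O`. -/
def sphSub : Subgroup (GL (Fin 2) F) where
  carrier := {g | ∃ c : F, c ≠ 0 ∧ ∃ k : GL (Fin 2) O,
    (g : Matrix (Fin 2) (Fin 2) F) = c • intMat O F k}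
  one_mem' := ⟨1, one_ne_zero, 1, by simp⟩
  mul_mem' := fun {g h} ⟨c, hc, k, hk⟩ ⟨d, hd, l, hl⟩ => ⟨c * d, mul_ne_zero hc hd, k * l, by
    simp [hk, hl, map_mul, smul_smul, mul_comm c]⟩
  inv_mem' := fun {g} ⟨c, hc, k, hk⟩ => ⟨c⁻¹, inv_ne_zero hc, k⁻¹, by
    rw [coe_units_inv]
    refine inv_eq_left_inv ?_
    rw [hk, Matrix.smul_mul, Matrix.mul_smul, smul_smul, inv_mul_cancel₀ hc, ← map_mul,
      Units.inv_mul, map_one, one_smul]⟩

/-- A primitive integral matrix. -/
def Prim (A : Matrix (Fin 2) (Fin 2) O) : Prop := ∃ i j, IsUnit (A i j)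

variable (O) in
/-- `g` is at distance `d` from the base vertex. -/
def HasDepth (g : Matrix (Fin 2) (Fin 2) F) (d : ℕ) : Prop :=
  ∃ c : F, c ≠ 0 ∧ ∃ A : Matrix (Fin 2) (Fin 2) O,
    Prim A ∧ c • g = intMat O F A ∧ addVal O A.det = d

omit [IsDomain O] [IsDiscreteValuationRing O] in
theorem prim_smul_eq {A B : Matrix (Fin 2) (Fin 2) O} (hA : Prim A) (hB : Prim B) {c : F}
    (h : intMat O F A = c • intMat O F B) : ∃ u : Oˣ, A = (u : O) • B := by
  obtain ⟨i, j, hij⟩ := hB
  obtain ⟨b, hb⟩ := hij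
  set u := A i j * ↑b⁻¹
  have hc : c = algebraMap O F u := by
    have := congrFun (congrFun h i) j
    simp only [intMat_apply, Matrix.smul_apply, smul_eq_mul] at this
    show c = algebraMap O F (A i j * ↑b⁻¹)
    rw [map_mul, this, mul_assoc, ← map_mul, ← hb, Units.mul_inv, map_one, mul_one]
  have hAB : A = u • B := intMat_injective (F := F) (by
    rw [h, hc]; ext a b; simp)
  obtain ⟨i', j', hu⟩ := hA
  rw [hAB, Matrix.smul_apply, smul_eq_mul] at hu
  exact ⟨(isUnit_of_mul_isUnit_left hu).unit, hAB⟩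

theorem hasDepth_unique {g : Matrix (Fin 2) (Fin 2) F} {d d' : ℕ} (h : HasDepth O g d)
    (h' : HasDepth O g d') : d = d' := by
  obtain ⟨c, hc, A, hA, hcA, hd⟩ := h
  obtain ⟨c', hc', A', hA', hcA', hd'⟩ := h'
  obtain ⟨u, hu⟩ := prim_smul_eq (F := F) (c := c * c'⁻¹) hA hA' (by
    rw [← hcA', ← hcA, smul_smul, mul_assoc, inv_mul_cancel₀ hc', mul_one])
  rw [hu, det_smul, Fintype.card_fin, addVal_mul, addVal_pow, addVal_eq_zero_iff.mpr u.isUnit,
    nsmul_zero, zero_add, hd'] at hd
  exact_mod_cast hd.symm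

variable {π : O} (hπ : Irreducible π)

include hπ in
theorem dvd_iff_not_isUnit {x : O} : π ∣ x ↔ ¬IsUnit x := by
  rw [← Ideal.mem_span_singleton, ← hπ.maximalIdeal_eq, IsLocalRing.mem_maximalIdeal]
  rfl

include hπ in
theorem exists_prim_eq : ∀ (d : ℕ) (A : Matrix (Fin 2) (Fin 2) O), addVal O A.det = d →
    ∃ (k d' : ℕ) (B : Matrix (Fin 2) (Fin 2) O),
      Prim B ∧ A = π ^ k • B ∧ addVal O B.det = d' := by
  intro d
  induction d using Nat.strong_induction_on with
  | _ d ih =>
    intro A hA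
    by_cases hp : Prim A
    · exact ⟨0, d, A, hp, by simp, hA⟩
    · simp only [Prim, not_exists, ← dvd_iff_not_isUnit hπ] at hp
      choose B hB using hp
      have hAB : A = π • of B := by ext i j; simp [hB]
      have hdet := hA
      rw [hAB, det_smul, Fintype.card_fin, addVal_mul, addVal_pow, addVal_uniformizer hπ] at hdet
      obtain ⟨e, he⟩ : ∃ e : ℕ, addVal O (of B).det = e := by
        refine ENat.ne_top_iff_exists.mp (fun htop => ?_) |>.imp fun e he => he.symm
        rw [htop, add_top] at hdet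
        exact ENat.natCast_ne_top d hdet.symm
      rw [he] at hdet
      have hd : d = 2 + e := by
        have : ((2 + e : ℕ) : ℕ∞) = d := by rw [← hdet]; simp
        exact_mod_cast this.symm
      obtain ⟨k, d', C, hC, hkC, hd'⟩ := ih e (by omega) _ he
      exact ⟨k + 1, d', C, hC, by rw [hAB, hkC, smul_smul, pow_succ'], hd'⟩

include hπ in
theorem exists_hasDepth (g : GL (Fin 2) F) : ∃ d, HasDepth O (g : Matrix (Fin 2) (Fin 2) F) d := by
  obtain ⟨b, hb⟩ := IsLocalization.exist_integer_multiples_of_finite (nonZeroDivisors O)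
    fun p : Fin 2 × Fin 2 => (g : Matrix (Fin 2) (Fin 2) F) p.1 p.2
  choose A hA using fun i j => hb (i, j)
  have hb0 : algebraMap O F b ≠ 0 :=
    IsFractionRing.to_map_ne_zero_of_mem_nonZeroDivisors b.2
  have hgA : algebraMap O F b • (g : Matrix (Fin 2) (Fin 2) F) = intMat O F (of A) := by
    ext i j
    simp [hA i j, Algebra.smul_def]
  have hdet : (of A).det ≠ 0 := fun h0 => by
    have := congrArg Matrix.det hgA
    rw [intMat_det, h0, map_zero, det_smul, Fintype.card_fin] at this
    exact mul_ne_zero (pow_ne_zero _ hb0) g.det_ne_zero this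
  obtain ⟨d, hd⟩ := ENat.ne_top_iff_exists.mp fun h => hdet (addVal_eq_top_iff.mp h)
  obtain ⟨k, d', B, hB, hkB, hd'⟩ := exists_prim_eq hπ d (of A) hd.symm
  have hpk : algebraMap O F π ^ k ≠ 0 :=
    pow_ne_zero _ (IsFractionRing.to_map_ne_zero_of_mem_nonZeroDivisors
      (mem_nonZeroDivisors_of_ne_zero hπ.ne_zero))
  refine ⟨d', (algebraMap O F π ^ k)⁻¹ * algebraMap O F b, mul_ne_zero (inv_ne_zero hpk) hb0, B, hB,
    ?_, hd'⟩
  rw [← smul_smul, hgA, hkB]
  ext i j
  simp only [Matrix.smul_apply, intMat_apply, map_pow, map_mul, smul_eq_mul]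
  field_simp


variable (O) in
open Classical in
/-- The distance from the base vertex. -/
def depth (g : GL (Fin 2) F) : ℕ :=
  if h : ∃ d, HasDepth O (g : Matrix (Fin 2) (Fin 2) F) d then h.choose else 0

theorem depth_eq {g : GL (Fin 2) F} {d : ℕ} (h : HasDepth O (g : Matrix (Fin 2) (Fin 2) F) d) :
    depth O g = d := by
  have he : ∃ d, HasDepth O (g : Matrix (Fin 2) (Fin 2) F) d := ⟨d, h⟩
  rw [depth, dif_pos he]
  exact hasDepth_unique he.choose_spec h

theorem prim_gl_mul (k l : GL (Fin 2) O) {A : Matrix (Fin 2) (Fin 2) O} (hA : Prim A) :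
    Prim ((k : Matrix (Fin 2) (Fin 2) O) * A * (l : Matrix (Fin 2) (Fin 2) O)) := by
  by_contra h
  simp only [Prim, not_exists] at h
  have h0 : (IsLocalRing.residue O).mapMatrix ((k : Matrix (Fin 2) (Fin 2) O) * A * (l : Matrix (Fin 2) (Fin 2) O)) = 0 := by
    ext i j
    simpa [IsLocalRing.residue_eq_zero_iff] using h i j
  have hA0 : (IsLocalRing.residue O).mapMatrix A = 0 := by
    have e : A = ((k⁻¹ : GL (Fin 2) O) : Matrix (Fin 2) (Fin 2) O) * ((k : Matrix (Fin 2) (Fin 2) O) * A * (l : Matrix (Fin 2) (Fin 2) O)) * ((l⁻¹ : GL (Fin 2) O) : Matrix (Fin 2) (Fin 2) O) := by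
      simp [← mul_assoc]
    rw [e, map_mul, map_mul, h0, mul_zero, zero_mul]
  obtain ⟨i, j, hij⟩ := hA
  exact IsLocalRing.residue_ne_zero_iff_isUnit _ |>.mpr hij (congrFun (congrFun hA0 i) j)

include hπ in
theorem depth_mul_mul {g h h' : GL (Fin 2) F} (hh : h ∈ sphSub O F) (hh' : h' ∈ sphSub O F) :
    depth O (h * g * h') = depth O g := by
  obtain ⟨d, hd⟩ := exists_hasDepth hπ g
  rw [depth_eq hd]
  obtain ⟨c, hc, A, hA, hcA, hdA⟩ := hd
  obtain ⟨a, ha, k, hk⟩ := hh
  obtain ⟨b, hb, l, hl⟩ := hh'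
  refine depth_eq ⟨(a * b)⁻¹ * c, mul_ne_zero (inv_ne_zero (mul_ne_zero ha hb)) hc,
    (k : Matrix (Fin 2) (Fin 2) O) * A * (l : Matrix (Fin 2) (Fin 2) O), prim_gl_mul k l hA, ?_, ?_⟩
  · rw [map_mul, map_mul, ← hcA, Units.val_mul, Units.val_mul, hk, hl]
    simp only [Matrix.smul_mul, Matrix.mul_smul, smul_smul]
    congr 1
    field_simp
  · have hu : ∀ x : GL (Fin 2) O, addVal O (x : Matrix (Fin 2) (Fin 2) O).det = 0 := fun x =>
      addVal_eq_zero_iff.mpr ((Matrix.isUnit_iff_isUnit_det _).mp x.isUnit)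
    rw [det_mul, det_mul, addVal_mul, addVal_mul, hu, hu, hdA]
    simp

/-! ### The torus -/

variable {t n : O}

/-- `F[ω]`. -/
abbrev LAlg (F : Type*) [Field F] [Algebra O F] (t n : O) : Type _ :=
  QuadraticAlgebra F (-algebraMap O F n) (algebraMap O F t)

variable (F) in
/-- `O[ω] → F[ω]`. -/
def toL : QuadraticAlgebra O (-n) t →+* LAlg F t n where
  toFun w := ⟨algebraMap O F w.re, algebraMap O F w.im⟩
  map_one' := by ext <;> simp [QuadraticAlgebra.re_one, QuadraticAlgebra.im_one]
  map_zero' := by ext <;> simp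
  map_add' z w := by ext <;> simp
  map_mul' z w := by ext <;> simp

/-- The matrix of multiplication. -/
def emb : LAlg F t n →+* Matrix (Fin 2) (Fin 2) F where
  toFun z := !![z.re, -algebraMap O F n * z.im; z.im, z.re + algebraMap O F t * z.im]
  map_one' := by
    ext i j; fin_cases i <;> fin_cases j <;> simp [QuadraticAlgebra.re_one, QuadraticAlgebra.im_one]
  map_zero' := by ext i j; fin_cases i <;> fin_cases j <;> simp
  map_add' z w := by ext i j; fin_cases i <;> fin_cases j <;> simp <;> ring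
  map_mul' z w := by
    ext i j; fin_cases i <;> fin_cases j <;> simp [Matrix.mul_apply, Fin.sum_univ_two] <;> ring

omit [IsDomain O] [IsDiscreteValuationRing O] [IsFractionRing O F] in
theorem det_emb (z : LAlg F t n) : (emb z).det = z.norm := by
  simp [emb, det_fin_two, QuadraticAlgebra.norm_def]; ring

/-- The torus as a subgroup. -/
def embU : (LAlg F t n)ˣ →* GL (Fin 2) F :=
  Units.map (emb : LAlg F t n →+* Matrix (Fin 2) (Fin 2) F).toMonoidHom

omit [IsDomain O] [IsDiscreteValuationRing O] [IsFractionRing O F] in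
theorem embU_injective : Function.Injective (embU : (LAlg F t n)ˣ → GL (Fin 2) F) := by
  intro z w h
  have h' := congrArg (fun g : GL (Fin 2) F => (g : Matrix (Fin 2) (Fin 2) F)) h
  have a := congrFun (congrFun h' 0) 0
  have b := congrFun (congrFun h' 1) 0
  simp [embU, emb] at a b
  exact Units.ext (QuadraticAlgebra.ext a b)

variable (t n) in
/-- The generator of the torus. -/
def genMat : Matrix (Fin 2) (Fin 2) F :=
  !![0, -algebraMap O F n; 1, algebraMap O F t]

omit [IsDomain O] [IsDiscreteValuationRing O] [IsFractionRing O F] in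
theorem exists_emb_of_commute {X : Matrix (Fin 2) (Fin 2) F}
    (h : genMat t n * X = X * genMat t n) : ∃ z : LAlg F t n, emb z = X ∧
      z.re = X 0 0 ∧ z.im = X 1 0 := by
  refine ⟨⟨X 0 0, X 1 0⟩, ?_, rfl, rfl⟩
  have h00 := congrFun (congrFun h 0) 0
  have h10 := congrFun (congrFun h 1) 0
  simp [genMat, Matrix.mul_apply, Fin.sum_univ_two] at h00 h10
  ext i j
  fin_cases i <;> fin_cases j <;> simp [emb]
  · exact h00
  · linear_combination h10

omit [IsDomain O] [IsDiscreteValuationRing O] [IsFractionRing O F] in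
theorem commute_emb (z : LAlg F t n) : genMat t n * emb z = emb z * genMat t n := by
  ext i j; fin_cases i <;> fin_cases j <;> simp [genMat, emb, Matrix.mul_apply, Fin.sum_univ_two]
    <;> ring

/-- `diag (1, πᵐ)`. -/
def stepMat (m : ℕ) : GL (Fin 2) F :=
  GeneralLinearGroup.mkOfDetNeZero !![1, 0; 0, algebraMap O F π ^ m] (by
    simp [det_fin_two, hπ.ne_zero])

omit [IsDomain O] [IsDiscreteValuationRing O] in
theorem piF_ne_zero {π : O} (hπ : Irreducible π) : algebraMap O F π ≠ 0 := fun h =>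
  hπ.ne_zero ((IsFractionRing.injective O F) (h.trans (map_zero _).symm))

omit [IsDomain O] [IsDiscreteValuationRing O] in
theorem stepMat_val (m : ℕ) :
    ((stepMat (F := F) hπ m : GL (Fin 2) F) : Matrix (Fin 2) (Fin 2) F) =
      !![1, 0; 0, algebraMap O F π ^ m] := rfl

omit [IsDomain O] [IsDiscreteValuationRing O] in
theorem stepMat_inv_val (m : ℕ) :
    (((stepMat (F := F) hπ m)⁻¹ : GL (Fin 2) F) : Matrix (Fin 2) (Fin 2) F) =
      !![1, 0; 0, (algebraMap O F π ^ m)⁻¹] := by
  rw [coe_units_inv]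
  refine inv_eq_left_inv ?_
  rw [stepMat_val]
  ext i j
  fin_cases i <;> fin_cases j <;> simp [Matrix.mul_apply, Fin.sum_univ_two, piF_ne_zero hπ]

omit [IsDomain O] [IsDiscreteValuationRing O] in
theorem conj_step (m : ℕ) (z : LAlg F t n) :
    (((stepMat (F := F) hπ m)⁻¹ : GL (Fin 2) F) : Matrix (Fin 2) (Fin 2) F) * emb z *
      ((stepMat (F := F) hπ m : GL (Fin 2) F) : Matrix (Fin 2) (Fin 2) F) =
    !![z.re, -algebraMap O F n * z.im * algebraMap O F π ^ m;
      z.im / algebraMap O F π ^ m, z.re + algebraMap O F t * z.im] := by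
  rw [stepMat_inv_val, stepMat_val]
  have hne := pow_ne_zero m (piF_ne_zero (F := F) hπ)
  ext i j
  fin_cases i <;> fin_cases j <;> simp [emb, Matrix.mul_apply, Fin.sum_univ_two] <;> field_simp

omit [IsDomain O] [IsDiscreteValuationRing O] in
/-- The stabiliser of the `m`-th vertex in the torus. -/
theorem conj_mem_sphSub_iff (m : ℕ) (z : (LAlg F t n)ˣ) :
    (stepMat (F := F) hπ m)⁻¹ * embU z * stepMat (F := F) hπ m ∈ sphSub O F ↔
      ∃ c : F, c ≠ 0 ∧ ∃ w : (QuadraticAlgebra O (-n) t)ˣ,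
        π ^ m ∣ (w : QuadraticAlgebra O (-n) t).im ∧ (z : LAlg F t n) = c • toL F (w : QuadraticAlgebra O (-n) t) := by
  have hne := pow_ne_zero m (piF_ne_zero (F := F) hπ)
  constructor
  · rintro ⟨c, hc, k, hk⟩
    have hk' : !![(z : LAlg F t n).re, -algebraMap O F n * (z : LAlg F t n).im *
        algebraMap O F π ^ m; (z : LAlg F t n).im / algebraMap O F π ^ m,
        (z : LAlg F t n).re + algebraMap O F t * (z : LAlg F t n).im] = c • intMat O F k := by
      rw [← conj_step hπ m, ← hk]; rfl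
    have h00 := congrFun (congrFun hk' 0) 0
    have h01 := congrFun (congrFun hk' 0) 1
    have h10 := congrFun (congrFun hk' 1) 0
    have h11 := congrFun (congrFun hk' 1) 1
    simp at h00 h01 h10 h11
    rw [div_eq_iff hne] at h10
    set K := (k : Matrix (Fin 2) (Fin 2) O)
    have e11 : K 1 1 = K 0 0 + t * (π ^ m * K 1 0) := IsFractionRing.injective O F (by
      apply mul_left_cancel₀ hc
      rw [← h11, h00, h10]
      simp only [map_add, map_mul, map_pow]
      ring)
    have e01 : K 0 1 = -n * (π ^ m * K 1 0) * π ^ m := IsFractionRing.injective O F (by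
      apply mul_left_cancel₀ hc
      rw [← h01, h10]
      simp only [map_mul, map_neg, map_pow]
      ring)
    have hu : IsUnit (⟨K 0 0, π ^ m * K 1 0⟩ : QuadraticAlgebra O (-n) t) := by
      rw [QuadraticAlgebra.isUnit_iff_norm_isUnit, QuadraticAlgebra.norm_def]
      convert (Matrix.isUnit_iff_isUnit_det _).mp k.isUnit using 1
      rw [det_fin_two]
      change _ = K 0 0 * K 1 1 - K 0 1 * K 1 0
      rw [e11, e01]
      simp only
      ring
    refine ⟨c, hc, hu.unit, dvd_mul_right _ _, ?_⟩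
    ext
    · simp [toL, h00]
    · simp [toL, h10, mul_assoc, mul_comm (algebraMap O F π ^ m)]
  · rintro ⟨c, hc, w, ⟨b, hb⟩, hz⟩
    set a := (w : QuadraticAlgebra O (-n) t).re
    have hdet : IsUnit (!![a, -n * (π ^ m * b) * π ^ m; b, a + t * (π ^ m * b)]).det := by
      have h := QuadraticAlgebra.isUnit_iff_norm_isUnit.mp w.isUnit
      rw [QuadraticAlgebra.norm_def, hb] at h
      convert h using 1
      simp [det_fin_two, a]
      ring
    refine ⟨c, hc, (((Matrix.isUnit_iff_isUnit_det _).mpr hdet).unit : GL (Fin 2) O), ?_⟩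
    show (((stepMat (F := F) hπ m)⁻¹ : GL (Fin 2) F) : Matrix (Fin 2) (Fin 2) F) * emb (z : LAlg F t n) *
      ((stepMat (F := F) hπ m : GL (Fin 2) F) : Matrix (Fin 2) (Fin 2) F) = _
    rw [conj_step, hz]
    ext i j
    fin_cases i <;> fin_cases j <;> simp [toL, a, hb, map_mul, map_pow] <;> field_simp

/-- The distance moved by a primitive element, below the level. -/
theorem depth_conj (m j : ℕ) (hj : j ≤ m) {w : QuadraticAlgebra O (-n) t} {z : (LAlg F t n)ˣ}
    {c : F} (hc : c ≠ 0) (hz : (z : LAlg F t n) = c • toL F w)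
    (hprim : IsUnit w.re ∨ IsUnit w.im) (hjw : π ^ j ∣ w.im)
    (hmax : j = m ∨ ¬π ^ (j + 1) ∣ w.im) {e : ℕ} (he : addVal O w.norm = e) :
    depth O ((stepMat (F := F) hπ m)⁻¹ * embU z * stepMat (F := F) hπ m) = e + 2 * (m - j) := by
  have hne := pow_ne_zero m (piF_ne_zero (F := F) hπ)
  obtain ⟨b, hb⟩ := hjw
  obtain ⟨i, rfl⟩ : ∃ i, m = j + i := ⟨m - j, by omega⟩
  refine depth_eq ⟨algebraMap O F π ^ i * c⁻¹,
    mul_ne_zero (pow_ne_zero _ (piF_ne_zero hπ)) (inv_ne_zero hc),
    !![π ^ i * w.re, -n * w.im * π ^ (i + (j + i)); b, π ^ i * (w.re + t * w.im)], ?_, ?_, ?_⟩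
  · by_cases hi : i = 0
    · subst hi
      rcases hprim with h | h
      · exact ⟨0, 0, by simpa using h⟩
      · rw [hb] at h
        exact ⟨1, 0, by simpa using isUnit_of_mul_isUnit_right h⟩
    · refine ⟨1, 0, ?_⟩
      rcases hmax with h | h
      · omega
      · simp only [cons_val_one, cons_val_zero, cons_val', of_apply]
        by_contra hb'
        rw [← dvd_iff_not_isUnit hπ] at hb'
        exact h (hb ▸ by rw [pow_succ]; exact mul_dvd_mul_left _ hb')
  · show _ • ((((stepMat (F := F) hπ (j + i))⁻¹ : GL (Fin 2) F) : Matrix (Fin 2) (Fin 2) F) *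
      emb (z : LAlg F t n) * ((stepMat (F := F) hπ (j + i) : GL (Fin 2) F) : Matrix (Fin 2) (Fin 2) F)) = _
    rw [conj_step, hz]
    have hp := piF_ne_zero (F := F) hπ
    ext r s
    fin_cases r <;> fin_cases s <;> simp [toL, hb, pow_add] <;> field_simp
  · have hdet : (!![π ^ i * w.re, -n * w.im * π ^ (i + (j + i)); b,
        π ^ i * (w.re + t * w.im)]).det = π ^ (2 * i) * w.norm := by
      rw [det_fin_two, QuadraticAlgebra.norm_def, hb]
      simp only [of_apply, cons_val', cons_val_zero, cons_val_one]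
      ring
    rw [hdet, addVal_mul, addVal_pow, addVal_uniformizer hπ, he, Nat.add_sub_cancel_left]
    simp [add_comm]

/-! ### Levels and decomposition -/

variable (t n) in
/-- `πʲ g⁻¹ ω g` is integral. -/
def LevelLE (π : O) (j : ℕ) (g : GL (Fin 2) F) : Prop :=
  ∃ A : Matrix (Fin 2) (Fin 2) O, algebraMap O F π ^ j •
    (((g⁻¹ : GL (Fin 2) F) : Matrix (Fin 2) (Fin 2) F) * genMat t n * (g : Matrix (Fin 2) (Fin 2) F)) = intMat O F A

omit [IsDomain O] [IsDiscreteValuationRing O] [IsFractionRing O F] in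
theorem levelLE_mul (j : ℕ) (z : (LAlg F t n)ˣ) (g : GL (Fin 2) F) {h : GL (Fin 2) F}
    (hh : h ∈ sphSub O F) (hl : LevelLE t n π j g) : LevelLE t n π j (embU z * g * h) := by
  obtain ⟨A, hA⟩ := hl
  obtain ⟨c, hc, k, hk⟩ := hh
  refine ⟨((k⁻¹ : GL (Fin 2) O) : Matrix (Fin 2) (Fin 2) O) * A * (k : Matrix (Fin 2) (Fin 2) O), ?_⟩
  have hki : ((h⁻¹ : GL (Fin 2) F) : Matrix (Fin 2) (Fin 2) F) = c⁻¹ • intMat O F ↑k⁻¹ := by
    rw [coe_units_inv]
    refine inv_eq_left_inv ?_
    rw [hk, Matrix.smul_mul, Matrix.mul_smul, smul_smul, inv_mul_cancel₀ hc, ← map_mul,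
      Units.inv_mul, map_one, one_smul]
  have hcomm : ((embU z)⁻¹ : GL (Fin 2) F).1 * genMat t n * (embU z : GL (Fin 2) F).1 =
      genMat t n := by
    rw [← map_inv]
    show emb ((z⁻¹ : (LAlg F t n)ˣ) : LAlg F t n) * genMat t n * emb (z : LAlg F t n) = _
    rw [mul_assoc, commute_emb, ← mul_assoc, ← map_mul, Units.inv_mul, map_one, one_mul]
  have e : (((embU z * g * h)⁻¹ : GL (Fin 2) F) : Matrix (Fin 2) (Fin 2) F) * genMat t n *
      ((embU z * g * h : GL (Fin 2) F) : Matrix (Fin 2) (Fin 2) F) =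
      intMat O F ↑k⁻¹ * (((g⁻¹ : GL (Fin 2) F) : Matrix (Fin 2) (Fin 2) F) * genMat t n *
        (g : Matrix (Fin 2) (Fin 2) F)) * intMat O F k := by
    simp only [_root_.mul_inv_rev, Units.val_mul, mul_assoc] at hcomm ⊢
    rw [show ∀ X : Matrix (Fin 2) (Fin 2) F, ((embU z)⁻¹ : GL (Fin 2) F).1 *
        (genMat t n * ((embU z : GL (Fin 2) F).1 * X)) = genMat t n * X from fun X => by
      rw [← mul_assoc (genMat t n), ← mul_assoc, hcomm]]
    simp only [hki, hk, Matrix.smul_mul, Matrix.mul_smul, smul_smul, mul_inv_cancel₀ hc, one_smul]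
  rw [e, map_mul, map_mul, ← hA, Matrix.mul_smul, Matrix.smul_mul]

omit [IsDomain O] [IsDiscreteValuationRing O] in
theorem levelLE_step_iff (j m : ℕ) : LevelLE t n π j (stepMat (F := F) hπ m) ↔ m ≤ j := by
  have hp := piF_ne_zero (F := F) hπ
  have e : (((stepMat (F := F) hπ m)⁻¹ : GL (Fin 2) F) : Matrix (Fin 2) (Fin 2) F) * genMat t n *
      ((stepMat (F := F) hπ m : GL (Fin 2) F) : Matrix (Fin 2) (Fin 2) F) =
      !![0, -algebraMap O F n * algebraMap O F π ^ m; (algebraMap O F π ^ m)⁻¹,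
        algebraMap O F t] := by
    rw [stepMat_inv_val, stepMat_val]
    ext a b
    fin_cases a <;> fin_cases b <;> simp [genMat, Matrix.mul_apply, Fin.sum_univ_two, hp,
      mul_comm]
  constructor
  · rintro ⟨A, hA⟩
    rw [e] at hA
    have h10 := congrFun (congrFun hA 1) 0
    simp at h10
    by_contra hlt
    obtain ⟨i, rfl⟩ : ∃ i, m = j + (i + 1) := ⟨m - j - 1, by omega⟩
    have h1 : A 1 0 * π ^ (i + 1) = 1 := IsFractionRing.injective O F (by
      rw [map_mul, map_pow, map_one, ← h10, pow_add _ j]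
      field_simp)
    exact hπ.not_isUnit (IsUnit.of_mul_eq_one (A 1 0 * π ^ i) (by rw [← h1]; ring))
  · intro hle
    obtain ⟨i, rfl⟩ : ∃ i, j = m + i := ⟨j - m, by omega⟩
    refine ⟨!![0, -n * π ^ (m + (m + i)); π ^ i, π ^ (m + i) * t], ?_⟩
    rw [e]
    ext a b
    fin_cases a <;> fin_cases b <;> simp [pow_add] <;> field_simp

omit [IsDomain O] [IsDiscreteValuationRing O] in
theorem level_unique {m m' : ℕ} {z z' : (LAlg F t n)ˣ} {h : GL (Fin 2) F} (hh : h ∈ sphSub O F)
    (e : embU z * stepMat (F := F) hπ m * h = embU z' * stepMat (F := F) hπ m') : m = m' := by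
  have key : ∀ (j a b : ℕ) (x y : (LAlg F t n)ˣ) (k : GL (Fin 2) F), k ∈ sphSub O F →
      embU x * stepMat (F := F) hπ a * k = embU y * stepMat (F := F) hπ b →
      LevelLE (F := F) t n π j (stepMat (F := F) hπ a) →
      LevelLE (F := F) t n π j (stepMat (F := F) hπ b) := by
    intro j a b x y k hk exy hl
    have := levelLE_mul j y⁻¹ _ (one_mem _) (levelLE_mul j x _ hk hl)
    rwa [exy, mul_one, ← mul_assoc, ← map_mul, inv_mul_cancel, map_one, one_mul] at this
  refine le_antisymm ?_ ?_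
  · exact (levelLE_step_iff hπ m' m).mp (key m' m' m z' z h⁻¹ (inv_mem hh)
      (by rw [← e, mul_inv_cancel_right]) ((levelLE_step_iff hπ m' m').mpr le_rfl))
  · exact (levelLE_step_iff hπ m m').mp (key m m m' z z' h hh e
      ((levelLE_step_iff hπ m m).mpr le_rfl))

/-- `O[ω]` is a maximal order. -/
def IsMaximalOrder (π t n : O) : Prop := ∀ a : O, π ∣ 2 * a - t → ¬π ^ 2 ∣ a ^ 2 - t * a + n

variable (hmax : IsMaximalOrder π t n)
include hmax

/-- Every vertex is a translate of a standard one; fixed vertices by fixed elements. -/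
theorem exists_decomp (g : GL (Fin 2) F) :
    ∃ (z : (LAlg F t n)ˣ) (m : ℕ) (h : GL (Fin 2) F), h ∈ sphSub O F ∧
      g = embU z * stepMat (F := F) hπ m * h ∧
      ∀ s : F ≃+* F, s (algebraMap O F π) = algebraMap O F π →
        (∀ i j, s ((g : Matrix (Fin 2) (Fin 2) F) i j) = (g : Matrix (Fin 2) (Fin 2) F) i j) →
        s (algebraMap O F t) = algebraMap O F t → s (algebraMap O F n) = algebraMap O F n →
        s (z : LAlg F t n).re = (z : LAlg F t n).re ∧
          s (z : LAlg F t n).im = (z : LAlg F t n).im := by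
  classical
  set p := algebraMap O F π
  have hp : p ≠ 0 := piF_ne_zero hπ
  set M := ((g⁻¹ : GL (Fin 2) F) : Matrix (Fin 2) (Fin 2) F) * genMat t n * (g : Matrix (Fin 2) (Fin 2) F) with hM
  have hex : ∃ j, LevelLE t n π j g := by
    obtain ⟨b, hb⟩ := IsLocalization.exist_integer_multiples_of_finite (nonZeroDivisors O)
      fun q : Fin 2 × Fin 2 => M q.1 q.2
    choose A hA using fun i j => hb (i, j)
    obtain ⟨j, u, hu⟩ :=
      IsDiscreteValuationRing.eq_unit_mul_pow_irreducible (nonZeroDivisors.coe_ne_zero b) hπ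
    refine ⟨j, of fun i k => ↑u⁻¹ * A i k, ?_⟩
    ext i k
    rw [intMat_apply, of_apply, map_mul, hA i k, Algebra.smul_def (R := O) (b : O), hu, map_mul, map_pow,
      ← mul_assoc, ← mul_assoc, ← map_mul, Units.inv_mul, map_one, one_mul]
    rfl
  set m := Nat.find hex
  obtain ⟨A, hA⟩ := Nat.find_spec hex
  change p ^ m • M = intMat O F A at hA
  have htr : A.trace = π ^ m * t := IsFractionRing.injective O F (by
    have h1 := congrArg Matrix.trace hA
    rw [trace_smul, hM, trace_mul_cycle, Units.mul_inv, one_mul] at h1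
    simp [genMat, trace_fin_two] at h1 ⊢
    exact h1.symm)
  have hdet : A.det = π ^ (2 * m) * n := IsFractionRing.injective O F (by
    have h1 := congrArg Matrix.det hA
    rw [det_smul, Fintype.card_fin, hM, det_units_conj', intMat_det] at h1
    rw [← h1]
    simp only [genMat, det_fin_two, of_apply, cons_val', cons_val_zero, cons_val_one,
      cons_val_fin_one, map_mul, map_pow, p]
    ring)
  rw [trace_fin_two] at htr
  rw [det_fin_two] at hdet
  -- a vector with `e, A e` a basis
  obtain ⟨e₀, e₁, he, hdetP⟩ : ∃ e₀ e₁ : O, (e₀ = 0 ∨ e₀ = 1) ∧ (e₁ = 0 ∨ e₁ = 1) ∧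
      IsUnit (e₀ * (A 1 0 * e₀ + A 1 1 * e₁) - e₁ * (A 0 0 * e₀ + A 0 1 * e₁)) := by
    by_cases h10 : IsUnit (A 1 0)
    · exact ⟨1, 0, Or.inr rfl, Or.inl rfl, by simpa using h10⟩
    by_cases h01 : IsUnit (A 0 1)
    · exact ⟨0, 1, Or.inl rfl, Or.inr rfl, by simpa using h01⟩
    refine ⟨1, 1, Or.inr rfl, Or.inr rfl, ?_⟩
    by_contra hd
    rw [← dvd_iff_not_isUnit hπ] at h10 h01 hd
    have hdd : π ∣ A 1 1 - A 0 0 := by
      have e : A 1 1 - A 0 0 = (1 * (A 1 0 * 1 + A 1 1 * 1) - 1 * (A 0 0 * 1 + A 0 1 * 1))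
          - A 1 0 + A 0 1 := by ring
      rw [e]
      exact dvd_add (dvd_sub hd h10) h01
    rcases Nat.eq_zero_or_pos m with hm | hm
    · rw [hm, pow_zero, one_mul] at htr
      rw [hm, mul_zero, pow_zero, one_mul] at hdet
      refine hmax (A 0 0) ?_ ?_
      · rw [← htr, show 2 * A 0 0 - (A 0 0 + A 1 1) = -(A 1 1 - A 0 0) by ring]
        exact dvd_neg.mpr hdd
      · rw [← htr, ← hdet, show A 0 0 ^ 2 - (A 0 0 + A 1 1) * A 0 0 +
          (A 0 0 * A 1 1 - A 0 1 * A 1 0) = -(A 0 1 * A 1 0) by ring, dvd_neg, sq]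
        exact mul_dvd_mul h01 h10
    · have hprod : π ∣ A 0 0 * A 1 1 := by
        rw [show A 0 0 * A 1 1 = π ^ (2 * m) * n + A 0 1 * A 1 0 by rw [← hdet]; ring]
        exact dvd_add ((dvd_pow_self π (by omega)).mul_right n) (h01.mul_right _)
      have h00 : π ∣ A 0 0 := by
        rcases hπ.prime.dvd_or_dvd hprod with h | h
        · exact h
        · simpa using dvd_sub h hdd
      have hall : ∀ i k, π ∣ A i k := fun i k => by
        fin_cases i <;> fin_cases k
        · exact h00
        · exact h01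
        · exact h10
        · simpa using dvd_add hdd h00
      choose B hB using hall
      refine Nat.find_min hex (Nat.sub_lt hm one_pos) ⟨of B, ?_⟩
      change p ^ (m - 1) • M = _
      have hmm : p ^ m = p * p ^ (m - 1) := by rw [← pow_succ', Nat.sub_add_cancel hm]
      ext i k
      apply mul_left_cancel₀ hp
      have := congrFun (congrFun hA i) k
      simp only [Matrix.smul_apply, smul_eq_mul, intMat_apply, hB i k, map_mul, of_apply] at this ⊢
      rw [← mul_assoc, ← hmm, this]
  obtain ⟨he1, hdetP⟩ := hdetP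
  set P : Matrix (Fin 2) (Fin 2) O :=
    !![e₀, A 0 0 * e₀ + A 0 1 * e₁; e₁, A 1 0 * e₀ + A 1 1 * e₁] with hP
  have hPdet : IsUnit P.det := by
    rw [hP, det_fin_two]
    convert hdetP using 1
    simp
    ring
  have hCH : A * P = P * !![0, -(π ^ (2 * m) * n); 1, π ^ m * t] := by
    rw [← hdet, ← htr]
    ext i k
    fin_cases i <;> fin_cases k <;> simp [hP, Matrix.mul_apply, Fin.sum_univ_two] <;> ring
  let PU : GL (Fin 2) F := GeneralLinearGroup.mkOfDetNeZero (intMat O F P) (by
    rw [intMat_det]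
    exact (hPdet.map (algebraMap O F)).ne_zero)
  have hPU : PU ∈ sphSub O F :=
    ⟨1, one_ne_zero, ((Matrix.isUnit_iff_isUnit_det _).mpr hPdet).unit, by simp [PU]⟩
  set X : GL (Fin 2) F := g * PU * (stepMat (F := F) hπ m)⁻¹
  have hX : genMat t n * (X : Matrix (Fin 2) (Fin 2) F) = (X : Matrix (Fin 2) (Fin 2) F) * genMat t n := by
    have h1 : p ^ m • (M * intMat O F P) =
        p ^ m • (intMat O F P * ((((stepMat (F := F) hπ m)⁻¹ : GL (Fin 2) F) :
          Matrix (Fin 2) (Fin 2) F) * genMat t n * ((stepMat (F := F) hπ m : GL (Fin 2) F) : Matrix (Fin 2) (Fin 2) F))) := by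
      rw [← Matrix.smul_mul, hA, ← map_mul, hCH, map_mul, ← Matrix.mul_smul]
      congr 1
      rw [show genMat (F := F) t n = emb (⟨0, 1⟩ : LAlg F t n) by
        ext a b; fin_cases a <;> fin_cases b <;> simp [genMat, emb]]
      rw [conj_step]
      ext i k
      simp only [intMat_apply, Matrix.smul_apply, smul_eq_mul]
      fin_cases i <;> fin_cases k <;> simp [p, two_mul, pow_add, hπ.ne_zero]
      field_simp
    have h2 := smul_right_injective _ (pow_ne_zero m hp) h1
    simp only [hM] at h2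
    simp only [X, Units.val_mul]
    show genMat t n * ((g : Matrix (Fin 2) (Fin 2) F) * intMat O F P * _) = _
    calc genMat t n * ((g : Matrix (Fin 2) (Fin 2) F) * intMat O F P *
          (((stepMat (F := F) hπ m)⁻¹ : GL (Fin 2) F) : Matrix (Fin 2) (Fin 2) F))
        = (g : Matrix (Fin 2) (Fin 2) F) * ((((g⁻¹ : GL (Fin 2) F) : Matrix (Fin 2) (Fin 2) F) *
            genMat t n * (g : Matrix (Fin 2) (Fin 2) F)) * intMat O F P) *
            (((stepMat (F := F) hπ m)⁻¹ : GL (Fin 2) F) : Matrix (Fin 2) (Fin 2) F) := by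
          simp only [← mul_assoc, Units.mul_inv, one_mul]
      _ = _ := by
          rw [h2]
          simp only [mul_assoc, Units.mul_inv, mul_one]
          rfl
  obtain ⟨z, hz, hzre, hzim⟩ := exists_emb_of_commute hX
  have hzu : IsUnit z := by
    rw [QuadraticAlgebra.isUnit_iff_norm_isUnit, ← det_emb, hz]
    exact isUnit_iff_ne_zero.mpr X.det_ne_zero
  have hzX : embU hzu.unit = X := Units.ext hz
  refine ⟨hzu.unit, m, PU⁻¹, inv_mem hPU, ?_, ?_⟩
  · rw [hzX]
    simp only [X, inv_mul_cancel_right, mul_inv_cancel_right]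
  · intro s hsp hsg hst hsn
    let S := s.toRingHom.mapMatrix (m := Fin 2)
    have hSg : S (g : Matrix (Fin 2) (Fin 2) F) = g := by ext i k; exact hsg i k
    have hSgi : S ((g⁻¹ : GL (Fin 2) F) : Matrix (Fin 2) (Fin 2) F) = (g⁻¹ : GL (Fin 2) F) := by
      rw [coe_units_inv]
      refine (inv_eq_left_inv ?_).symm
      conv_lhs => arg 2; rw [← hSg]
      rw [← map_mul, ← coe_units_inv, Units.inv_mul, map_one]
    have hSC : S (genMat t n) = genMat t n := by
      ext i k; fin_cases i <;> fin_cases k <;> simp [S, genMat, hst, hsn]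
    have hSA : ∀ i k, s (algebraMap O F (A i k)) = algebraMap O F (A i k) := fun i k => by
      have h1 : S (intMat O F A) = intMat O F A := by
        rw [← hA]
        ext a b
        have hSM : S M = M := by rw [hM, map_mul, map_mul, hSgi, hSC, hSg]
        have h2 : s (M a b) = M a b := congrFun (congrFun hSM a) b
        show s ((p ^ m • M) a b) = (p ^ m • M) a b
        simp [h2, hsp, p]
      exact congrFun (congrFun h1 i) k
    have hs0 : ∀ x : O, (x = 0 ∨ x = 1) → s (algebraMap O F x) = algebraMap O F x := by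
      rintro x (rfl | rfl) <;> simp
    have hSX : S (X : Matrix (Fin 2) (Fin 2) F) = X := by
      simp only [X, Units.val_mul, map_mul, hSg]
      congr 1
      · congr 1
        ext i k
        fin_cases i <;> fin_cases k <;>
          simp [S, PU, hP, hSA, hs0 _ he, hs0 _ he1]
      · rw [stepMat_inv_val]
        ext i k; fin_cases i <;> fin_cases k <;> simp [S, hsp, p]
    simp only [IsUnit.unit_spec, hzre, hzim]
    exact ⟨congrFun (congrFun hSX 0) 0, congrFun (congrFun hSX 1) 0⟩

end FermatAgent.LT.Inert
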