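import Mathlib

set_option autoImplicit false

/-!
# The combinatorics of spherical base change for an unramified cubic extension

A spherical function is a finitely supported function `f` of the distance in the tree.  Its
transform `satake q f n = f n + ∑_{m ≥ 1} q^(m-1) (q-1) f (n + 2 m)` is triangular; base change
`bcFun q f` is defined by `satake q (bcFun q f) (3 k) = satake (q^3) f k`, zero at other indices.
-/

noncomputable section

open Finset

namespace FermatAgent.LT.Inert

/-- The horocycle transform. -/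
def satake (q : ℂ) (f : ℕ → ℂ) (M n : ℕ) : ℂ :=
  f n + ∑ i ∈ range M, q ^ i * (q - 1) * f (n + 2 * (i + 1))

/-- The inverse transform. -/
def satakeInv (q : ℂ) (T : ℕ → ℂ) (M n : ℕ) : ℂ :=
  T n + ∑ i ∈ range M, (1 - q) * T (n + 2 * (i + 1))

/-- Base change of spherical functions supported below `M`. -/
def bcFun (q : ℂ) (f : ℕ → ℂ) (M n : ℕ) : ℂ :=
  satakeInv q (fun j => if j % 3 = 0 then satake (q ^ 3) f M (j / 3) else 0) (3 * M) n

variable {q : ℂ} {f T : ℕ → ℂ} {M : ℕ}

theorem satake_eq_zero (hf : ∀ n, M ≤ n → f n = 0) {n : ℕ} (hn : M ≤ n) :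
    satake q f M n = 0 := by
  rw [satake, hf n hn, zero_add]
  exact sum_eq_zero fun i _ => by rw [hf _ (by omega), mul_zero]

theorem satakeInv_eq_zero (hT : ∀ n, M ≤ n → T n = 0) {n : ℕ} (hn : M ≤ n) :
    satakeInv q T M n = 0 := by
  rw [satakeInv, hT n hn, zero_add]
  exact sum_eq_zero fun i _ => by rw [hT _ (by omega), mul_zero]

/-- The bound of the summation is irrelevant. -/
theorem satake_bound (hf : ∀ n, M ≤ n → f n = 0) {M' : ℕ} (h : M ≤ M') (n : ℕ) :
    satake q f M' n = satake q f M n := by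
  rw [satake, satake]
  congr 1
  refine (sum_subset (range_mono h) fun i _ hi => ?_).symm
  rw [mem_range, not_lt] at hi
  rw [hf _ (by omega), mul_zero]

theorem satake_step (hf : ∀ n, M ≤ n → f n = 0) (n : ℕ) :
    satake q f M n - q * satake q f M (n + 2) = f n - f (n + 2) := by
  have h : satake q f M n = satake q f (M + 1) n := (satake_bound hf (Nat.le_succ M) n).symm
  rw [h, satake, sum_range_succ']
  simp only [satake, mul_add, mul_sum]
  rw [show ∀ a b c d e : ℂ, a + (b + c) - (d + e) = a + c - d + (b - e) from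
    fun a b c d e => by ring, ← sum_sub_distrib]
  rw [sum_eq_zero fun i _ => ?_]
  · simp
    ring
  · rw [show n + (2 * i + 2 * 1 + 2 * 1) = n + 2 + (2 * i + 2 * 1) by ring]
    ring

theorem satakeInv_step (hT : ∀ n, M ≤ n → T n = 0) (n : ℕ) :
    satakeInv q T M n - satakeInv q T M (n + 2) = T n - q * T (n + 2) := by
  have h : satakeInv q T M n = satakeInv q T (M + 1) n := by
    rw [satakeInv, satakeInv, sum_range_succ, hT (n + 2 * (M + 1)) (by omega), mul_zero, add_zero]
  rw [h, satakeInv, sum_range_succ']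
  simp only [satakeInv]
  rw [show ∀ a b c d e : ℂ, a + (b + c) - (d + e) = a + c - d + (b - e) from
    fun a b c d e => by ring, ← sum_sub_distrib]
  rw [sum_eq_zero fun i _ => ?_]
  · simp
    ring
  · rw [show n + 2 * (i + 1 + 1) = n + 2 + 2 * (i + 1) by ring]
    ring

theorem satake_satakeInv (hT : ∀ n, M ≤ n → T n = 0) (n : ℕ) :
    satake q (satakeInv q T M) M n = T n := by
  have key : ∀ d n, M ≤ n + d → satake q (satakeInv q T M) M n = T n := by
    intro d
    induction d with
    | zero =>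
      intro n hn
      rw [satake_eq_zero (fun k hk => satakeInv_eq_zero hT hk) (by omega), hT n (by omega)]
    | succ d ih =>
      intro n hn
      have h1 := satake_step (q := q) (fun k hk => satakeInv_eq_zero (q := q) hT hk) n
      rw [satakeInv_step hT, ih (n + 2) (by omega)] at h1
      linear_combination h1
  exact key M n (by omega)

theorem bcFun_eq_zero (hf : ∀ n, M ≤ n → f n = 0) {n : ℕ} (hn : 3 * M ≤ n) :
    bcFun q f M n = 0 := by
  refine satakeInv_eq_zero (fun j hj => ?_) hn
  split_ifs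
  · exact satake_eq_zero hf (by omega)
  · rfl

/-- The defining property. -/
theorem satake_bcFun (hf : ∀ n, M ≤ n → f n = 0) (n : ℕ) :
    satake q (bcFun q f M) (3 * M) n = if n % 3 = 0 then satake (q ^ 3) f M (n / 3) else 0 :=
  satake_satakeInv (T := fun j => if j % 3 = 0 then satake (q ^ 3) f M (j / 3) else 0)
    (fun j hj => by
      split_ifs
      · exact satake_eq_zero hf (by omega)
      · rfl) n

theorem sum_geom_shift (hf : ∀ n, M ≤ n → f n = 0) : ∀ d a, M ≤ a + d →
    ∑ l ∈ range d, q ^ l * f (a + 2 * l) = ∑ k ∈ range d, satake q f M (a + 2 * k) := by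
  intro d
  induction d with
  | zero => intro a _; simp
  | succ d ih =>
    intro a ha
    rw [sum_range_succ', sum_range_succ']
    have h := ih (a + 2) (by omega)
    have h2 : ∀ k, a + 2 * (k + 1) = a + 2 + 2 * k := fun k => by ring
    simp only [h2, pow_zero, one_mul, Nat.mul_zero, add_zero]
    rw [← h]
    have hs : satake q f M a = f a + (q - 1) * ∑ l ∈ range d, q ^ l * f (a + 2 + 2 * l) := by
      rw [satake, mul_sum]
      congr 1
      have e : ∀ i, q ^ i * (q - 1) * f (a + 2 * (i + 1)) =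
          (q - 1) * (q ^ i * f (a + 2 + 2 * i)) := fun i => by
        rw [show a + 2 * (i + 1) = a + 2 + 2 * i by ring]; ring
      simp only [e]
      rcases le_total M d with hMd | hMd
      · refine sum_subset (range_mono hMd) fun i _ hi => ?_
        rw [mem_range, not_lt] at hi
        rw [hf _ (by omega)]; ring
      · refine (sum_subset (range_mono hMd) fun i _ hi => ?_).symm
        rw [mem_range, not_lt] at hi
        rw [hf _ (by omega)]; ring
    have e2 : ∑ l ∈ range d, q ^ (l + 1) * f (a + 2 + 2 * l) =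
        q * ∑ l ∈ range d, q ^ l * f (a + 2 + 2 * l) := by
      rw [mul_sum]; exact sum_congr rfl fun l _ => by ring
    rw [hs, e2]
    ring

/-- `∑ q^l f (2 l + 1)` in terms of the transform. -/
theorem sum_odd (hf : ∀ n, M ≤ n → f n = 0) :
    ∑ l ∈ range M, q ^ l * f (2 * l + 1) = ∑ k ∈ range M, satake q f M (2 * k + 1) := by
  simpa [add_comm] using sum_geom_shift (q := q) hf M 1 (by omega)

/-- `f 0 + ∑ q^l f (2 l)` in terms of the transform. -/
theorem sum_even (hf : ∀ n, M ≤ n → f n = 0) :
    f 0 + ∑ l ∈ range M, q ^ (l + 1) * f (2 * (l + 1)) =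
      satake q f M 0 + ∑ k ∈ range M, satake q f M (2 * (k + 1)) ∧
    ∑ l ∈ range M, q ^ (l + 1) * f (2 * (l + 1)) =
      q * ∑ k ∈ range M, satake q f M (2 * (k + 1)) := by
  have hB : ∑ l ∈ range M, q ^ (l + 1) * f (2 * (l + 1)) =
      q * ∑ k ∈ range M, satake q f M (2 * (k + 1)) := by
    have e : ∀ l, 2 * (l + 1) = 2 + 2 * l := fun l => by ring
    simp only [e]
    rw [← sum_geom_shift hf M 2 (by omega), mul_sum]
    exact sum_congr rfl fun l _ => by ring
  refine ⟨?_, hB⟩
  have hs : satake q f M 0 = f 0 + (q - 1) * ∑ k ∈ range M, satake q f M (2 * (k + 1)) := by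
    have e : ∀ l, 2 * (l + 1) = 2 + 2 * l := fun l => by ring
    simp only [e]
    rw [← sum_geom_shift hf M 2 (by omega), satake, mul_sum]
    simp only [zero_add, e]
    congr 1
    exact sum_congr rfl fun l _ => by ring
  rw [hB, hs]
  ring

theorem sum_third {S : ℕ → ℂ} (hS : ∀ k, M ≤ k → S k = 0) (a : ℕ) (ha : a = 1 ∨ a = 2) :
    ∑ k ∈ range (3 * M), (if (2 * k + a) % 3 = 0 then S ((2 * k + a) / 3) else 0) =
      ∑ j ∈ range M, S (2 * j + a) := by
  rw [← sum_filter]
  refine sum_bij_ne_zero (fun k _ _ => ((2 * k + a) / 3 - a) / 2) ?_ ?_ ?_ ?_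
  · intro k hk hne
    simp only [mem_filter, mem_range] at hk
    have : (2 * k + a) / 3 < M := lt_of_not_ge fun h => hne (hS _ h)
    rw [mem_range]
    omega
  · intro k hk _ k' hk' _ h
    simp only [mem_filter, mem_range] at hk hk'
    omega
  · intro j hj hne
    have hlt : 2 * j + a < M := lt_of_not_ge fun h => hne (hS _ h)
    refine ⟨(3 * (2 * j + a) - a) / 2, ?_, ?_, ?_⟩
    · simp only [mem_filter, mem_range]
      omega
    · rwa [show (2 * ((3 * (2 * j + a) - a) / 2) + a) / 3 = 2 * j + a by omega]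
    · omega
  · intro k hk hne
    simp only [mem_filter, mem_range] at hk
    congr 1
    omega

/-- Matching at an odd element of a ramified torus. -/
theorem bc_sum_odd (hf : ∀ n, M ≤ n → f n = 0) :
    ∑ l ∈ range (3 * M), q ^ l * bcFun q f M (2 * l + 1) =
      ∑ l ∈ range M, (q ^ 3) ^ l * f (2 * l + 1) := by
  rw [sum_odd (fun n hn => bcFun_eq_zero hf hn), sum_odd hf]
  simp only [satake_bcFun hf]
  exact sum_third (fun k hk => satake_eq_zero hf hk) 1 (Or.inl rfl)

/-- The two functionals of a unit of a torus correspond. -/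
theorem bc_sum_even (hf : ∀ n, M ≤ n → f n = 0) :
    bcFun q f M 0 + ∑ l ∈ range (3 * M), q ^ (l + 1) * bcFun q f M (2 * (l + 1)) =
      f 0 + ∑ l ∈ range M, (q ^ 3) ^ (l + 1) * f (2 * (l + 1)) ∧
    q ^ 2 * ∑ l ∈ range (3 * M), q ^ (l + 1) * bcFun q f M (2 * (l + 1)) =
      ∑ l ∈ range M, (q ^ 3) ^ (l + 1) * f (2 * (l + 1)) := by
  obtain ⟨h1, h2⟩ := sum_even (q := q) (fun n hn => bcFun_eq_zero (q := q) hf hn)
  obtain ⟨g1, g2⟩ := sum_even (q := q ^ 3) hf
  have h3 := sum_third (M := M) (fun k hk => satake_eq_zero (q := q ^ 3) hf hk) 2 (Or.inr rfl)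
  have e : ∀ l, 2 * (l + 1) = 2 * l + 2 := fun l => by ring
  simp only [e] at h1 h2 g1 g2 ⊢
  simp only [satake_bcFun hf, h3] at h1 h2
  refine ⟨?_, ?_⟩
  · rw [h1, g1]
    simp
  · rw [h2, g2]
    ring

/-- Matching at a non-unit of a split torus. -/
theorem bc_split (hf : ∀ n, M ≤ n → f n = 0) (n : ℕ) :
    satake q (bcFun q f M) (3 * M) (3 * n) = satake (q ^ 3) f M n := by
  rw [satake_bcFun hf, if_pos (by omega), Nat.mul_div_cancel_left n (by norm_num)]

theorem bc_split_zero (hf : ∀ n, M ≤ n → f n = 0) {n : ℕ} (hn : n % 3 ≠ 0) :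
    satake q (bcFun q f M) (3 * M) n = 0 := by
  rw [satake_bcFun hf, if_neg hn]

end FermatAgent.LT.Inert
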