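import Fermat.Agent.LT.Descent.Local.Inert.Classes
import Fermat.Agent.LT.Descent.Local.Inert.Satake

set_option autoImplicit false

/-!
# The per-level sums
-/

noncomputable section

open Finset

namespace FermatAgent.LT.Inert

variable {f : ℕ → ℂ} {M : ℕ}

/-- The size of a level at a positive index. -/
theorem clsSize_succ (q η : ℂ) (j : ℕ) : clsSize q η (j + 1) = q ^ j * (q - η) := by
  simp [clsSize]

/-- The level-`m` sum at a unit of exact level `k`. -/
def unitTerm (Q q η : ℂ) (f : ℕ → ℂ) (k m : ℕ) : ℂ :=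
  clsSize Q η m * f (2 * m) + ∑ j ∈ range m, if j + 1 ≤ k then
    clsSize q η (j + 1) * Q ^ (m - (j + 1)) * (f (2 * (m - (j + 1))) - f (2 * (m - j))) else 0

/-- Plain levels: the sum telescopes. -/
theorem unitTerm_self (q η : ℂ) (f : ℕ → ℂ) (k m : ℕ) :
    unitTerm q q η f k m = clsSize q η m * f (2 * (m - min k m)) := by
  have e : ∀ j ∈ range m, (if j + 1 ≤ k then
      clsSize q η (j + 1) * q ^ (m - (j + 1)) * (f (2 * (m - (j + 1))) - f (2 * (m - j))) else 0) =
      clsSize q η m * ((if j + 1 ≤ k then f (2 * (m - (j + 1))) - f (2 * (m - j)) else 0)) := by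
    intro j hj
    rw [mem_range] at hj
    obtain ⟨i, rfl⟩ : ∃ i, m = j + 1 + i := ⟨m - (j + 1), by omega⟩
    split_ifs
    · rw [Nat.add_sub_cancel_left, show j + 1 + i = (j + i) + 1 by omega, clsSize_succ,
        clsSize_succ, pow_add]
      ring
    · ring
  rw [unitTerm, sum_congr rfl e, ← mul_sum, ← mul_add]
  congr 1
  rw [← sum_filter, show (range m).filter (fun j => j + 1 ≤ k) = range (min k m) by
    ext j; simp; omega]
  have h := sum_range_sub (fun j => f (2 * (m - j))) (min k m)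
  simp only [Nat.sub_zero] at h
  rw [h]
  ring

theorem sum_clsSize (Q η : ℂ) {g : ℕ → ℂ} (hg : ∀ l, M ≤ l → g l = 0) {B : ℕ} (hB : M + 1 ≤ B) :
    ∑ m ∈ range B, clsSize Q η m * g m =
      g 0 + ∑ l ∈ range M, Q ^ l * (Q - η) * g (l + 1) := by
  obtain ⟨B, rfl⟩ : ∃ C, B = C + 1 := ⟨B - 1, by omega⟩
  rw [sum_range_succ', add_comm, show clsSize Q η 0 = 1 from rfl, one_mul]
  congr 1
  simp only [clsSize_succ]
  refine (sum_subset (range_mono (by omega)) fun l _ hl => ?_).symm
  rw [mem_range, not_lt] at hl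
  rw [hg _ (by omega), mul_zero]

theorem unit_sum {Q q η : ℂ} (hQ : Q ≠ 0) (hf : ∀ n, M ≤ n → f n = 0) (k : ℕ) {B : ℕ}
    (hB : M + k + 1 ≤ B) :
    ∑ m ∈ range B, unitTerm Q q η f k m =
      (1 + ∑ j ∈ range k, clsSize q η (j + 1)) *
          (f 0 + ∑ l ∈ range M, Q ^ (l + 1) * f (2 * (l + 1))) -
        (η + ∑ j ∈ range k, clsSize q η (j + 1)) *
          ((∑ l ∈ range M, Q ^ (l + 1) * f (2 * (l + 1))) / Q) := by
  set P := ∑ l ∈ range M, Q ^ (l + 1) * f (2 * (l + 1)) with hP
  have h1 : ∑ m ∈ range B, clsSize Q η m * f (2 * m) = f 0 + P - η * (P / Q) := by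
    rw [sum_clsSize (M := M) Q η (g := fun l => f (2 * l)) (fun l hl => hf _ (by omega)) (by omega), hP,
      sum_div, mul_sum, add_sub_assoc, ← sum_sub_distrib]
    congr 1
    refine sum_congr rfl fun l _ => ?_
    field_simp
    ring
  -- the sum over `m > j`
  have h2 : ∀ j < k, ∑ m ∈ range B, (if j < m then
      Q ^ (m - (j + 1)) * (f (2 * (m - (j + 1))) - f (2 * (m - j))) else 0) = f 0 + P - P / Q := by
    intro j hj
    obtain ⟨R, rfl⟩ : ∃ R, B = j + 1 + R := ⟨B - (j + 1), by omega⟩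
    rw [sum_range_add, sum_eq_zero (fun m hm => if_neg (by rw [mem_range] at hm; omega)), zero_add]
    have e : ∀ l ∈ range R, (if j < j + 1 + l then
        Q ^ (j + 1 + l - (j + 1)) * (f (2 * (j + 1 + l - (j + 1))) - f (2 * (j + 1 + l - j))) else 0)
          = Q ^ l * f (2 * l) - Q ^ l * f (2 * (l + 1)) := fun l _ => by
      rw [if_pos (by omega), show j + 1 + l - (j + 1) = l by omega,
        show j + 1 + l - j = l + 1 by omega, mul_sub]
    rw [sum_congr rfl e, sum_sub_distrib]
    have hR : M + 1 ≤ R := by omega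
    have a1 : ∑ l ∈ range R, Q ^ l * f (2 * l) = f 0 + P := by
      obtain ⟨R, rfl⟩ : ∃ C, R = C + 1 := ⟨R - 1, by omega⟩
      rw [sum_range_succ', hP, add_comm]
      simp only [mul_zero, pow_zero, one_mul]
      congr 1
      refine (sum_subset (range_mono (by omega)) fun l _ hl => ?_).symm
      rw [mem_range, not_lt] at hl
      rw [hf _ (by omega), mul_zero]
    have a2 : ∑ l ∈ range R, Q ^ l * f (2 * (l + 1)) = P / Q := by
      rw [hP, sum_div]
      refine (Eq.trans (sum_congr rfl fun l _ => ?_)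
        (sum_subset (range_mono (show M ≤ R by omega)) fun l _ hl => ?_)).symm
      · rw [pow_succ]; field_simp
      · rw [mem_range, not_lt] at hl
        rw [hf _ (by omega), mul_zero]
    rw [a1, a2]
  simp only [unitTerm, sum_add_distrib, h1]
  have h3 : ∑ m ∈ range B, ∑ j ∈ range m, (if j + 1 ≤ k then
      clsSize q η (j + 1) * Q ^ (m - (j + 1)) * (f (2 * (m - (j + 1))) - f (2 * (m - j))) else 0) =
      ∑ j ∈ range k, clsSize q η (j + 1) * (f 0 + P - P / Q) := by
    rw [← sum_congr rfl fun j hj => congrArg (clsSize q η (j + 1) * ·) (h2 j (mem_range.mp hj))]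
    simp only [mul_sum, ← sum_filter]
    rw [sum_comm' (t' := range k) (s' := fun j => (range B).filter fun m => j < m)]
    · exact sum_congr rfl fun m _ => sum_congr rfl fun j _ => by ring
    · intro j m; simp; omega
  rw [h3, ← sum_mul]
  ring

end FermatAgent.LT.Inert
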