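import Fermat.Agent.LT.Descent.Local.Inert.Orbital
import Fermat.Agent.LT.Descent.Local.Inert.Sums

set_option autoImplicit false

/-!
# Matching of spherical orbital sums at an inert place, for the torus of a maximal order
-/

noncomputable section

open IsLocalRing IsDiscreteValuationRing Finset

namespace FermatAgent.LT.Inert

variable {O F : Type*} [CommRing O] [IsDomain O] [IsDiscreteValuationRing O] [Field F] [Algebra O F]
  [IsFractionRing O F]
variable {τ : O ≃+* O} {s : F ≃+* F} (hs : ∀ x, s (algebraMap O F x) = algebraMap O F (τ x))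
variable {π t n : O} (hπ : Irreducible π) (hπτ : τ π = π) (ht : τ t = t) (hn : τ n = n)

open Classical in
/-- The level of a class. -/
def lev (π t n : O) (m : ℕ) (y : ClsM π t n m) : ℕ :=
  Nat.findGreatest (fun j => y ∈ levSub (qmk π m t) (qmk π m n) (Ideal.span {qmk π m (π ^ j)})) m

omit [IsDomain O] [IsDiscreteValuationRing O] in
theorem levSub_zero (m : ℕ) (y : ClsM π t n m) :
    y ∈ levSub (qmk π m t) (qmk π m n) (Ideal.span {qmk π m (π ^ 0)}) := by
  induction y using QuotientGroup.induction_on with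
  | H u => rw [mk_mem_levSub, pow_zero, map_one, Ideal.span_singleton_one]; trivial

omit [IsDomain O] [IsDiscreteValuationRing O] in
theorem le_lev_iff {m j : ℕ} (hj : j ≤ m) (y : ClsM π t n m) :
    j ≤ lev π t n m y ↔ y ∈ levSub (qmk π m t) (qmk π m n) (Ideal.span {qmk π m (π ^ j)}) := by
  classical
  refine ⟨fun h => ?_, fun h => Nat.le_findGreatest hj h⟩
  have h' : y ∈ levSub (qmk π m t) (qmk π m n) (Ideal.span {qmk π m (π ^ lev π t n m y)}) :=
    Nat.findGreatest_spec (P := fun i => y ∈ levSub (qmk π m t) (qmk π m n)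
      (Ideal.span {qmk π m (π ^ i)})) (Nat.zero_le _) (levSub_zero m y)
  induction y using QuotientGroup.induction_on with
  | H u =>
    rw [mk_mem_levSub] at h' ⊢
    exact Ideal.span_singleton_le_span_singleton.mpr (map_dvd _ (pow_dvd_pow π h)) h'

include hs hπ hπτ in
/-- The distance moved at a standard vertex. -/
theorem moveDist_vert {z : (LAlg F t n)ˣ} {c : F} (hc : c ≠ 0) {p : QA O t n} {u₀ : (QA O t n)ˣ}
    (hz : (z : LAlg F t n) = c • toL F (p * (u₀ : QA O t n)))
    {i : ℕ} (hi : addVal O p.norm = i)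
    (hp : (i = 0 ∧ p = 1) ∨ (¬IsUnit p.norm ∧ IsUnit p.im)) (m : ℕ) (u : (QA O t n)ˣ) :
    moveDist hs hπ (embU z) (vert hπ m u) =
      if i = 0 then 2 * (m - lev π t n m (redU π t n m (u₀ * (uMap ht hn u / u))))
      else i + 2 * m := by
  set Z := Units.map (toL F : QA O t n →+* LAlg F t n).toMonoidHom
  set v := u₀ * (uMap ht hn u / u)
  have e : (tU u * stepMat (F := F) hπ m)⁻¹ * embU z * gAut s (tU u * stepMat (F := F) hπ m) =
      (stepMat (F := F) hπ m)⁻¹ * embU ((Z u)⁻¹ * z * Z (uMap ht hn u)) *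
        stepMat (F := F) hπ m := by
    have e0 : gAut s (tU (F := F) u) = tU (uMap ht hn u) := by
      rw [tU, MonoidHom.comp_apply, MonoidHom.comp_apply, gAut_embU hs ht hn]
      congr 1
      exact Units.ext (lMap_toL hs ht hn _)
    rw [map_mul, gAut_stepMat hs hπ hπτ, e0]
    simp only [tU, MonoidHom.comp_apply, map_mul, map_inv, Z]
    group
  have hz' : ((((Z u)⁻¹ * z * Z (uMap ht hn u) : (LAlg F t n)ˣ)) : LAlg F t n) =
      c • toL F (p * (v : QA O t n)) := by
    rw [← map_inv, Units.val_mul, Units.val_mul, hz, mul_smul_comm, smul_mul_assoc]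
    congr 1
    show toL F ((u⁻¹ : (QA O t n)ˣ) : QA O t n) * toL F (p * (u₀ : QA O t n)) *
      toL F ((uMap ht hn u : (QA O t n)ˣ) : QA O t n) = _
    rw [← map_mul, ← map_mul]
    congr 1
    simp only [v, div_eq_mul_inv, Units.val_mul]
    ring
  have hv : addVal O (p * (v : QA O t n)).norm = i := by
    rw [map_mul, addVal_mul, hi,
      addVal_eq_zero_iff.mpr (QuadraticAlgebra.isUnit_iff_norm_isUnit.mp v.isUnit), add_zero]
  rw [vert, moveDist_mk, e]
  rcases hp with ⟨rfl, rfl⟩ | ⟨hN, him⟩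
  · rw [if_pos rfl, one_mul] at *
    have hle : lev π t n m (redU π t n m v) ≤ m := by classical exact Nat.findGreatest_le m
    have hprim : IsUnit (v : QA O t n).re ∨ IsUnit (v : QA O t n).im := by
      by_contra! hcon
      have h := QuadraticAlgebra.isUnit_iff_norm_isUnit.mp v.isUnit
      rw [qa_norm, ← residue_ne_zero_iff_isUnit] at h
      have h1 : residue O (v : QA O t n).re = 0 := not_not.mp fun h' =>
        hcon.1 ((residue_ne_zero_iff_isUnit _).mp h')
      have h2 : residue O (v : QA O t n).im = 0 := not_not.mp fun h' =>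
        hcon.2 ((residue_ne_zero_iff_isUnit _).mp h')
      exact h (by simp [h1, h2])
    rw [depth_conj hπ m (lev π t n m (redU π t n m v)) hle hc hz' hprim
      ((redU_mem_levSub hle).mp ((le_lev_iff hle _).mp le_rfl)) ?_ hv, Nat.zero_add]
    rcases hle.eq_or_lt with h | h
    · exact Or.inl h
    · refine Or.inr fun hdvd => ?_
      have := (le_lev_iff (show lev π t n m (redU π t n m v) + 1 ≤ m by omega) _).mpr
        ((redU_mem_levSub (by omega)).mpr hdvd)
      omega
  · have hi0 : i ≠ 0 := fun h => hN (addVal_eq_zero_iff.mp (by rw [hi, h]; simp))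
    have hpv := isUnit_im_mul hπ (Or.inr him) hN v.isUnit
    rw [if_neg hi0, depth_conj hπ m 0 (Nat.zero_le m) hc hz' (Or.inr hpv) (by simp) ?_ hv]
    · simp
    · rcases Nat.eq_zero_or_pos m with h | h
      · exact Or.inl h.symm
      · exact Or.inr fun hdvd => (not_isUnit_iff_dvd hπ).mpr (by simpa using hdvd) hpv

section Eval

omit [IsDomain O] [IsDiscreteValuationRing O] [IsFractionRing O F] in
/-- A finsum over the image of a family of finite types. -/
theorem finsum_mem_sigma {X : Type*} {A : ℕ → Type*} [∀ m, Finite (A m)] {Ω : Set X}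
    (V : ∀ m, A m → X) (Φ : X → ℂ) (B : ℕ)
    (hinj : Function.Injective fun p : Σ m, A m => V p.1 p.2) (hmem : ∀ m a, V m a ∈ Ω)
    (hsupp : ∀ x ∈ Ω, Φ x ≠ 0 → ∃ m < B, ∃ a, V m a = x) :
    (Ω ∩ Φ.support).Finite ∧ ∑ᶠ x ∈ Ω, Φ x = ∑ m ∈ range B, ∑ᶠ a : A m, Φ (V m a) := by
  classical
  have : ∀ m, Fintype (A m) := fun m => Fintype.ofFinite _
  let S : Finset (Σ m, A m) := (range B).sigma fun m => univ
  have hsub : Ω ∩ Φ.support ⊆ S.image fun p : Σ m, A m => V p.1 p.2 := by
    rintro x ⟨hx, hx'⟩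
    obtain ⟨m, hm, a, rfl⟩ := hsupp x hx hx'
    exact mem_image.mpr ⟨⟨m, a⟩, mem_sigma.mpr ⟨mem_range.mpr hm, mem_univ _⟩, rfl⟩
  refine ⟨(finite_toSet _).subset hsub, ?_⟩
  rw [finsum_mem_eq_sum_of_subset Φ hsub (by
    intro x hx; obtain ⟨p, -, rfl⟩ := mem_image.mp hx; exact hmem _ _),
    sum_image hinj.injOn, sum_sigma]
  exact sum_congr rfl fun m _ => (finsum_eq_sum_of_fintype _).symm

variable (hmax : IsMaximalOrder π t n) (hτ : IsCubic τ) [Finite (ResidueField O)]
include hs hπ hπτ ht hn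

-- the unused hypotheses keep the uniform signature of the section
set_option linter.unusedSectionVars false in
open Classical in
/-- The sums over the standard sets as sums over class groups. -/
theorem finsum_std (g : ℕ → ℂ) (B : ℕ) (d : Vtx O F → ℕ)
    (hd : ∀ (m : ℕ) (u : (QA O t n)ˣ), B ≤ m → g (d (vert hπ m u)) = 0) :
    ((stdF (F := F) hπ t n ∩ Function.support (g ∘ d)).Finite ∧
      ∃ ι : ∀ m, ClsM π t n m → (QA O t n)ˣ, (∀ m x, redU π t n m (ι m x) = x) ∧
      ∑ᶠ x ∈ stdF (F := F) hπ t n, g (d x) =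
        ∑ m ∈ range B, ∑ᶠ x : ClsM π t n m, g (d (vert hπ m (ι m x)))) := by
  choose ι hι using fun m x => redU_surjective (π := π) (t := t) (n := n) (m := m) hπ x
  have hfin : ∀ m, Finite (ClsM π t n m) := fun m => finite_clsM hπ
  obtain ⟨h1, h2⟩ := finsum_mem_sigma (Ω := stdF (F := F) hπ t n)
    (fun m x => vert hπ m (ι m x)) (fun x => g (d x)) B (by
      rintro ⟨m, x⟩ ⟨m', x'⟩ e
      obtain rfl : m = m' := level_unique hπ (QuotientGroup.eq.mp e) (mul_inv_cancel_left _ _)
      have := (vert_eq_iff hπ m _ _).mp e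
      rw [hι, hι] at this
      change x = x' at this
      rw [this]) (fun m x => ⟨_, _, rfl⟩) (by
      rintro x ⟨m, u, rfl⟩ hx
      exact ⟨m, lt_of_not_ge fun h => hx (hd m u h), _, (vert_eq_iff hπ m _ _).mpr (hι m _)⟩)
  exact ⟨h1, ι, hι, h2⟩

-- the unused hypotheses keep the uniform signature of the section
set_option linter.unusedSectionVars false in
include hτ in
open Classical in
theorem finsum_stdK (g : ℕ → ℂ) (B : ℕ) (d : Vtx O F → ℕ)
    (hd : ∀ (m : ℕ) (u : (QA O t n)ˣ), B ≤ m → g (d (vert hπ m u)) = 0) :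
    ((stdK (F := F) hπ ht hn ∩ Function.support (g ∘ d)).Finite ∧
      ∃ ι : ∀ m, {x : ClsM π t n m | sgM hπτ ht hn m x = x} → (QA O t n)ˣ,
      (∀ m x, uMap ht hn (ι m x) = ι m x) ∧
      ∑ᶠ x ∈ stdK (F := F) hπ ht hn, g (d x) =
        ∑ m ∈ range B, ∑ᶠ x : {x : ClsM π t n m | sgM hπτ ht hn m x = x},
          g (d (vert hπ m (ι m x)))) := by
  choose ι hι hι' using fun m (x : {x : ClsM π t n m | sgM hπτ ht hn m x = x}) =>
    exists_fixed_redU hπτ ht hn hπ hτ x.2
  have hfin : ∀ m, Finite (ClsM π t n m) := fun m => finite_clsM hπ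
  obtain ⟨h1, h2⟩ := finsum_mem_sigma (Ω := stdK (F := F) hπ ht hn)
    (fun m x => vert hπ m (ι m x)) (fun x => g (d x)) B (by
      rintro ⟨m, x⟩ ⟨m', x'⟩ e
      obtain rfl : m = m' := level_unique hπ (QuotientGroup.eq.mp e) (mul_inv_cancel_left _ _)
      have := (vert_eq_iff hπ m _ _).mp e
      rw [hι', hι'] at this
      change x.1 = x'.1 at this
      rw [Subtype.ext this]) (fun m x => ⟨_, _, hι _ _, rfl⟩) (by
      rintro x ⟨m, u, hu, rfl⟩ hx
      refine ⟨m, lt_of_not_ge fun h => hx (hd m u h),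
        ⟨redU π t n m u, show sgM hπτ ht hn m _ = _ by rw [sgM_redU, hu]⟩, ?_⟩
      exact (vert_eq_iff hπ m _ _).mpr (hι' _ _))
  exact ⟨h1, ι, hι, h2⟩

-- the unused hypotheses keep the uniform signature of the section
set_option linter.unusedSectionVars false in
omit [IsFractionRing O F] in
include hτ in
/-- The sum over one level at a unit. -/
theorem sum_level_unit {m k : ℕ} (u₀ : (QA O t n)ˣ) (f : ℕ → ℂ)
    (hk : π ^ k ∣ ((nmHom (uMap ht hn) u₀ : (QA O t n)ˣ) : QA O t n).im)
    (hk' : ¬π ^ (k + 1) ∣ ((nmHom (uMap ht hn) u₀ : (QA O t n)ˣ) : QA O t n).im) :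
    ∑ᶠ y : ClsM π t n m,
        f (2 * (m - lev π t n m (redU π t n m u₀ * dHom (sgM hπτ ht hn m) y))) =
      unitTerm (Nat.card (ResidueField O) : ℂ) (Nat.card (resFixed τ) : ℂ)
        ((numRoots t n : ℂ) - 1) f k m := by
  classical
  have := finite_clsM (t := t) (n := n) (m := m) hπ
  have : Fintype (ClsM π t n m) := Fintype.ofFinite _
  rw [finsum_eq_sum_of_fintype]
  set δ := redU π t n m u₀
  set F' : ℕ → ℂ := fun j => f (2 * (m - j))
  have key : ∀ y : ClsM π t n m, F' (lev π t n m y) = F' 0 + ∑ j ∈ range m,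
      if y ∈ levSub (qmk π m t) (qmk π m n) (Ideal.span {qmk π m (π ^ (j + 1))}) then
        F' (j + 1) - F' j else 0 := by
    intro y
    have hle : lev π t n m y ≤ m := Nat.findGreatest_le m
    rw [← sum_filter, show (range m).filter (fun j => y ∈ levSub (qmk π m t) (qmk π m n)
      (Ideal.span {qmk π m (π ^ (j + 1))})) = range (lev π t n m y) by
      ext j
      rw [mem_filter, mem_range, mem_range]
      constructor
      · rintro ⟨hj, h⟩
        exact (le_lev_iff (show j + 1 ≤ m by omega) y).mpr h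
      · intro h
        exact ⟨by omega, (le_lev_iff (show j + 1 ≤ m by omega) y).mp h⟩, sum_range_sub]
    ring
  show ∑ y, F' (lev π t n m (δ * dHom (sgM hπτ ht hn m) y)) = _
  simp only [key]
  rw [sum_add_distrib, sum_const, card_univ, ← Nat.card_eq_fintype_card, nsmul_eq_mul,
    (card_clsM hπτ ht hn hπ hτ).1, sum_comm, unitTerm]
  congr 1
  refine sum_congr rfl fun j hj => ?_
  rw [mem_range] at hj
  rw [← sum_filter, sum_const, nsmul_eq_mul]
  have hc : ((univ.filter fun y : ClsM π t n m => δ * dHom (sgM hπτ ht hn m) y ∈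
      levSub (qmk π m t) (qmk π m n) (Ideal.span {qmk π m (π ^ (j + 1))})).card : ℂ) =
      Nat.card {v | δ * dHom (sgM hπτ ht hn m) v ∈
        levSub (qmk π m t) (qmk π m n) (Ideal.span {qmk π m (π ^ (j + 1))})} := by
    rw [Nat.card_eq_fintype_card, Fintype.card_subtype]
    rfl
  rw [hc, card_twisted_clsM hπτ ht hn hπ hτ (by omega) (show j + 1 ≤ m by omega)]
  have hiff : nmHom (sgM hπτ ht hn m) δ ∈
      levSub (qmk π m t) (qmk π m n) (Ideal.span {qmk π m (π ^ (j + 1))}) ↔ j + 1 ≤ k := by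
    have e : nmHom (sgM hπτ ht hn m) δ = redU π t n m (nmHom (uMap ht hn) u₀) := by
      show δ * sgM hπτ ht hn m δ * sgM hπτ ht hn m (sgM hπτ ht hn m δ) =
        redU π t n m (u₀ * uMap ht hn u₀ * uMap ht hn (uMap ht hn u₀))
      simp only [δ, sgM_redU, map_mul]
    rw [e, redU_mem_levSub (show j + 1 ≤ m by omega)]
    exact ⟨fun h => not_lt.mp fun hlt => hk' ((pow_dvd_pow π (by omega)).trans h),
      fun h => (pow_dvd_pow π h).trans hk⟩
  simp only [hiff, F']
  split_ifs <;> ring

-- the unused hypotheses keep the uniform signature of the section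
set_option linter.unusedSectionVars false in
omit [IsDomain O] [IsDiscreteValuationRing O] hs hπ hπτ [Finite (ResidueField O)] in
theorem dvd_im_mul {x : O} {v w : QA O t n} (hv : x ∣ v.im) (hw : x ∣ w.im) : x ∣ (v * w).im := by
  rw [QuadraticAlgebra.im_mul]
  exact dvd_add (dvd_add (hw.mul_left _) (hv.mul_right _)) (hw.mul_left _)

include hτ hmax in
open Classical in
/-- **Matching on the standard sets.** -/
theorem inert_matching_std {f : ℕ → ℂ} {M : ℕ} (hf : ∀ k, M ≤ k → f k = 0) (z : (LAlg F t n)ˣ)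
    (hreg : ((nmHom (Units.map (lMap hs ht hn).toMonoidHom) z : (LAlg F t n)ˣ) :
      LAlg F t n).im ≠ 0) :
    let γ := nmHom (Units.map (lMap hs ht hn).toMonoidHom) z
    let q : ℂ := Nat.card (resFixed τ)
    (stdF (F := F) hπ t n ∩ Function.support (f ∘ moveDist hs hπ (embU z))).Finite ∧
    (stdK (F := F) hπ ht hn ∩
      Function.support (bcFun q f M ∘ moveDist hs hπ (embU γ))).Finite ∧
    (Nat.card (ResidueField O) = Nat.card (resFixed τ) ^ 3 →
      ∑ᶠ x ∈ stdF (F := F) hπ t n, f (moveDist hs hπ (embU z) x) =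
        ∑ᶠ x ∈ stdK (F := F) hπ ht hn, bcFun q f M (moveDist hs hπ (embU γ) x)) := by
  intro γ q
  set Q : ℂ := (Nat.card (ResidueField O) : ℂ)
  set η : ℂ := (numRoots t n : ℂ) - 1
  set h := bcFun q f M
  have hh : ∀ k, 3 * M ≤ k → h k = 0 := fun k hk => bcFun_eq_zero hf hk
  obtain ⟨c, i, p, u₀, hc, hz, hp⟩ := exists_split hπ hτ hπτ ht hn hmax z
  set N₀ := nmHom (uMap (τ := τ) ht hn) u₀
  have hγ : ∀ p : QA O t n, qaMap τ ht hn p = p → (z : LAlg F t n) = c • toL F (p * (u₀ : QA O t n)) →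
      (γ : LAlg F t n) = (c * s c * s (s c)) • toL F (p * p * p * (N₀ : QA O t n)) := by
    intro p hpfix hz
    show (z : LAlg F t n) * lMap hs ht hn z * lMap hs ht hn (lMap hs ht hn z) = _
    rw [hz, lMap_smul, lMap_smul, lMap_toL, lMap_toL, map_mul (qaMap τ ht hn),
      map_mul (qaMap τ ht hn), hpfix, hpfix, smul_mul_smul_comm, smul_mul_smul_comm, ← map_mul,
      ← map_mul]
    congr 2
    show p * (u₀ : QA O t n) * (p * qaMap τ ht hn u₀) * (p * qaMap τ ht hn (qaMap τ ht hn u₀)) =
      p * p * p * ((u₀ : QA O t n) * qaMap τ ht hn u₀ * qaMap τ ht hn (qaMap τ ht hn u₀))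
    ring
  have hc' : c * s c * s (s c) ≠ 0 :=
    mul_ne_zero (mul_ne_zero hc ((map_ne_zero s).mpr hc))
      ((map_ne_zero s).mpr ((map_ne_zero s).mpr hc))
  rcases hp with ⟨rfl, rfl⟩ | ⟨hi0, a₀, ha₀, rfl, hva⟩
  · -- a unit
    have hz₁ := hγ 1 (map_one _) hz
    have hd : ∀ m u, moveDist hs hπ (embU z) (vert hπ m u) =
        2 * (m - lev π t n m (redU π t n m u₀ * dHom (sgM hπτ ht hn m) (redU π t n m u))) := by
      intro m u
      rw [moveDist_vert hs hπ hπτ ht hn hc hz (i := 0) (by simp) (Or.inl ⟨rfl, rfl⟩), if_pos rfl,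
        map_mul, map_div, ← sgM_redU hπτ]
      rfl
    have hd' : ∀ m u, uMap ht hn u = u → moveDist hs hπ (embU γ) (vert hπ m u) =
        2 * (m - lev π t n m (redU π t n m N₀)) := by
      intro m u hu
      rw [moveDist_vert hs hπ hπτ ht hn hc' (p := 1) (u₀ := N₀)
        (by rw [hz₁]; simp) (i := 0) (by simp) (Or.inl ⟨rfl, rfl⟩), if_pos rfl, hu, div_self',
        mul_one]
    have him : (N₀ : QA O t n).im ≠ 0 := by
      intro h0
      apply hreg
      rw [hz₁]
      simp [toL, h0]
    obtain ⟨k, ε, hk⟩ := IsDiscreteValuationRing.eq_unit_mul_pow_irreducible him hπ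
    have hkd : π ^ k ∣ (N₀ : QA O t n).im := ⟨ε, by rw [hk]; ring⟩
    have hkd' : ¬π ^ (k + 1) ∣ (N₀ : QA O t n).im := by
      rw [hk, IsUnit.dvd_mul_left ε.isUnit, pow_dvd_pow_iff hπ.ne_zero hπ.not_isUnit]
      omega
    have hlev : ∀ m y, lev π t n m (redU π t n m u₀ * dHom (sgM hπτ ht hn m) y) ≤ k := by
      intro m y
      by_contra hcon
      have hle : lev π t n m (redU π t n m u₀ * dHom (sgM hπτ ht hn m) y) ≤ m :=
        Nat.findGreatest_le m
      have hm : k + 1 ≤ m := by omega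
      obtain ⟨v, rfl⟩ := redU_surjective (π := π) (t := t) (n := n) (m := m) hπ y
      have h1 := (le_lev_iff hm (redU π t n m u₀ * dHom (sgM hπτ ht hn m) (redU π t n m v))).mp
        (by omega)
      have e : redU π t n m u₀ * dHom (sgM hπτ ht hn m) (redU π t n m v) =
          redU π t n m (u₀ * dHom (uMap ht hn) v) := by
        show _ * (sgM hπτ ht hn m (redU π t n m v) / redU π t n m v) =
          redU π t n m (u₀ * (uMap ht hn v / v))
        simp only [sgM_redU, map_mul, map_div]
      rw [e, redU_mem_levSub hm] at h1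
      have hN : nmHom (uMap ht hn) (u₀ * dHom (uMap ht hn) v) = N₀ := by
        rw [map_mul, nmHom_dHom (fun x => Units.ext (QuadraticAlgebra.ext (hτ.cube _) (hτ.cube _))),
          mul_one]
      have h2 : ∀ w : QA O t n, π ^ (k + 1) ∣ w.im → π ^ (k + 1) ∣ (qaMap τ ht hn w).im := by
        intro w hw
        show π ^ (k + 1) ∣ τ w.im
        simpa [hπτ] using map_dvd τ hw
      apply hkd'
      rw [← hN]
      exact dvd_im_mul ht hn (dvd_im_mul ht hn h1 (h2 _ h1)) (h2 _ (h2 _ h1))
    have hB1 : ∀ (m : ℕ) (u : (QA O t n)ˣ), 3 * M + k + 1 ≤ m →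
        f (moveDist hs hπ (embU z) (vert hπ m u)) = 0 := fun m u hm => by
      rw [hd]; exact hf _ (by have := hlev m (redU π t n m u); omega)
    have hlevN : ∀ m, lev π t n m (redU π t n m N₀) = min k m := by
      intro m
      have hle : lev π t n m (redU π t n m N₀) ≤ m := Nat.findGreatest_le m
      refine le_antisymm (le_min ?_ hle) ?_
      · by_contra hcon
        exact hkd' ((redU_mem_levSub (show k + 1 ≤ m by omega)).mp
          ((le_lev_iff (show k + 1 ≤ m by omega) _).mp (by omega)))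
      · exact (le_lev_iff (min_le_right k m) _).mpr ((redU_mem_levSub (min_le_right k m)).mpr
          ((pow_dvd_pow π (min_le_left k m)).trans hkd))
    obtain ⟨hfinF, ι, hι, hF⟩ := finsum_std hs hπ hπτ ht hn f (3 * M + k + 1)
      (moveDist hs hπ (embU z)) hB1
    -- on the fixed vertices
    set B := 3 * M + k + 1
    have hsuppK : ∀ x ∈ stdK (F := F) hπ ht hn, h (moveDist hs hπ (embU γ) x) ≠ 0 →
        ∃ m < B, ∃ u, uMap ht hn u = u ∧ vert hπ m u = x := by
      rintro _ ⟨m, u, hu, rfl⟩ hne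
      refine ⟨m, lt_of_not_ge fun hm => hne ?_, u, hu, rfl⟩
      rw [hd' m u hu, hlevN]
      exact hh _ (by omega)
    obtain ⟨hfinK, ι', hι', hK⟩ := finsum_stdK hs hπ hπτ ht hn hτ h B
      (fun x => if x ∈ stdK (F := F) hπ ht hn then moveDist hs hπ (embU γ) x else 3 * M)
      (fun m u hm => by
        by_cases hx : vert (F := F) hπ m u ∈ stdK (F := F) hπ ht hn
        · by_contra hne
          rw [if_pos hx] at hne
          obtain ⟨m', hm', u', -, e⟩ := hsuppK _ hx hne
          exact absurd (level_unique hπ (QuotientGroup.eq.mp e) (mul_inv_cancel_left _ _)) (by omega)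
        · rw [if_neg hx]; exact hh _ le_rfl)
    refine ⟨hfinF, hfinK.subset ?_, fun hcard => ?_⟩
    · rintro x ⟨hx, hx'⟩
      exact ⟨hx, by rw [Function.mem_support, Function.comp_apply, if_pos hx]; exact hx'⟩
    rw [hF, ← finsum_mem_congr rfl fun x hx => congrArg h (if_pos hx), hK]
    have hT : ∀ m, ∑ᶠ x : ClsM π t n m, f (moveDist hs hπ (embU z) (vert hπ m (ι m x))) =
        unitTerm Q q η f k m := by
      intro m
      simp only [hd, hι]
      exact sum_level_unit hs hπ hπτ ht hn hτ u₀ f hkd hkd'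
    have hP : ∀ m, ∑ᶠ x : {x : ClsM π t n m | sgM hπτ ht hn m x = x},
        h (if vert (F := F) hπ m (ι' m x) ∈ stdK (F := F) hπ ht hn then
          moveDist hs hπ (embU γ) (vert hπ m (ι' m x)) else 3 * M) = unitTerm q q η h k m := by
      intro m
      have := finite_clsM (t := t) (n := n) (m := m) hπ
      have : Fintype {x : ClsM π t n m | sgM hπτ ht hn m x = x} := Fintype.ofFinite _
      rw [finsum_eq_sum_of_fintype, unitTerm_self,
        sum_congr rfl fun x _ => by rw [if_pos ⟨m, _, hι' m x, rfl⟩, hd' m _ (hι' m x), hlevN],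
        sum_const, card_univ, ← Nat.card_eq_fintype_card, nsmul_eq_mul,
        (card_clsM (m := m) hπτ ht hn hπ hτ).2]
    rw [sum_congr rfl fun m _ => hT m, sum_congr rfl fun m _ => hP m]
    have hQq : Q = q ^ 3 := by simp only [Q, q, hcard, Nat.cast_pow]
    have hq0 : q ≠ 0 := by
      have : Nonempty (resFixed τ) := ⟨⟨0, map_zero _⟩⟩
      exact Nat.cast_ne_zero.mpr Nat.card_pos.ne'
    rw [unit_sum (by rw [hQq]; exact pow_ne_zero _ hq0) hf k (by omega),
      unit_sum hq0 hh k (by omega)]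
    obtain ⟨e1, e2⟩ := bc_sum_even (q := q) hf
    simp only [h] at *
    rw [hQq, e1, ← e2]
    field_simp
  · -- not a unit
    obtain ⟨c₀, q₁, e, hc₀, hcube, hq₁, he, hcases⟩ := exists_lin_cube hπ hi0 hmax hva
    have hpfix : qaMap τ ht hn (lin a₀) = lin a₀ := by ext <;> simp [qaMap, lin, ha₀]
    have hz₁ := hγ _ hpfix hz
    rw [hcube] at hz₁
    have hz₂ : (γ : LAlg F t n) =
        (c * s c * s (s c) * algebraMap O F c₀) • toL F (q₁ * (N₀ : QA O t n)) := by
      have e : ∀ w : QA O t n, toL F (algebraMap O (QA O t n) c₀ * w) =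
          algebraMap O F c₀ • toL F w := fun w => by
        ext <;> simp [toL, QuadraticAlgebra.algebraMap_eq, Algebra.smul_def]
      rw [hz₁, mul_assoc (algebraMap O (QA O t n) c₀), e, smul_smul]
    have he0 : e ≠ 0 := by rcases hcases with ⟨-, -, rfl⟩ | ⟨-, rfl⟩ <;> omega
    have hNu : ∀ {w : QA O t n} {j : ℕ}, j ≠ 0 → addVal O w.norm = j → ¬IsUnit w.norm := by
      intro w j hj hw hu
      rw [addVal_eq_zero_iff.mpr hu] at hw
      exact hj (by exact_mod_cast hw.symm)
    have hd : ∀ m u, moveDist hs hπ (embU z) (vert hπ m u) = i + 2 * m := fun m u => by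
      rw [moveDist_vert hs hπ hπτ ht hn hc hz (i := i) (by rw [norm_lin, hva])
        (Or.inr ⟨hNu hi0 (by rw [norm_lin, hva]), isUnit_one⟩), if_neg hi0]
    have hd' : ∀ m u, moveDist hs hπ (embU γ) (vert hπ m u) = e + 2 * m := fun m u => by
      have hc'' : c * s c * s (s c) * algebraMap O F c₀ ≠ 0 := mul_ne_zero hc' fun h0 =>
        hc₀ ((IsFractionRing.injective O F) (h0.trans (map_zero _).symm))
      rw [moveDist_vert hs hπ hπτ ht hn hc'' hz₂ (i := e) he (Or.inr ⟨hNu he0 he, hq₁⟩),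
        if_neg he0]
    obtain ⟨hfinF, ι, hι, hF⟩ := finsum_std hs hπ hπτ ht hn f (3 * M + 1)
      (moveDist hs hπ (embU z)) (fun m u hm => by rw [hd]; exact hf _ (by omega))
    obtain ⟨hfinK, ι', hι', hK⟩ := finsum_stdK hs hπ hπτ ht hn hτ h (3 * M + 1)
      (moveDist hs hπ (embU γ)) (fun m u hm => by rw [hd']; exact hh _ (by omega))
    refine ⟨hfinF, hfinK, fun hcard => ?_⟩
    have hT : ∀ m, ∑ᶠ x : ClsM π t n m, f (moveDist hs hπ (embU z) (vert hπ m (ι m x))) =
        clsSize Q η m * f (i + 2 * m) := by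
      intro m
      have := finite_clsM (t := t) (n := n) (m := m) hπ
      have : Fintype (ClsM π t n m) := Fintype.ofFinite _
      rw [finsum_eq_sum_of_fintype, sum_congr rfl fun x _ => by rw [hd], sum_const, card_univ,
        ← Nat.card_eq_fintype_card, nsmul_eq_mul, (card_clsM (m := m) hπτ ht hn hπ hτ).1]
    have hP : ∀ m, ∑ᶠ x : {x : ClsM π t n m | sgM hπτ ht hn m x = x},
        h (moveDist hs hπ (embU γ) (vert hπ m (ι' m x))) = clsSize q η m * h (e + 2 * m) := by
      intro m
      have := finite_clsM (t := t) (n := n) (m := m) hπ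
      have : Fintype {x : ClsM π t n m | sgM hπτ ht hn m x = x} := Fintype.ofFinite _
      rw [finsum_eq_sum_of_fintype, sum_congr rfl fun x _ => by rw [hd'], sum_const, card_univ,
        ← Nat.card_eq_fintype_card, nsmul_eq_mul, (card_clsM (m := m) hπτ ht hn hπ hτ).2]
    rw [hF, hK, sum_congr rfl fun m _ => hT m, sum_congr rfl fun m _ => hP m,
      sum_clsSize (M := M) Q η (g := fun m => f (i + 2 * m)) (fun l hl => hf _ (by omega))
        (by omega),
      sum_clsSize (M := 3 * M) q η (g := fun m => h (e + 2 * m)) (fun l hl => hh _ (by omega))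
        (by omega)]
    have hQq : Q = q ^ 3 := by simp only [Q, q, hcard, Nat.cast_pow]
    rw [hQq]
    rcases hcases with ⟨hr, rfl, rfl⟩ | ⟨hr, rfl⟩
    · have hη : η = 0 := by simp [η, hr]
      rw [hη]
      have e1 := bc_sum_odd (q := q) hf
      have key : ∀ (g : ℕ → ℂ) (N : ℕ) (r : ℂ), g (2 * N + 1) = 0 →
          g (1 + 2 * 0) + ∑ l ∈ range N, r ^ l * (r - 0) * g (1 + 2 * (l + 1)) =
            ∑ l ∈ range N, r ^ l * g (2 * l + 1) := by
        intro g N r hg
        have h1 := sum_range_succ (fun l => r ^ l * g (2 * l + 1)) N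
        rw [sum_range_succ', hg] at h1
        simp only [mul_zero, add_zero, zero_add, pow_zero, one_mul] at h1 ⊢
        rw [← h1, add_comm]
        congr 1
        exact sum_congr rfl fun l _ => by rw [add_comm 1 (2 * _), sub_zero, pow_succ]
      rw [key f M (q ^ 3) (hf _ (by omega)), key h (3 * M) q (hh _ (by omega))]
      exact e1.symm
    · have hη : η = 1 := by simp [η, hr]; norm_num
      rw [hη]
      have e1 := bc_split (q := q) hf i
      simp only [satake] at e1
      simp only [mul_zero, add_zero]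
      exact e1.symm

end Eval

end FermatAgent.LT.Inert
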