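import Fermat.Agent.LT.Descent.Local.Inert.Classes
import Fermat.Agent.LT.Descent.Local.Inert.Fund
import Fermat.Agent.LT.Descent.Local.Inert.Satake

set_option autoImplicit false

/-!
# Orbital sums on the tree for a torus of a maximal order
-/

noncomputable section

open IsLocalRing IsDiscreteValuationRing Finset

namespace FermatAgent.LT.Inert

variable (O F : Type*) [CommRing O] [IsDomain O] [IsDiscreteValuationRing O] [Field F] [Algebra O F]
  [IsFractionRing O F]

/-- The vertices of the tree. -/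
abbrev Vtx : Type _ := GL (Fin 2) F ⧸ sphSub O F

variable {O F}

/-- The action of a field automorphism on `GL₂`. -/
def gAut (s : F ≃+* F) : GL (Fin 2) F →* GL (Fin 2) F :=
  Units.map (s.toRingHom.mapMatrix (m := Fin 2)).toMonoidHom

variable {τ : O ≃+* O} {s : F ≃+* F} (hs : ∀ x, s (algebraMap O F x) = algebraMap O F (τ x))
include hs

omit [IsDomain O] [IsDiscreteValuationRing O] [IsFractionRing O F] in
theorem gAut_mem_sphSub {g : GL (Fin 2) F} (hg : g ∈ sphSub O F) : gAut s g ∈ sphSub O F := by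
  obtain ⟨c, hc, k, hk⟩ := hg
  refine ⟨s c, (map_ne_zero s).mpr hc,
    Units.map (τ.toRingHom.mapMatrix (m := Fin 2)).toMonoidHom k, ?_⟩
  ext i j
  have h := congrFun (congrFun hk i) j
  simp [gAut, h, hs]

/-- The action on vertices. -/
def vAut : Vtx O F → Vtx O F :=
  Quotient.map' (gAut s) fun a b hab => by
    rw [QuotientGroup.leftRel_apply] at hab ⊢
    rw [← map_inv, ← map_mul]
    exact gAut_mem_sphSub hs hab

omit [IsDomain O] [IsDiscreteValuationRing O] [IsFractionRing O F] in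
theorem vAut_mk (g : GL (Fin 2) F) : vAut hs (g : Vtx O F) = (gAut s g : Vtx O F) := rfl

variable {π : O} (hπ : Irreducible π)
include hπ

/-- The distance between `x` and `δ σ x`. -/
def moveDist (δ : GL (Fin 2) F) : Vtx O F → ℕ :=
  Quotient.lift (fun g => depth O (g⁻¹ * δ * gAut s g)) fun a b hab => by
    rw [← Quotient.eq_iff_equiv, Quotient.eq, QuotientGroup.leftRel_apply] at hab
    have h := depth_mul_mul hπ (g := a⁻¹ * δ * gAut s a) (inv_mem hab) (gAut_mem_sphSub hs hab)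
    show depth O (a⁻¹ * δ * gAut s a) = depth O (b⁻¹ * δ * gAut s b)
    rw [← h, map_mul, map_inv]
    congr 1
    group

theorem moveDist_mk (δ g : GL (Fin 2) F) :
    moveDist hs hπ δ (g : Vtx O F) = depth O (g⁻¹ * δ * gAut s g) := rfl

omit [IsDomain O] [IsDiscreteValuationRing O] in
theorem gAut_stepMat (hπτ : τ π = π) (m : ℕ) :
    gAut s (stepMat (F := F) hπ m) = stepMat (F := F) hπ m := by
  ext i j
  simp only [gAut, Units.coe_map, RingHom.toMonoidHom_eq_coe, MonoidHom.coe_coe,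
    RingHom.mapMatrix_apply, Matrix.map_apply, RingEquiv.toRingHom_eq_coe, RingEquiv.coe_toRingHom]
  show s (((stepMat (F := F) hπ m : GL (Fin 2) F) : Matrix (Fin 2) (Fin 2) F) i j) = _
  rw [stepMat_val]
  fin_cases i <;> fin_cases j <;> simp [hs, hπτ]

omit hπ

variable {t n : O}

/-- The action on `F[ω]`. -/
def lMap (ht : τ t = t) (hn : τ n = n) : LAlg F t n →+* LAlg F t n where
  toFun z := ⟨s z.re, s z.im⟩
  map_one' := by ext <;> simp [QuadraticAlgebra.re_one, QuadraticAlgebra.im_one]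
  map_zero' := by ext <;> simp
  map_add' z w := by ext <;> simp
  map_mul' z w := by ext <;> simp [hs, ht, hn]

variable (ht : τ t = t) (hn : τ n = n)

omit [IsDomain O] [IsDiscreteValuationRing O] [IsFractionRing O F] in
theorem lMap_toL (w : QA O t n) : lMap hs ht hn (toL F w) = toL F (qaMap τ ht hn w) := by
  ext <;> simp [lMap, toL, qaMap, hs]

omit [IsDomain O] [IsDiscreteValuationRing O] [IsFractionRing O F] in
theorem lMap_smul (c : F) (z : LAlg F t n) : lMap hs ht hn (c • z) = s c • lMap hs ht hn z := by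
  ext <;> simp [lMap]

omit [IsDomain O] [IsDiscreteValuationRing O] [IsFractionRing O F] in
theorem gAut_embU (z : (LAlg F t n)ˣ) :
    gAut s (embU z) = embU (Units.map (lMap hs ht hn).toMonoidHom z) := by
  ext i j
  fin_cases i <;> fin_cases j <;> simp [gAut, embU, emb, lMap, hs, ht, hn]

/-- The fixed torus. -/
def torusK : Subgroup (GL (Fin 2) F) where
  carrier := {g | ∃ z : (LAlg F t n)ˣ,
    Units.map (lMap hs ht hn).toMonoidHom z = z ∧ embU z = g}
  one_mem' := ⟨1, map_one _, map_one _⟩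
  mul_mem' := fun {a b} ⟨z, hz, hza⟩ ⟨w, hw, hwb⟩ =>
    ⟨z * w, by rw [map_mul, hz, hw], by rw [map_mul, hza, hwb]⟩
  inv_mem' := fun {a} ⟨z, hz, hza⟩ => ⟨z⁻¹, by rw [map_inv, hz], by rw [map_inv, hza]⟩

/-- Its maximal compact subgroup, modulo scalars. -/
def unitsK : Subgroup (GL (Fin 2) F) where
  carrier := {g | ∃ z : (LAlg F t n)ˣ, (Units.map (lMap hs ht hn).toMonoidHom z = z ∧
    ∃ (c : F) (w : (QA O t n)ˣ), (z : LAlg F t n) = c • toL F (w : QA O t n)) ∧ embU z = g}
  one_mem' := ⟨1, ⟨map_one _, 1, 1, by simp⟩, map_one _⟩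
  mul_mem' := fun {a b} ⟨z, ⟨hz, c, w, hzw⟩, hza⟩ ⟨z', ⟨hz', c', w', hzw'⟩, hzb⟩ =>
    ⟨z * z', ⟨by rw [map_mul, hz, hz'], c * c', w * w', by
      rw [Units.val_mul, hzw, hzw', smul_mul_smul_comm, Units.val_mul, map_mul]⟩,
      by rw [map_mul, hza, hzb]⟩
  inv_mem' := fun {a} ⟨z, ⟨hz, c, w, hzw⟩, hza⟩ => ⟨z⁻¹, ⟨by rw [map_inv, hz], c⁻¹, w⁻¹, by
    have hc : c ≠ 0 := fun h => z.ne_zero (by rw [hzw, h, zero_smul])
    refine Units.inv_eq_of_mul_eq_one_right ?_
    rw [hzw, smul_mul_smul_comm, mul_inv_cancel₀ hc, ← map_mul, Units.mul_inv, map_one, one_smul]⟩,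
    by rw [map_inv, hza]⟩

omit [IsDomain O] [IsDiscreteValuationRing O] [IsFractionRing O F] in
theorem unitsK_le : unitsK hs ht hn ≤ torusK hs ht hn := fun _ ⟨z, ⟨hz, _⟩, hza⟩ => ⟨z, hz, hza⟩

omit [IsDomain O] [IsDiscreteValuationRing O] [IsFractionRing O F] in
theorem torusK_comm : ∀ a ∈ torusK hs ht hn, ∀ b ∈ torusK hs ht hn, a * b = b * a := by
  rintro _ ⟨z, -, rfl⟩ _ ⟨w, -, rfl⟩
  rw [← map_mul, mul_comm, map_mul]

omit hs

/-- The units of the order in `GL₂`. -/
def tU : (QA O t n)ˣ →* GL (Fin 2) F :=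
  embU.comp (Units.map (toL F : QA O t n →+* LAlg F t n).toMonoidHom)

/-- The standard vertices. -/
def vert (hπ : Irreducible π) (m : ℕ) (u : (QA O t n)ˣ) : Vtx O F :=
  ((tU (F := F) u * stepMat (F := F) hπ m : GL (Fin 2) F) : Vtx O F)

omit [IsDomain O] [IsDiscreteValuationRing O] in
theorem vert_eq_iff (hπ : Irreducible π) (m : ℕ) (u u' : (QA O t n)ˣ) :
    vert (F := F) hπ m u = vert hπ m u' ↔ redU π t n m u = redU π t n m u' := by
  have e : (tU (F := F) u * stepMat (F := F) hπ m)⁻¹ * (tU u' * stepMat (F := F) hπ m) =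
      (stepMat (F := F) hπ m)⁻¹ * embU (Units.map (toL F : QA O t n →+* LAlg F t n).toMonoidHom (u⁻¹ * u')) *
        stepMat (F := F) hπ m := by
    rw [map_mul, map_inv, map_mul, map_inv]
    show _ = _ * ((tU u)⁻¹ * tU u') * _
    group
  rw [vert, vert, QuotientGroup.eq, e, conj_mem_sphSub_iff, redU_eq_iff]
  constructor
  · rintro ⟨c, hc, w, hw, hz⟩
    set a : QA O t n := ((u⁻¹ * u' : (QA O t n)ˣ) : QA O t n)
    have hz' : toL F a = c • toL F (w : QA O t n) := hz
    have h1 : toL F (a * ((w⁻¹ : (QA O t n)ˣ) : QA O t n)) = c • (1 : LAlg F t n) := by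
      rw [map_mul, hz', smul_mul_assoc, ← map_mul, Units.mul_inv, map_one]
    have hre := congrArg QuadraticAlgebra.re h1
    simp [toL, QuadraticAlgebra.re_one] at hre
    have him : a.im = (a * ((w⁻¹ : (QA O t n)ˣ) : QA O t n)).re * (w : QA O t n).im := by
      apply IsFractionRing.injective O F
      rw [map_mul]
      have h2 := congrArg QuadraticAlgebra.im hz'
      simp [toL] at h2
      rw [h2, ← hre]
      simp
    rw [him]
    exact hw.mul_left _
  · intro h
    exact ⟨1, one_ne_zero, u⁻¹ * u', h, by rw [one_smul]; rfl⟩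

variable (O F) in
/-- The set of fixed vertices. -/
def fixedVtx (hs : ∀ x, s (algebraMap O F x) = algebraMap O F (τ x)) : Set (Vtx O F) :=
  {x | vAut hs x = x}

/-- The standard fundamental set on `F`. -/
def stdF (hπ : Irreducible π) (t n : O) : Set (Vtx O F) :=
  {x | ∃ (m : ℕ) (u : (QA O t n)ˣ), vert hπ m u = x}

/-- The standard fundamental set on the fixed vertices. -/
def stdK (hπ : Irreducible π) (ht : τ t = t) (hn : τ n = n) : Set (Vtx O F) :=
  {x | ∃ (m : ℕ) (u : (QA O t n)ˣ), uMap ht hn u = u ∧ vert hπ m u = x}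

omit [IsDomain O] [IsDiscreteValuationRing O] [IsFractionRing O F] in
theorem scalar_mem_sphSub {c : F} {z : (LAlg F t n)ˣ}
    (hz : (z : LAlg F t n) = c • (1 : LAlg F t n)) : embU z ∈ sphSub O F := by
  have hc : c ≠ 0 := fun h => z.ne_zero (by rw [hz, h, zero_smul])
  refine ⟨c, hc, 1, ?_⟩
  show emb (z : LAlg F t n) = _
  rw [hz]
  ext i j
  fin_cases i <;> fin_cases j <;> simp [emb, QuadraticAlgebra.re_one, QuadraticAlgebra.im_one]

omit [IsDomain O] [IsDiscreteValuationRing O] [IsFractionRing O F] in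
theorem scalar_commute {c : F} {z : (LAlg F t n)ˣ} (hz : (z : LAlg F t n) = c • (1 : LAlg F t n))
    (g : GL (Fin 2) F) : embU z * g = g * embU z := by
  refine Units.ext ?_
  have e : ((embU z : GL (Fin 2) F) : Matrix (Fin 2) (Fin 2) F) = c • 1 := by
    show emb (z : LAlg F t n) = _
    rw [hz]
    ext i j
    fin_cases i <;> fin_cases j <;> simp [emb, QuadraticAlgebra.re_one, QuadraticAlgebra.im_one]
  rw [Units.val_mul, Units.val_mul, e, Matrix.smul_mul, Matrix.mul_smul, one_mul, mul_one]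

variable (hτ : IsCubic τ) (hπτ : τ π = π) (hmax : IsMaximalOrder π t n)
include hs hτ hπ hπτ hmax

/-- Every vertex is a fixed translate of a standard one. -/
theorem exists_vert (x : Vtx O F) :
    ∃ k ∈ torusK hs ht hn, ∃ (m : ℕ) (u : (QA O t n)ˣ), x = k • vert (F := F) hπ m u := by
  obtain ⟨g, rfl⟩ := QuotientGroup.mk_surjective x
  obtain ⟨z, m, h, hh, hg, -⟩ := exists_decomp hπ hmax g
  obtain ⟨c, i, p, u, hc, hz, hp⟩ := exists_split hπ hτ hπτ ht hn hmax z
  have hpfix : qaMap τ ht hn p = p := by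
    rcases hp with ⟨-, rfl⟩ | ⟨-, a₀, ha₀, rfl, -⟩
    · exact map_one _
    · ext <;> simp [qaMap, lin, ha₀]
  -- the fixed part as a unit of `F[ω]`
  have hN : (toL F p : LAlg F t n).norm ≠ 0 := by
    intro h0
    have h1 : (z : LAlg F t n).norm = 0 := by
      rw [hz, map_mul, QuadraticAlgebra.norm_def]
      rw [QuadraticAlgebra.norm_def] at h0
      have := congrArg (· * ((toL F (u : QA O t n)).norm * c ^ 2)) h0
      simp only [zero_mul, QuadraticAlgebra.norm_def] at this
      simp [QuadraticAlgebra.re_mul, QuadraticAlgebra.im_mul]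
      linear_combination this
    exact (QuadraticAlgebra.isUnit_iff_norm_isUnit.mp z.isUnit).ne_zero h1
  have hpu : IsUnit (toL F p : LAlg F t n) :=
    QuadraticAlgebra.isUnit_iff_norm_isUnit.mpr (isUnit_iff_ne_zero.mpr hN)
  have hcu : IsUnit (c • (1 : LAlg F t n)) :=
    ⟨⟨c • 1, c⁻¹ • 1, by rw [smul_mul_smul_comm, mul_inv_cancel₀ hc, one_mul, one_smul],
      by rw [smul_mul_smul_comm, inv_mul_cancel₀ hc, one_mul, one_smul]⟩, rfl⟩
  refine ⟨embU hpu.unit, ⟨_, Units.ext ?_, rfl⟩, m, u, ?_⟩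
  · show lMap hs ht hn (toL F p) = toL F p
    rw [lMap_toL, hpfix]
  have e : embU z = embU hcu.unit * embU hpu.unit * tU u := by
    rw [tU, MonoidHom.comp_apply, ← map_mul, ← map_mul]
    congr 1
    ext1
    simp [hz, map_mul, mul_assoc]
  rw [hg, e, vert, MulAction.Quotient.smul_coe, smul_eq_mul]
  rw [show embU hcu.unit * embU hpu.unit * tU u * stepMat hπ m * h =
      embU hpu.unit * (tU u * stepMat hπ m) * (embU hcu.unit * h) by
    rw [mul_assoc (embU hcu.unit), mul_assoc (embU hcu.unit), scalar_commute (IsUnit.unit_spec hcu)]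
    group]
  exact QuotientGroup.mk_mul_of_mem _ (mul_mem (scalar_mem_sphSub (IsUnit.unit_spec hcu)) hh)

omit [IsDomain O] [IsDiscreteValuationRing O] hτ hπτ hmax in
/-- Translates of standard vertices by fixed torus elements. -/
theorem vert_unique {k : GL (Fin 2) F} (hk : k ∈ torusK hs ht hn) {m m' : ℕ} {u u' : (QA O t n)ˣ}
    (e : k • vert (F := F) hπ m u = vert hπ m' u') : m = m' ∧ k ∈ unitsK hs ht hn := by
  obtain ⟨z, hz, rfl⟩ := hk
  rw [vert, vert, MulAction.Quotient.smul_coe, smul_eq_mul, QuotientGroup.eq] at e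
  set Z := Units.map (toL F : QA O t n →+* LAlg F t n).toMonoidHom
  have hmm : m = m' := by
    refine level_unique hπ (z := z * Z u) (z' := Z u') e ?_
    rw [map_mul]
    show embU z * tU u * stepMat hπ m * _ = tU u' * stepMat hπ m'
    group
  subst hmm
  have e' : (stepMat (F := F) hπ m)⁻¹ * embU ((z * Z u)⁻¹ * Z u') * stepMat (F := F) hπ m ∈
      sphSub O F := by
    convert e using 1
    rw [map_mul, map_inv, map_mul]
    show _ = (embU z * (tU u * stepMat hπ m))⁻¹ * (tU u' * stepMat hπ m)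
    simp only [tU, MonoidHom.comp_apply, Z]
    group
  obtain ⟨c, hc, w, -, hw⟩ := (conj_mem_sphSub_iff hπ m _).mp e'
  refine ⟨rfl, z, ⟨hz, c⁻¹, u⁻¹ * u' * w⁻¹, ?_⟩, rfl⟩
  have h1 : (Z u' : LAlg F t n) = (z : LAlg F t n) * Z u * (c • toL F (w : QA O t n)) := by
    rw [← hw, ← Units.val_mul, ← Units.val_mul, mul_inv_cancel_left]
  simp only [Units.val_mul, map_mul]
  show _ = c⁻¹ • (((Z u⁻¹ : (LAlg F t n)ˣ) : LAlg F t n) * (Z u' : LAlg F t n) *
    toL F ((w⁻¹ : (QA O t n)ˣ) : QA O t n))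
  rw [h1, mul_smul_comm, mul_smul_comm, smul_mul_assoc, smul_smul, inv_mul_cancel₀ hc, one_smul,
    mul_assoc, mul_assoc, mul_assoc, ← map_mul, Units.mul_inv, map_one, mul_one,
    mul_comm (z : LAlg F t n), ← mul_assoc, ← Units.val_mul, ← map_mul, inv_mul_cancel, map_one,
    Units.val_one, one_mul]

-- the unused hypotheses keep the uniform signature of the section
set_option linter.unusedSectionVars false in
omit hτ hπτ hmax in
/-- A fixed multiple of a unit of the order is a fixed multiple of a fixed one. -/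
theorem exists_fixed_unit {z : (LAlg F t n)ˣ} (hz : Units.map (lMap hs ht hn).toMonoidHom z = z)
    {c : F} {w : (QA O t n)ˣ} (hzw : (z : LAlg F t n) = c • toL F (w : QA O t n)) :
    ∃ (c₁ : F) (w₁ : (QA O t n)ˣ), c₁ ≠ 0 ∧ uMap ht hn w₁ = w₁ ∧
      toL F (w₁ : QA O t n) = c₁⁻¹ • (z : LAlg F t n) := by
  have hc : c ≠ 0 := fun h => z.ne_zero (by rw [hzw, h, zero_smul])
  have hfix : lMap hs ht hn (z : LAlg F t n) = z := congrArg Units.val hz
  -- a coordinate of `w` is a unit: normalise it to one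
  obtain ⟨ε, hε⟩ : ∃ ε : Oˣ, (ε : O) = (w : QA O t n).re ∨ (ε : O) = (w : QA O t n).im := by
    rcases (by
      by_contra! hcon
      have hN := QuadraticAlgebra.isUnit_iff_norm_isUnit.mp w.isUnit
      rw [qa_norm, ← residue_ne_zero_iff_isUnit] at hN
      have h1 : residue O (w : QA O t n).re = 0 := by
        by_contra h; exact hcon.1 ((residue_ne_zero_iff_isUnit _).mp h)
      have h2 : residue O (w : QA O t n).im = 0 := by
        by_contra h; exact hcon.2 ((residue_ne_zero_iff_isUnit _).mp h)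
      exact hN (by simp [h1, h2]) :
        IsUnit (w : QA O t n).re ∨ IsUnit (w : QA O t n).im) with h | h
    · exact ⟨h.unit, Or.inl rfl⟩
    · exact ⟨h.unit, Or.inr rfl⟩
  set e : (QA O t n)ˣ := Units.map (algebraMap O (QA O t n)).toMonoidHom ε⁻¹
  set w₁ := e * w
  have hεF : algebraMap O F (ε : O) ≠ 0 := (ε.isUnit.map _).ne_zero
  have hw₁ : toL F (w₁ : QA O t n) = (c * algebraMap O F (ε : O))⁻¹ • (z : LAlg F t n) := by
    have he : toL F (e : QA O t n) = (algebraMap O F (ε : O))⁻¹ • (1 : LAlg F t n) := by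
      ext <;> simp [e, toL, QuadraticAlgebra.algebraMap_eq, QuadraticAlgebra.re_one,
        QuadraticAlgebra.im_one, map_units_inv]
    rw [Units.val_mul, map_mul, he, hzw, smul_one_mul, smul_smul]
    congr 1
    field_simp
  have hcε : s (c * algebraMap O F (ε : O)) = c * algebraMap O F (ε : O) := by
    rcases hε with h | h
    · have h1 := congrArg QuadraticAlgebra.re hfix
      simpa [lMap, hzw, toL, h] using h1
    · have h1 := congrArg QuadraticAlgebra.im hfix
      simpa [lMap, hzw, toL, h] using h1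
  refine ⟨_, w₁, mul_ne_zero hc hεF, Units.ext (toL_injective (F := F) ?_), hw₁⟩
  show toL F (qaMap τ ht hn (w₁ : QA O t n)) = toL F (w₁ : QA O t n)
  rw [← lMap_toL hs, hw₁, lMap_smul, map_inv₀, hcε, hfix]

omit hτ hπτ hmax in
theorem unitsK_smul_vert {k : GL (Fin 2) F} (hk : k ∈ unitsK hs ht hn) (m : ℕ) (u : (QA O t n)ˣ) :
    ∃ w : (QA O t n)ˣ, uMap ht hn w = w ∧ k • vert (F := F) hπ m u = vert hπ m (w * u) := by
  obtain ⟨z, ⟨hz, c, w, hzw⟩, rfl⟩ := hk
  obtain ⟨c₁, w₁, hne, hfix₁, hw₁⟩ := exists_fixed_unit hs hπ ht hn hz hzw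
  refine ⟨w₁, hfix₁, ?_⟩
  · rw [vert, vert, MulAction.Quotient.smul_coe, smul_eq_mul, QuotientGroup.eq]
    have hcu : IsUnit (c₁⁻¹ • (1 : LAlg F t n)) :=
      ⟨⟨_, c₁ • 1, by
          rw [smul_mul_smul_comm, inv_mul_cancel₀ hne, one_mul, one_smul],
        by rw [smul_mul_smul_comm, mul_inv_cancel₀ hne, one_mul, one_smul]⟩, rfl⟩
    have e1 : tU (F := F) w₁ = embU hcu.unit * embU z := by
      rw [tU, MonoidHom.comp_apply, ← map_mul]
      congr 1
      exact Units.ext (hw₁.trans (by rw [Units.val_mul, IsUnit.unit_spec, smul_one_mul]))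
    rw [map_mul tU, e1, show (embU z * (tU u * stepMat hπ m))⁻¹ *
        (embU hcu.unit * embU z * tU u * stepMat hπ m) =
        (embU z * (tU u * stepMat hπ m))⁻¹ * (embU hcu.unit * (embU z * (tU u * stepMat hπ m))) by
      group, scalar_commute (IsUnit.unit_spec hcu), inv_mul_cancel_left]
    exact scalar_mem_sphSub (IsUnit.unit_spec hcu)

-- the unused hypotheses keep the uniform signature of the section
set_option linter.unusedSectionVars false in
omit hmax in
theorem vAut_vert (m : ℕ) (u : (QA O t n)ˣ) :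
    vAut hs (vert (F := F) hπ m u) = vert hπ m (uMap ht hn u) := by
  rw [vert, vAut_mk, map_mul, gAut_stepMat hs hπ hπτ, vert]
  congr 2
  rw [tU, MonoidHom.comp_apply, MonoidHom.comp_apply, gAut_embU hs ht hn]
  congr 1
  exact Units.ext (lMap_toL hs ht hn _)

-- the unused hypotheses keep the uniform signature of the section
set_option linter.unusedSectionVars false in
omit hmax in
theorem vAut_smul {k : GL (Fin 2) F} (hk : k ∈ torusK hs ht hn) (x : Vtx O F) :
    vAut hs (k • x) = k • vAut hs x := by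
  obtain ⟨g, rfl⟩ := QuotientGroup.mk_surjective x
  obtain ⟨z, hz, rfl⟩ := hk
  rw [MulAction.Quotient.smul_coe, smul_eq_mul, vAut_mk, vAut_mk, map_mul, gAut_embU hs ht hn, hz]
  rfl

/-- The standard set on `F`. -/
theorem isFundSet_stdF :
    IsFundSet (torusK hs ht hn) (unitsK hs ht hn) Set.univ (stdF (F := F) hπ t n) := by
  refine ⟨Set.subset_univ _, ?_, ?_, ?_⟩
  · rintro k hk _ ⟨m, u, rfl⟩
    obtain ⟨w, -, e⟩ := unitsK_smul_vert hs hπ ht hn hk m u
    exact ⟨m, w * u, e.symm⟩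
  · intro x _
    obtain ⟨k, hk, m, u, rfl⟩ := exists_vert hs hπ ht hn hτ hπτ hmax x
    exact ⟨k⁻¹, inv_mem hk, m, u, (inv_smul_smul _ _).symm⟩
  · rintro _ ⟨m, u, rfl⟩ k hk ⟨m', u', e⟩
    exact ⟨k, (vert_unique hs hπ ht hn hk e.symm).2, rfl⟩

variable [Finite (ResidueField O)]

omit [Finite (ResidueField O)] in
/-- The standard set on the fixed vertices. -/
theorem isFundSet_stdK :
    IsFundSet (torusK hs ht hn) (unitsK hs ht hn) (fixedVtx O F hs) (stdK (F := F) hπ ht hn) := by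
  refine ⟨?_, ?_, ?_, ?_⟩
  · rintro _ ⟨m, u, hu, rfl⟩
    show vAut hs _ = _
    rw [vAut_vert hs hπ ht hn hτ hπτ, hu]
  · rintro k hk _ ⟨m, u, hu, rfl⟩
    obtain ⟨w, hw, e⟩ := unitsK_smul_vert hs hπ ht hn hk m u
    exact ⟨m, w * u, by rw [map_mul, hw, hu], e.symm⟩
  · intro x hx
    obtain ⟨k, hk, m, u, rfl⟩ := exists_vert hs hπ ht hn hτ hπτ hmax x
    have h1 : vAut hs (k • vert hπ m u) = k • vert hπ m u := hx
    rw [vAut_smul hs hπ ht hn hτ hπτ hk, vAut_vert hs hπ ht hn hτ hπτ] at h1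
    have h2 := (vert_eq_iff hπ m _ _).mp (smul_left_cancel k h1)
    rw [← sgM_redU hπτ] at h2
    obtain ⟨u', hu', e⟩ := exists_fixed_redU hπτ ht hn hπ hτ h2
    refine ⟨k⁻¹, inv_mem hk, m, u', hu', ?_⟩
    rw [inv_smul_smul, vert_eq_iff, e]
  · rintro _ ⟨m, u, -, rfl⟩ k hk ⟨m', u', -, e⟩
    exact ⟨k, (vert_unique hs hπ ht hn hk e.symm).2, rfl⟩

end FermatAgent.LT.Inert
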