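import Fermat.Agent.LT.Descent.Local.Inert.Count

set_option autoImplicit false

/-!
# The finite quotients of a discrete valuation ring with a cubic automorphism
-/

noncomputable section

open IsLocalRing

namespace FermatAgent.LT.Inert

theorem card_preimage_add {A B : Type*} [AddCommGroup A] [AddCommGroup B] [Finite A] (f : A →+ B)
    (hf : Function.Surjective f) (T : Set B) :
    Nat.card (f ⁻¹' T) = Nat.card f.ker * Nat.card T := by
  choose g hg using hf
  rw [← Nat.card_prod]
  exact Nat.card_congr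
    { toFun := fun v => (⟨v.1 - g (f v.1), by simp [AddMonoidHom.mem_ker, hg]⟩, ⟨f v.1, v.2⟩)
      invFun := fun p => ⟨p.1.1 + g p.2.1, by
        simp [Set.mem_preimage, AddMonoidHom.mem_ker.mp p.1.2, hg]⟩
      left_inv := fun v => by simp
      right_inv := fun p => by
        have h : f (p.1.1 + g p.2.1) = p.2.1 := by simp [AddMonoidHom.mem_ker.mp p.1.2, hg]
        refine Prod.ext (Subtype.ext ?_) (Subtype.ext h)
        show p.1.1 + g p.2.1 - g (f (p.1.1 + g p.2.1)) = p.1.1
        rw [h, add_sub_cancel_right] }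

variable {O : Type*} [CommRing O]

/-- `O / (πᵐ)`. -/
abbrev Qm (π : O) (m : ℕ) : Type _ := O ⧸ Ideal.span {π ^ m}

/-- The quotient map. -/
abbrev qmk (π : O) (m : ℕ) : O →+* Qm π m := Ideal.Quotient.mk _

variable {π : O} {τ : O ≃+* O}

theorem qmk_eq_zero_iff {m : ℕ} {x : O} : qmk π m x = 0 ↔ π ^ m ∣ x := by
  rw [Ideal.Quotient.eq_zero_iff_mem, Ideal.mem_span_singleton]

/-- The induced automorphism of `O / (πᵐ)`. -/
def tauQ (hπτ : τ π = π) (m : ℕ) : Qm π m ≃+* Qm π m :=
  Ideal.quotientEquiv _ _ τ (by rw [Ideal.map_span, Set.image_singleton]; simp [hπτ])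

theorem tauQ_qmk (hπτ : τ π = π) (m : ℕ) (x : O) : tauQ hπτ m (qmk π m x) = qmk π m (τ x) := rfl

variable [IsDomain O] [IsDiscreteValuationRing O] (hπ : Irreducible π) (hπτ : τ π = π)

include hπ in
theorem isLocalRing_qm {m : ℕ} (hm : m ≠ 0) : IsLocalRing (Qm π m) := by
  have : Nontrivial (Qm π m) := Ideal.Quotient.nontrivial_iff.mpr (fun h => hπ.not_isUnit
    ((isUnit_pow_iff hm).mp (Ideal.span_singleton_eq_top.mp h)))
  exact IsLocalRing.of_surjective' _ Ideal.Quotient.mk_surjective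

include hπ in
theorem isUnit_qmk_iff {m : ℕ} (hm : m ≠ 0) {x : O} : IsUnit (qmk π m x) ↔ IsUnit x := by
  refine ⟨fun h => ?_, fun h => h.map _⟩
  by_contra hx
  obtain ⟨y, hy⟩ := isUnit_iff_exists_inv.mp h
  obtain ⟨y, rfl⟩ := Ideal.Quotient.mk_surjective y
  rw [← map_mul, ← map_one (qmk π m), ← sub_eq_zero, ← map_sub, qmk_eq_zero_iff] at hy
  have h1 : π ∣ x * y - 1 := (dvd_pow_self π hm).trans hy
  have h2 : π ∣ x := by
    rwa [← Ideal.mem_span_singleton, ← hπ.maximalIdeal_eq, IsLocalRing.mem_maximalIdeal]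
  exact hπ.not_isUnit (isUnit_of_dvd_one (by simpa using dvd_sub (h2.mul_right y) h1))

include hπ in
theorem tauQ_isCubic (hτ : IsCubic τ) {m : ℕ} (hm : m ≠ 0) : IsCubic (tauQ hπτ m) := by
  refine ⟨fun x => ?_, ?_⟩
  · obtain ⟨x, rfl⟩ := Ideal.Quotient.mk_surjective x
    simp only [tauQ_qmk, hτ.cube]
  · obtain ⟨x, hx⟩ := hτ.moves
    exact ⟨qmk π m x, by rw [tauQ_qmk, ← map_sub, isUnit_qmk_iff hπ hm]; exact hx⟩

-- the unused hypotheses keep the uniform signature of the section
set_option linter.unusedSectionVars false in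
include hπ in
/-- Fixed points lift. -/
theorem exists_fixed_lift (hτ : IsCubic τ) {m : ℕ} {x : Qm π m} (hx : tauQ hπτ m x = x) :
    ∃ y, τ y = y ∧ qmk π m y = x := by
  obtain ⟨x, rfl⟩ := Ideal.Quotient.mk_surjective x
  rw [tauQ_qmk, ← sub_eq_zero, ← map_sub, qmk_eq_zero_iff, ← Ideal.mem_span_singleton] at hx
  obtain ⟨y, hy, hyx⟩ := exists_fixed_sub_mem hτ (J := Ideal.span {π ^ m}) (fun z hz => by
    rw [Ideal.mem_span_singleton] at hz ⊢
    simpa [hπτ] using map_dvd τ hz) hx
  refine ⟨y, hy, ?_⟩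
  rwa [← sub_eq_zero, ← map_sub, qmk_eq_zero_iff, ← Ideal.mem_span_singleton]

/-- Multiplication by `πʲ` from `O / π^i` onto the multiples of `πʲ` in `O / π^(i+j)`. -/
def shiftQ (π : O) (i j : ℕ) : Qm π i →+ Qm π (i + j) :=
  QuotientAddGroup.map (Submodule.toAddSubgroup (Ideal.span {π ^ i}))
    (Submodule.toAddSubgroup (Ideal.span {π ^ (i + j)}))
    (AddMonoidHom.mulLeft (π ^ j)) (fun x hx => by
      rw [Submodule.mem_toAddSubgroup, Ideal.mem_span_singleton] at hx
      show π ^ j * x ∈ Ideal.span {π ^ (i + j)}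
      rw [Ideal.mem_span_singleton, pow_add, mul_comm (π ^ i)]
      exact mul_dvd_mul_left _ hx)

omit [IsDomain O] [IsDiscreteValuationRing O] in
theorem shiftQ_qmk (i j : ℕ) (x : O) : shiftQ π i j (qmk π i x) = qmk π (i + j) (π ^ j * x) := rfl

omit [IsDiscreteValuationRing O] in
include hπ in
theorem shiftQ_injective (i j : ℕ) : Function.Injective (shiftQ π i j) := by
  rw [injective_iff_map_eq_zero]
  intro x hx
  obtain ⟨x, rfl⟩ := Ideal.Quotient.mk_surjective x
  rw [shiftQ_qmk, qmk_eq_zero_iff, pow_add, mul_comm (π ^ i),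
    mul_dvd_mul_iff_left (pow_ne_zero _ hπ.ne_zero)] at hx
  exact qmk_eq_zero_iff.mpr hx

omit [IsDomain O] [IsDiscreteValuationRing O] in
theorem range_shiftQ (i j : ℕ) :
    Set.range (shiftQ π i j) = {b | b ∈ Ideal.span {qmk π (i + j) (π ^ j)}} := by
  ext b
  obtain ⟨b, rfl⟩ := Ideal.Quotient.mk_surjective b
  rw [Set.mem_ofPred_eq, Ideal.mem_span_singleton']
  constructor
  · rintro ⟨x, hx⟩
    obtain ⟨x, rfl⟩ := Ideal.Quotient.mk_surjective x
    exact ⟨qmk π _ x, by rw [← hx, shiftQ_qmk, ← map_mul, mul_comm]⟩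
  · rintro ⟨c, hc⟩
    obtain ⟨c, rfl⟩ := Ideal.Quotient.mk_surjective c
    exact ⟨qmk π i c, by rw [shiftQ_qmk, ← hc, ← map_mul, mul_comm]⟩

omit [IsDomain O] [IsDiscreteValuationRing O] in
theorem tauQ_shiftQ (i j : ℕ) (x : Qm π i) :
    tauQ hπτ (i + j) (shiftQ π i j x) = shiftQ π i j (tauQ hπτ i x) := by
  obtain ⟨x, rfl⟩ := Ideal.Quotient.mk_surjective x
  simp only [shiftQ_qmk, tauQ_qmk, map_mul, map_pow, hπτ]

omit [IsDiscreteValuationRing O] in
include hπ in
theorem card_span_pi_pow (i j : ℕ) :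
    Nat.card (Ideal.span {qmk π (i + j) (π ^ j)} : Ideal (Qm π (i + j))) = Nat.card (Qm π i) := by
  rw [← Nat.card_range_of_injective (shiftQ_injective hπ i j), range_shiftQ]
  rfl

omit [IsDiscreteValuationRing O] in
include hπ in
theorem card_span_pi_pow_fixed (i j : ℕ) :
    Nat.card {b | b ∈ Ideal.span {qmk π (i + j) (π ^ j)} ∧ tauQ hπτ (i + j) b = b} =
      Nat.card {x : Qm π i | tauQ hπτ i x = x} := by
  rw [← Nat.card_image_of_injective (shiftQ_injective hπ i j) {x : Qm π i | tauQ hπτ i x = x}]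
  congr 2
  ext b
  have hr := Set.ext_iff.mp (range_shiftQ (π := π) i j) b
  constructor
  · rintro ⟨hb, hb'⟩
    obtain ⟨x, rfl⟩ := hr.mpr hb
    exact ⟨x, shiftQ_injective hπ i j ((tauQ_shiftQ hπτ i j x).symm.trans hb'), rfl⟩
  · rintro ⟨x, hx, rfl⟩
    exact ⟨hr.mp ⟨x, rfl⟩, by rw [tauQ_shiftQ, hx]⟩

/-! ### The reduction to the residue field -/

include hπ in
theorem span_le_maximal {m : ℕ} (hm : m ≠ 0) : Ideal.span {π ^ m} ≤ maximalIdeal O := by
  rw [Ideal.span_singleton_le_iff_mem, hπ.maximalIdeal_eq, Ideal.mem_span_singleton]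
  exact dvd_pow_self π hm

/-- `O / (πᵐ) → k`. -/
def redQ {m : ℕ} (hm : m ≠ 0) : Qm π m →+* ResidueField O :=
  Ideal.Quotient.factor (span_le_maximal hπ hm)

theorem redQ_qmk {m : ℕ} (hm : m ≠ 0) (x : O) : redQ hπ hm (qmk π m x) = residue O x := rfl

theorem redQ_surjective {m : ℕ} (hm : m ≠ 0) : Function.Surjective (redQ hπ hm) := fun z => by
  obtain ⟨x, rfl⟩ := residue_surjective z
  exact ⟨qmk π m x, rfl⟩

theorem redQ_ne_zero_iff {m : ℕ} (hm : m ≠ 0) {x : Qm π m} : redQ hπ hm x ≠ 0 ↔ IsUnit x := by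
  obtain ⟨x, rfl⟩ := Ideal.Quotient.mk_surjective x
  rw [redQ_qmk, isUnit_qmk_iff hπ hm, residue_ne_zero_iff_isUnit]

theorem redQ_tauQ {m : ℕ} (hm : m ≠ 0) (x : Qm π m) :
    redQ hπ hm (tauQ hπτ m x) = resAut τ (redQ hπ hm x) := by
  obtain ⟨x, rfl⟩ := Ideal.Quotient.mk_surjective x
  rfl

section Card

variable [Finite (ResidueField O)]

include hπ in
theorem finite_qm : ∀ m, Finite (Qm π m) ∧
    Nat.card (Qm π m) = Nat.card (ResidueField O) ^ m := by
  intro m
  induction m with
  | zero =>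
    have : Subsingleton (Qm π 0) := Ideal.Quotient.subsingleton_iff.mpr (by simp)
    exact ⟨inferInstance, by simp⟩
  | succ m ih =>
    obtain ⟨hfin, hcard⟩ := ih
    rw [add_comm m 1]
    let f : Qm π (1 + m) →+* Qm π m := Ideal.Quotient.factor (by
      rw [Ideal.span_singleton_le_iff_mem, Ideal.mem_span_singleton]
      exact pow_dvd_pow π (Nat.le_add_left m 1))
    let e : Qm π 1 ≃+* ResidueField O :=
      Ideal.quotEquivOfEq (by rw [pow_one]; exact hπ.maximalIdeal_eq.symm)
    have hker : (f.toAddMonoidHom.ker : Set (Qm π (1 + m))) = Set.range (shiftQ π 1 m) := by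
      rw [range_shiftQ]
      ext b
      obtain ⟨b, rfl⟩ := Ideal.Quotient.mk_surjective b
      show qmk π m b = 0 ↔ qmk π (1 + m) b ∈ Ideal.span {qmk π (1 + m) (π ^ m)}
      rw [qmk_eq_zero_iff, Ideal.mem_span_singleton']
      constructor
      · rintro ⟨c, rfl⟩
        exact ⟨qmk π _ c, by rw [← map_mul, mul_comm]⟩
      · rintro ⟨c, hc⟩
        obtain ⟨c, rfl⟩ := Ideal.Quotient.mk_surjective c
        rw [← map_mul, eq_comm, ← sub_eq_zero, ← map_sub, qmk_eq_zero_iff] at hc
        have h := dvd_add ((pow_dvd_pow π (Nat.le_add_left m 1)).trans hc) (dvd_mul_left (π ^ m) c)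
        rwa [sub_add_cancel] at h
    have e0 : f.toAddMonoidHom.ker ≃ ResidueField O :=
      (Equiv.setCongr hker).trans ((Equiv.ofInjective _ (shiftQ_injective hπ 1 m)).symm.trans e.toEquiv)
    have : Finite f.toAddMonoidHom.ker := Finite.of_equiv _ e0.symm
    have hsurj : Function.Surjective f := Ideal.Quotient.factor_surjective _
    have e1 : (Qm π (1 + m) ⧸ f.toAddMonoidHom.ker) ≃ Qm π m :=
      (QuotientAddGroup.quotientKerEquivOfSurjective f.toAddMonoidHom hsurj).toEquiv
    have : Finite (Qm π (1 + m) ⧸ f.toAddMonoidHom.ker) := Finite.of_equiv _ e1.symm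
    refine ⟨Finite.of_equiv _ (AddSubgroup.addGroupEquivQuotientProdAddSubgroup
      (s := f.toAddMonoidHom.ker)).symm, ?_⟩
    rw [AddSubgroup.card_eq_card_quotient_mul_card_addSubgroup f.toAddMonoidHom.ker,
      Nat.card_congr e1, Nat.card_congr e0, hcard, pow_add, pow_one, mul_comm]

variable (hτ : IsCubic τ)

/-- The fixed field of the residue field. -/
abbrev resFixed (τ : O ≃+* O) : Type _ := {x : ResidueField O // resAut τ x = x}

include hπ hτ in
/-- `q^m` fixed points. -/
theorem card_fixed_qm : ∀ m, Nat.card {x : Qm π m | tauQ hπτ m x = x} =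
    Nat.card (resFixed τ) ^ m := by
  intro m
  induction m with
  | zero =>
    have : Subsingleton (Qm π 0) := Ideal.Quotient.subsingleton_iff.mpr (by simp)
    rw [pow_zero (Nat.card (resFixed τ)), Nat.card_eq_one_iff_unique]
    exact ⟨inferInstance, ⟨⟨0, Subsingleton.elim _ _⟩⟩⟩
  | succ m ih =>
    rw [add_comm m 1]
    have := (finite_qm hπ (1 + m)).1
    -- fixed points of `O/π^(1+m)` map onto those of `O/π^m`
    let A : AddSubgroup (Qm π (1 + m)) :=
      { carrier := {x | tauQ hπτ (1 + m) x = x}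
        zero_mem' := map_zero _
        add_mem' := fun {a b} ha hb => by simp [Set.mem_ofPred_eq.mp ha, Set.mem_ofPred_eq.mp hb]
        neg_mem' := fun {a} ha => by simp [Set.mem_ofPred_eq.mp ha] }
    let B : AddSubgroup (Qm π m) :=
      { carrier := {x | tauQ hπτ m x = x}
        zero_mem' := map_zero _
        add_mem' := fun {a b} ha hb => by simp [Set.mem_ofPred_eq.mp ha, Set.mem_ofPred_eq.mp hb]
        neg_mem' := fun {a} ha => by simp [Set.mem_ofPred_eq.mp ha] }
    let f : Qm π (1 + m) →+* Qm π m := Ideal.Quotient.factor (by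
      rw [Ideal.span_singleton_le_iff_mem, Ideal.mem_span_singleton]
      exact pow_dvd_pow π (Nat.le_add_left m 1))
    have hfτ : ∀ x, f (tauQ hπτ (1 + m) x) = tauQ hπτ m (f x) := fun x => by
      obtain ⟨x, rfl⟩ := Ideal.Quotient.mk_surjective x
      rfl
    let g : A →+ B := AddMonoidHom.mk' (fun x => ⟨f x.1, by
        show tauQ hπτ m (f x.1) = f x.1
        rw [← hfτ, show tauQ hπτ (1 + m) x.1 = x.1 from x.2]⟩)
      fun a b => Subtype.ext (map_add f _ _)
    have hg : Function.Surjective g := by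
      rintro ⟨y, hy⟩
      obtain ⟨z, hz, rfl⟩ := exists_fixed_lift hπ hπτ hτ hy
      exact ⟨⟨qmk π _ z, show tauQ hπτ _ (qmk π _ z) = _ by rw [tauQ_qmk, hz]⟩, rfl⟩
    have h := card_preimage_add g hg Set.univ
    rw [Set.preimage_univ, Nat.card_univ, Nat.card_univ] at h
    show Nat.card A = _
    rw [h, show Nat.card B = _ from ih, pow_add (Nat.card (resFixed τ)),
      pow_one (Nat.card (resFixed τ))]
    congr 1
    -- the kernel is the fixed part of `π^m k`
    rw [show Nat.card (resFixed τ) = Nat.card {x : Qm π 1 | tauQ hπτ 1 x = x} from ?_,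
      ← card_span_pi_pow_fixed hπ hπτ 1 m]
    · refine Nat.card_congr ((Equiv.subtypeSubtypeEquivSubtypeExists _ _).trans
        (Equiv.subtypeEquivRight fun x => ?_))
      obtain ⟨b, rfl⟩ := Ideal.Quotient.mk_surjective x
      constructor
      · rintro ⟨hb, hb'⟩
        refine ⟨?_, hb⟩
        have h0 : qmk π m b = 0 := congrArg Subtype.val hb'
        obtain ⟨c, rfl⟩ := qmk_eq_zero_iff.mp h0
        exact Ideal.mem_span_singleton'.mpr ⟨qmk π _ c, by rw [← map_mul, mul_comm]⟩
      · rintro ⟨hb, hb'⟩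
        refine ⟨hb', Subtype.ext ?_⟩
        obtain ⟨c, hc⟩ := Ideal.mem_span_singleton'.mp hb
        obtain ⟨c, rfl⟩ := Ideal.Quotient.mk_surjective c
        show f (qmk π _ b) = 0
        rw [← hc, map_mul]
        refine mul_eq_zero_of_right _ ?_
        show qmk π m (π ^ m) = 0
        exact qmk_eq_zero_iff.mpr dvd_rfl
    · let e : Qm π 1 ≃+* ResidueField O :=
        Ideal.quotEquivOfEq (by rw [pow_one]; exact hπ.maximalIdeal_eq.symm)
      have he : ∀ x, e (tauQ hπτ 1 x) = resAut τ (e x) := fun x => by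
        obtain ⟨x, rfl⟩ := Ideal.Quotient.mk_surjective x
        rfl
      refine (Nat.card_congr (Equiv.subtypeEquiv e.toEquiv fun x => ?_)).symm
      show tauQ hπτ 1 x = x ↔ resAut τ (e x) = e x
      rw [← he]
      exact e.injective.eq_iff.symm

include hπ hτ in
/-- Elements with prescribed reduction. -/
theorem card_red_mem {m : ℕ} (hm : m ≠ 0) (T : Set (ResidueField O)) :
    Nat.card {x : Qm π m // redQ hπ hm x ∈ T} =
      Nat.card (ResidueField O) ^ (m - 1) * Nat.card T ∧
    Nat.card {x : Qm π m // redQ hπ hm x ∈ T ∧ tauQ hπτ m x = x} =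
      Nat.card (resFixed τ) ^ (m - 1) * Nat.card {z | z ∈ T ∧ resAut τ z = z} := by
  obtain ⟨hfin, hcard⟩ := finite_qm (π := π) hπ m
  obtain ⟨i, rfl⟩ : ∃ i, m = i + 1 := ⟨m - 1, by omega⟩
  have hQ : 0 < Nat.card (ResidueField O) := Nat.card_pos
  constructor
  · have h := card_preimage_add (redQ hπ hm).toAddMonoidHom (redQ_surjective hπ hm) T
    have h' := card_preimage_add (redQ hπ hm).toAddMonoidHom (redQ_surjective hπ hm) Set.univ
    rw [Set.preimage_univ, Nat.card_univ, Nat.card_univ, hcard, pow_succ] at h'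
    rw [Nat.add_sub_cancel, Nat.eq_of_mul_eq_mul_right hQ h']
    exact h
  · let A : AddSubgroup (Qm π (i + 1)) :=
      { carrier := {x | tauQ hπτ _ x = x}
        zero_mem' := map_zero _
        add_mem' := fun {a b} ha hb => by simp [Set.mem_ofPred_eq.mp ha, Set.mem_ofPred_eq.mp hb]
        neg_mem' := fun {a} ha => by simp [Set.mem_ofPred_eq.mp ha] }
    let B : AddSubgroup (ResidueField O) :=
      { carrier := {x | resAut τ x = x}
        zero_mem' := map_zero _
        add_mem' := fun {a b} ha hb => by simp [Set.mem_ofPred_eq.mp ha, Set.mem_ofPred_eq.mp hb]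
        neg_mem' := fun {a} ha => by simp [Set.mem_ofPred_eq.mp ha] }
    let g : A →+ B := AddMonoidHom.mk' (fun x => ⟨redQ hπ hm x.1, by
        show resAut τ (redQ hπ hm x.1) = redQ hπ hm x.1
        rw [← redQ_tauQ hπ hπτ, show tauQ hπτ _ x.1 = x.1 from x.2]⟩)
      fun a b => Subtype.ext (map_add _ _ _)
    have hg : Function.Surjective g := by
      rintro ⟨z, hz⟩
      obtain ⟨x, rfl⟩ := residue_surjective z
      have hmem : τ x - x ∈ maximalIdeal O := by
        rw [← residue_eq_zero_iff, map_sub, sub_eq_zero]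
        exact hz
      obtain ⟨y, hy, hyx⟩ := exists_fixed_sub_mem hτ (J := maximalIdeal O)
        (fun a ha => by simpa [isUnit_apply] using ha) hmem
      refine ⟨⟨qmk π _ y, show tauQ hπτ _ (qmk π _ y) = _ by rw [tauQ_qmk, hy]⟩, Subtype.ext ?_⟩
      show residue O y = residue O x
      rwa [← residue_eq_zero_iff, map_sub, sub_eq_zero] at hyx
    have hfB : Finite B := inferInstance
    have h := card_preimage_add g hg (Subtype.val ⁻¹' T)
    have h' := card_preimage_add g hg Set.univ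
    rw [Set.preimage_univ, Nat.card_univ, Nat.card_univ] at h'
    rw [show Nat.card A = Nat.card (resFixed τ) ^ (i + 1) from card_fixed_qm hπ hπτ hτ _, pow_succ,
      show Nat.card B = Nat.card (resFixed τ) from rfl] at h'
    have hq : 0 < Nat.card (resFixed τ) := by
      have : Nonempty (resFixed τ) := ⟨⟨0, map_zero _⟩⟩
      exact Nat.card_pos
    rw [Nat.add_sub_cancel, Nat.eq_of_mul_eq_mul_right hq h']
    refine (Eq.trans (Nat.card_congr ?_) h).trans ?_
    · exact
        { toFun := fun x => ⟨⟨x.1, x.2.2⟩, x.2.1⟩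
          invFun := fun x => ⟨x.1.1, x.2, x.1.2⟩
          left_inv := fun x => rfl
          right_inv := fun x => rfl }
    · congr 1
      exact Nat.card_congr ((Equiv.subtypeSubtypeEquivSubtypeInter _ _).trans
        (Equiv.subtypeEquivRight fun z => and_comm))

end Card

end FermatAgent.LT.Inert
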