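import Mathlib

set_option autoImplicit false

/-!
# Projective unit groups of quadratic algebras over a finite local ring with a cubic automorphism

For a finite local ring `S` with an automorphism `τ` of order three moving the residue field and
`t`, `n` fixed by `τ`, the group `Cls S t n` of units of `S[ω]`, `ω² = tω - n`, modulo scalars:
normal forms, cardinality, fixed points, and surjectivity of the norm `z ↦ z · τz · τ²z` onto the
fixed points.
-/

noncomputable section

open Polynomial IsLocalRing

namespace FermatAgent.LT.Inert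

variable {S : Type*} [CommRing S]

/-- The quadratic algebra `S[ω]`, `ω² = t ω - n`. -/
abbrev QA (S : Type*) [CommRing S] (t n : S) : Type _ := QuadraticAlgebra S (-n) t

theorem qa_norm {t n : S} (z : QA S t n) :
    z.norm = z.re ^ 2 + t * z.re * z.im + n * z.im ^ 2 := by
  rw [QuadraticAlgebra.norm_def]; ring

/-- An automorphism of order three of a local ring which moves the residue field. -/
structure IsCubic (τ : S ≃+* S) : Prop where
  cube : ∀ x, τ (τ (τ x)) = x
  moves : ∃ x, IsUnit (τ x - x)

variable {τ : S ≃+* S}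

/-- The coefficientwise action on `S[ω]`. -/
def qaMap (τ : S ≃+* S) {t n : S} (ht : τ t = t) (hn : τ n = n) : QA S t n →+* QA S t n where
  toFun z := ⟨τ z.re, τ z.im⟩
  map_one' := by ext <;> simp [QuadraticAlgebra.re_one, QuadraticAlgebra.im_one]
  map_zero' := by ext <;> simp
  map_add' z w := by ext <;> simp
  map_mul' z w := by ext <;> simp [ht, hn]

section Local

variable [IsLocalRing S]

omit [IsLocalRing S] in
theorem isUnit_apply {x : S} : IsUnit (τ x) ↔ IsUnit x :=
  ⟨fun h => by simpa using h.map τ.symm, fun h => h.map τ⟩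

/-- The induced automorphism of the residue field. -/
def resAut (τ : S ≃+* S) : ResidueField S ≃+* ResidueField S := ResidueField.mapEquiv τ

theorem resAut_residue (x : S) : resAut τ (residue S x) = residue S (τ x) := rfl

theorem resAut_cube (h : IsCubic τ) (x : ResidueField S) :
    resAut τ (resAut τ (resAut τ x)) = x := by
  obtain ⟨a, rfl⟩ := residue_surjective x
  rw [resAut_residue, resAut_residue, resAut_residue, h.cube]

theorem exists_resAut_ne (h : IsCubic τ) : ∃ x, resAut τ x ≠ x := by
  obtain ⟨x, hx⟩ := h.moves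
  refine ⟨residue S x, fun e => ?_⟩
  rw [resAut_residue] at e
  exact (residue_ne_zero_iff_isUnit _).mpr hx (by rw [map_sub, e, sub_self])

/-- Roots of a quadratic polynomial with fixed coefficients are fixed. -/
theorem resAut_root (h : IsCubic τ) {t n a : ResidueField S} (ht : resAut τ t = t)
    (hn : resAut τ n = n) (ha : a ^ 2 - t * a + n = 0) : resAut τ a = a := by
  set r := resAut τ
  have hr : ∀ x, x ^ 2 - t * x + n = 0 → (r x) ^ 2 - t * r x + n = 0 := by
    intro x hx
    have := congrArg r hx
    simpa [ht, hn] using this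
  have hdich : ∀ x, x ^ 2 - t * x + n = 0 → x = a ∨ x = t - a := by
    intro x hx
    have h0 : (x - a) * (x - (t - a)) = 0 := by linear_combination hx - ha
    rcases mul_eq_zero.mp h0 with h1 | h1
    · exact Or.inl (sub_eq_zero.mp h1)
    · exact Or.inr (sub_eq_zero.mp h1)
  rcases hdich _ (hr _ ha) with h1 | h1
  · exact h1
  · -- then `r` swaps the two roots, so `r³ = r`
    have h2 : r (r a) = a := by rw [h1, map_sub, ht, h1, sub_sub_cancel]
    have h3 := resAut_cube h a
    rwa [h2] at h3

variable (hτ : IsCubic τ)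
include hτ

/-- The three powers of the residual automorphism are linearly independent. -/
theorem exists_apply_ne_zero {Ω : Type*} [Field Ω] (e : ResidueField S →+* Ω) (a b : Ω) :
    ∃ θ : S, e (residue S θ) + a * e (residue S (τ θ)) + b * e (residue S (τ (τ θ))) ≠ 0 := by
  set r := resAut τ
  let c : Fin 3 → (ResidueField S →* Ω) := ![e.toMonoidHom, e.toMonoidHom.comp r.toMonoidHom,
    e.toMonoidHom.comp (r.toMonoidHom.comp r.toMonoidHom)]
  obtain ⟨x, hx⟩ := exists_resAut_ne hτ
  have hx2 : r (r x) ≠ x := fun h2 => hx (by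
    have h3 := resAut_cube hτ x
    rwa [h2] at h3)
  have hinj : Function.Injective c := by
    intro i j hij
    have := congrArg (fun f : ResidueField S →* Ω => f x) hij
    fin_cases i <;> fin_cases j <;> simp [c, r] at this ⊢
    all_goals
      replace this := e.injective this
      first
      | exact hx this | exact hx this.symm | exact hx2 this | exact hx2 this.symm
      | exact hx (r.injective this) | exact hx (r.injective this.symm)
  have hli := (linearIndependent_monoidHom (ResidueField S) Ω).comp c hinj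
  by_contra! hall
  have hzero : ∑ i, (![1, a, b] : Fin 3 → Ω) i •
      ((fun i => ((c i : _ →* _) : _ → _)) i) = 0 := by
    funext z
    obtain ⟨θ, rfl⟩ := residue_surjective z
    have h0 := hall θ
    simp [Fin.sum_univ_three, c, r]
    exact h0
  exact one_ne_zero (Fintype.linearIndependent_iff.mp hli _ hzero 0)

/-- An element with unit trace. -/
theorem exists_trace_unit : ∃ θ : S, IsUnit (θ + τ θ + τ (τ θ)) := by
  obtain ⟨θ, hθ⟩ := exists_apply_ne_zero hτ (RingHom.id (ResidueField S)) 1 1
  exact ⟨θ, (residue_ne_zero_iff_isUnit _).mp (by simpa using hθ)⟩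

/-- A fixed element congruent to a given one modulo a stable ideal fixing it. -/
theorem exists_fixed_sub_mem {J : Ideal S} (hJ : ∀ x ∈ J, τ x ∈ J) {x : S} (hx : τ x - x ∈ J) :
    ∃ y, τ y = y ∧ y - x ∈ J := by
  obtain ⟨θ, hθ⟩ := exists_trace_unit hτ
  set u := θ + τ θ + τ (τ θ) with hu
  have hfix : τ u = u := by rw [hu, map_add, map_add, hτ.cube]; ring
  obtain ⟨v, hv⟩ := hθ
  set w : S := ↑v⁻¹ with hw
  have hwu : w * u = 1 := by rw [hw, ← hv, Units.inv_mul]
  have hτw : τ w = w := by
    have h1 : τ w * u = 1 := by rw [← hfix, ← map_mul, hwu, map_one]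
    calc τ w = τ w * (w * u) := by rw [hwu, mul_one]
      _ = w * (τ w * u) := by ring
      _ = w := by rw [h1, mul_one]
  refine ⟨w * (θ * x + τ θ * τ x + τ (τ θ) * τ (τ x)), ?_, ?_⟩
  · simp only [map_mul, map_add, hτw, hτ.cube]; ring
  · have e : w * (θ * x + τ θ * τ x + τ (τ θ) * τ (τ x)) - x =
        w * (τ θ * (τ x - x) + τ (τ θ) * (τ (τ x - x) + (τ x - x))) := by
      rw [map_sub]
      linear_combination (x) * hwu
    rw [e]
    exact J.mul_mem_left _ (add_mem (J.mul_mem_left _ hx)
      (J.mul_mem_left _ (add_mem (hJ _ hx) hx)))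

variable [Finite S] {t n : S}

omit [Finite S] in
/-- Hilbert 90, in the form `θ + y τθ + y τy τ²θ` is a unit for some scalar `θ`. -/
theorem exists_isUnit_h90 (y : QA S t n) (hy : QA S t n →+* QA S t n) :
    ∃ θ : S, IsUnit (algebraMap S (QA S t n) θ + y * algebraMap S _ (τ θ)
      + y * hy y * algebraMap S _ (τ (τ θ))) := by
  let k := ResidueField S
  let Ω := AlgebraicClosure k
  let e : S →+* Ω := (algebraMap k Ω).comp (residue S)
  obtain ⟨ρ, hρ⟩ := IsAlgClosed.exists_root
    ((X : Polynomial Ω) ^ 2 - C (e t) * X + C (e n)) (by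
      rw [degree_eq_natDegree (by
        intro h
        simpa [coeff_X, coeff_C] using congrArg (fun p : Polynomial Ω => p.coeff 2) h)]
      have : ((X : Polynomial Ω) ^ 2 - C (e t) * X + C (e n)).natDegree = 2 := by
        compute_degree!
      rw [this]; norm_num)
  simp only [IsRoot.def, eval_add, eval_sub, eval_pow, eval_X, eval_mul, eval_C] at hρ
  let χ : Ω → QA S t n → Ω := fun a z => e z.re + e z.im * a
  have hnorm : ∀ z : QA S t n, e z.norm = χ ρ z * χ (e t - ρ) z := by
    intro z
    rw [qa_norm]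
    simp only [χ, map_add, map_mul, map_pow]
    linear_combination (e z.im) ^ 2 * hρ
  -- `χ a` of the expression is a nonzero additive function of `θ`
  have key : ∀ a : Ω, ∃ θ : S, e θ + χ a y * e (τ θ) + χ a (y * hy y) * e (τ (τ θ)) ≠ 0 :=
    fun a => exists_apply_ne_zero hτ (algebraMap k Ω) _ _
  let L : Ω → S → Ω := fun a θ => e θ + χ a y * e (τ θ) + χ a (y * hy y) * e (τ (τ θ))
  have hadd : ∀ a θ θ', L a (θ + θ') = L a θ + L a θ' := fun a θ θ' => by
    simp only [L, map_add]; ring
  obtain ⟨θ, h1, h2⟩ : ∃ θ, L ρ θ ≠ 0 ∧ L (e t - ρ) θ ≠ 0 := by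
    obtain ⟨θ₁, h1⟩ := key ρ
    obtain ⟨θ₂, h2⟩ := key (e t - ρ)
    by_cases h1' : L (e t - ρ) θ₁ = 0
    · by_cases h2' : L ρ θ₂ = 0
      · exact ⟨θ₁ + θ₂, by rw [hadd, h2', add_zero]; exact h1,
          by rw [hadd, h1', zero_add]; exact h2⟩
      · exact ⟨θ₂, h2', h2⟩
    · exact ⟨θ₁, h1, h1'⟩
  refine ⟨θ, QuadraticAlgebra.isUnit_iff_norm_isUnit.mpr ?_⟩
  rw [← residue_ne_zero_iff_isUnit]
  intro h0
  have hL : ∀ a, χ a (algebraMap S (QA S t n) θ + y * algebraMap S _ (τ θ)
      + y * hy y * algebraMap S _ (τ (τ θ))) = L a θ := by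
    intro a
    simp [χ, L, QuadraticAlgebra.algebraMap_eq, map_add, map_mul]
    ring
  have h00 : e ((algebraMap S (QA S t n) θ + y * algebraMap S _ (τ θ)
      + y * hy y * algebraMap S _ (τ (τ θ))).norm) = 0 := by
    simp only [e, RingHom.comp_apply, h0, map_zero]
  rw [hnorm, hL, hL] at h00
  exact mul_ne_zero h1 h2 h00

end Local

/-! ### The group of classes -/

variable (S) in
/-- The scalar units in `(S[ω])ˣ`. -/
def scalarUnits (t n : S) : Subgroup (QA S t n)ˣ :=
  (Units.map (algebraMap S (QA S t n) : S →* QA S t n)).range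

variable (S) in
/-- Units of `S[ω]` modulo scalars. -/
abbrev Cls (t n : S) : Type _ := (QA S t n)ˣ ⧸ scalarUnits S t n

theorem mem_scalarUnits {t n : S} {u : (QA S t n)ˣ} :
    u ∈ scalarUnits S t n ↔ (u : QA S t n).im = 0 := by
  constructor
  · rintro ⟨s, rfl⟩
    simp [QuadraticAlgebra.algebraMap_eq]
  · intro h
    have hn := QuadraticAlgebra.isUnit_iff_norm_isUnit.mp u.isUnit
    rw [qa_norm, h] at hn
    have hre : IsUnit (u : QA S t n).re := by
      simpa [isUnit_pow_iff] using hn
    exact ⟨hre.unit, Units.ext (QuadraticAlgebra.ext (by simp [QuadraticAlgebra.algebraMap_eq])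
      (by simp [QuadraticAlgebra.algebraMap_eq, h]))⟩

/-- Two units have the same class iff they are proportional. -/
theorem mk_eq_mk {t n : S} {u v : (QA S t n)ˣ} :
    (u : Cls S t n) = v ↔
      (u : QA S t n).re * (v : QA S t n).im = (u : QA S t n).im * (v : QA S t n).re := by
  rw [QuotientGroup.eq, mem_scalarUnits]
  have hv : (v : QA S t n) = (u : QA S t n) * ((u⁻¹ * v : (QA S t n)ˣ) : QA S t n) := by simp
  set w : QA S t n := ((u⁻¹ * v : (QA S t n)ˣ) : QA S t n)
  have hN := QuadraticAlgebra.isUnit_iff_norm_isUnit.mp u.isUnit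
  have key : (u : QA S t n).re * (v : QA S t n).im - (u : QA S t n).im * (v : QA S t n).re =
      (u : QA S t n).norm * w.im := by
    rw [hv, qa_norm]
    simp only [QuadraticAlgebra.re_mul, QuadraticAlgebra.im_mul]
    ring
  rw [← sub_eq_zero (a := (u : QA S t n).re * (v : QA S t n).im), key, hN.mul_right_eq_zero]

theorem cls_cases [IsLocalRing S] {t n : S} (u : (QA S t n)ˣ) :
    IsUnit (u : QA S t n).im ∨ ¬IsUnit (u : QA S t n).im ∧ IsUnit (u : QA S t n).re := by
  by_cases h : IsUnit (u : QA S t n).im
  · exact Or.inl h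
  · refine Or.inr ⟨h, ?_⟩
    have hn := QuadraticAlgebra.isUnit_iff_norm_isUnit.mp u.isUnit
    rw [qa_norm, ← residue_ne_zero_iff_isUnit] at hn
    rw [← residue_ne_zero_iff_isUnit]
    intro h0
    rw [← residue_ne_zero_iff_isUnit, not_not] at h
    exact hn (by simp [h, h0])

end FermatAgent.LT.Inert
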