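import Fermat.Agent.LT.Descent.Local.Inert.Lattice
import Fermat.Agent.LT.Descent.Local.Inert.Quot

set_option autoImplicit false

/-!
# The torus of a maximal order: fixed elements times units, and reduction to the class groups
-/

noncomputable section

open IsLocalRing IsDiscreteValuationRing

namespace FermatAgent.LT.Inert

variable {O : Type*} [CommRing O] [IsDomain O] [IsDiscreteValuationRing O]
variable {π t n : O}

/-- `a² - t a + n`. -/
def poly (t n a : O) : O := a ^ 2 - t * a + n

/-- The element `ω - a`. -/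
def lin (a : O) : QA O t n := ⟨-a, 1⟩

omit [IsDomain O] [IsDiscreteValuationRing O] in
theorem norm_lin (a : O) : (lin a : QA O t n).norm = poly t n a := by
  rw [qa_norm, poly, lin]; ring

omit [IsDomain O] [IsDiscreteValuationRing O] in
theorem lin_mul_lin (a b : O) :
    (lin a : QA O t n) * lin b = ⟨a * b - n, t - a - b⟩ := by
  ext <;> simp [lin] <;> ring

section Residue

variable (hπ : Irreducible π) (hmax : IsMaximalOrder π t n)
include hπ

theorem not_isUnit_iff_dvd {x : O} : ¬IsUnit x ↔ π ∣ x := (dvd_iff_not_isUnit hπ).symm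

theorem residue_eq_zero_iff_dvd {x : O} : residue O x = 0 ↔ π ∣ x := by
  rw [residue_eq_zero_iff, hπ.maximalIdeal_eq, Ideal.mem_span_singleton]

/-- A primitive element with non-unit norm has unit `ω`-coefficient. -/
theorem isUnit_im_of_prim {w : QA O t n} (hw : IsUnit w.re ∨ IsUnit w.im) (hN : ¬IsUnit w.norm) :
    IsUnit w.im := by
  by_contra hi
  rw [not_isUnit_iff_dvd hπ] at hi
  have hr : IsUnit w.re := hw.resolve_right (fun h => (not_isUnit_iff_dvd hπ).mpr hi h)
  apply hN
  rw [qa_norm, ← residue_ne_zero_iff_isUnit]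
  simp [(residue_eq_zero_iff_dvd hπ).mpr hi, residue_ne_zero_iff_isUnit _ |>.mpr hr]

/-- An element whose norm has positive valuation times a unit keeps unit `ω`-coefficient. -/
theorem isUnit_im_mul {w u : QA O t n} (hw : IsUnit w.re ∨ IsUnit w.im) (hN : ¬IsUnit w.norm)
    (hu : IsUnit u) : IsUnit (w * u).im := by
  refine isUnit_im_of_prim hπ ?_ (by
    rw [map_mul]; exact fun h => hN (isUnit_of_mul_isUnit_left h))
  by_contra hcon
  rw [not_or, not_isUnit_iff_dvd hπ, not_isUnit_iff_dvd hπ] at hcon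
  obtain ⟨⟨a, ha⟩, ⟨b, hb⟩⟩ := hcon
  obtain ⟨v, rfl⟩ := hu
  have e : w = w * (v : QA O t n) * ((v⁻¹ : (QA O t n)ˣ) : QA O t n) := by simp
  generalize w * (v : QA O t n) = W at e ha hb
  rw [e, QuadraticAlgebra.re_mul, QuadraticAlgebra.im_mul, ha, hb] at hw
  rcases hw with h | h <;> refine (not_isUnit_iff_dvd hπ).mpr ?_ h
  · exact dvd_add ((dvd_mul_right π a).mul_right _)
      (((dvd_mul_right π b).mul_left _).mul_right _)
  · exact dvd_add (dvd_add ((dvd_mul_right π a).mul_right _) ((dvd_mul_right π b).mul_right _))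
      (((dvd_mul_right π b).mul_left _).mul_right _)

variable {τ : O ≃+* O} (hτ : IsCubic τ) (hπτ : τ π = π) (ht : τ t = t)
  (hn : τ n = n)
include hmax hτ hπτ ht hn

/-- A fixed `a₀` with the same root class and valuation of the polynomial. -/
theorem exists_fixed_root {a : O} {i : ℕ} (hi : i ≠ 0) (ha : addVal O (poly t n a) = i) :
    ∃ a₀ : O, τ a₀ = a₀ ∧ π ^ i ∣ a - a₀ ∧ addVal O (poly t n a₀) = i := by
  have hdvd : π ^ i ∣ poly t n a := by
    have h := (addVal_le_iff_dvd (a := π ^ i) (b := poly t n a)).mp (by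
      rw [addVal_pow, addVal_uniformizer hπ, ha]; simp)
    exact h
  have h1 : π ∣ poly t n a := (dvd_pow_self π hi).trans hdvd
  have hres : resAut τ (residue O a) = residue O a := by
    refine resAut_root hτ (t := residue O t) (n := residue O n) (by rw [resAut_residue, ht])
      (by rw [resAut_residue, hn]) ?_
    have := (residue_eq_zero_iff_dvd hπ).mpr h1
    simpa [poly] using this
  have hπmem : π ∣ τ a - a := by
    rw [resAut_residue] at hres
    rw [← residue_eq_zero_iff_dvd hπ, map_sub, hres, sub_self]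
  have hdiff : ∀ x y : O, poly t n x - poly t n y = (x - y) * (x + y - t) := fun x y => by
    simp only [poly]; ring
  -- congruence modulo `π ^ i`
  have hcong : π ^ i ∣ τ a - a := by
    by_cases hd : π ∣ 2 * a - t
    · have hi1 : i = 1 := by
        by_contra hne
        exact hmax a hd ((pow_dvd_pow π (show 2 ≤ i by omega)).trans hdvd)
      rw [hi1, pow_one]
      exact hπmem
    · have hu : IsUnit (τ a + a - t) := by
        by_contra h
        rw [not_isUnit_iff_dvd hπ] at h
        exact hd (by simpa [show (τ a + a - t) - (τ a - a) = 2 * a - t by ring] using dvd_sub h hπmem)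
      have h2 : π ^ i ∣ poly t n (τ a) := by
        have e : τ (poly t n a) = poly t n (τ a) := by simp [poly, ht, hn]
        rw [← e]
        simpa [hπτ] using map_dvd τ hdvd
      have h3 := dvd_sub h2 hdvd
      rw [hdiff] at h3
      exact hu.dvd_mul_right.mp h3
  obtain ⟨y, hy, hya⟩ := exists_fixed_sub_mem hτ (J := Ideal.span {π ^ i}) (fun z hz => by
    rw [Ideal.mem_span_singleton] at hz ⊢
    simpa [hπτ] using map_dvd τ hz) (Ideal.mem_span_singleton.mpr hcong)
  rw [Ideal.mem_span_singleton] at hya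
  have hP : π ^ i ∣ poly t n y := by
    have := dvd_add ((hdiff y a) ▸ hya.mul_right (y + a - t)) hdvd
    rwa [sub_add_cancel] at this
  have hval : ∀ x, π ^ i ∣ poly t n x → ¬π ^ (i + 1) ∣ poly t n x → addVal O (poly t n x) = i := by
    intro x h h'
    obtain ⟨c, hc⟩ := h
    have hcu : IsUnit c := by
      by_contra hcu
      rw [not_isUnit_iff_dvd hπ] at hcu
      exact h' (hc ▸ by rw [pow_succ]; exact mul_dvd_mul_left _ hcu)
    rw [hc, addVal_mul, addVal_pow, addVal_uniformizer hπ, addVal_eq_zero_iff.mpr hcu]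
    simp
  by_cases hP' : π ^ (i + 1) ∣ poly t n y
  · have hd : ¬π ∣ 2 * y - t := fun hd =>
      hmax y hd ((pow_dvd_pow π (show 2 ≤ i + 1 by omega)).trans hP')
    have e : poly t n (y + π ^ i) = poly t n y + π ^ i * (2 * y - t + π ^ i) := by
      simp only [poly]; ring
    refine ⟨y + π ^ i, by simp [hy, hπτ], ?_, hval _ ?_ ?_⟩
    · rw [show a - (y + π ^ i) = -(y - a) - π ^ i by ring]
      exact dvd_sub hya.neg_right dvd_rfl
    · rw [e]; exact dvd_add hP (dvd_mul_right _ _)
    · rw [e, dvd_add_right hP', pow_succ, mul_dvd_mul_iff_left (pow_ne_zero _ hπ.ne_zero),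
        dvd_add_left (dvd_pow_self π hi)]
      exact hd
  · exact ⟨y, hy, by rw [show a - y = -(y - a) by ring]; exact hya.neg_right, hval _ hP hP'⟩

end Residue

/-- The number of roots of the residual quadratic. -/
def numRoots (t n : O) : ℕ :=
  Nat.card {z : ResidueField O // z ^ 2 + residue O t * z + residue O n = 0}

variable (hπ : Irreducible π)
include hπ

theorem numRoots_of_root {a : O} (h : π ∣ poly t n a) :
    (π ∣ 2 * a - t → numRoots t n = 1) ∧ (¬π ∣ 2 * a - t → numRoots t n = 2) := by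
  have h0 := (residue_eq_zero_iff_dvd hπ).mpr h
  simp only [poly, map_add, map_sub, map_mul, map_pow] at h0
  set x := residue O a
  set T := residue O t
  have hroots : ∀ z, z ^ 2 + T * z + residue O n = 0 ↔ z = -x ∨ z = x - T := by
    intro z
    have e : z ^ 2 + T * z + residue O n = (z + x) * (z - (x - T)) := by linear_combination h0
    rw [e, mul_eq_zero, add_eq_zero_iff_eq_neg, sub_eq_zero]
  have hset : {z : ResidueField O | z ^ 2 + T * z + residue O n = 0} = {-x, x - T} := by
    ext z; simp [hroots]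
  have hc : numRoots t n = Set.ncard ({-x, x - T} : Set (ResidueField O)) := by
    rw [← hset]; rfl
  have hd : (-x = x - T) ↔ π ∣ 2 * a - t := by
    rw [← residue_eq_zero_iff_dvd hπ, map_sub, map_mul, map_ofNat]
    constructor
    · intro e; linear_combination -e
    · intro e; linear_combination -e
  constructor <;> intro hh
  · rw [hc, hd.mpr hh, Set.pair_eq_singleton, Set.ncard_singleton]
  · rw [hc, Set.ncard_pair (fun e => hh (hd.mp e))]

/-- The cube of `ω - a₀`. -/
theorem exists_lin_cube {a₀ : O} {i : ℕ} (hi : i ≠ 0) (hmax : IsMaximalOrder π t n)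
    (ha : addVal O (poly t n a₀) = i) :
    ∃ (c : O) (q : QA O t n) (e : ℕ), c ≠ 0 ∧
      (lin a₀ : QA O t n) * lin a₀ * lin a₀ = algebraMap O _ c * q ∧ IsUnit q.im ∧
      addVal O q.norm = e ∧
      ((numRoots t n = 1 ∧ i = 1 ∧ e = 1) ∨ (numRoots t n = 2 ∧ e = 3 * i)) := by
  have hdvd : π ^ i ∣ poly t n a₀ :=
    addVal_le_iff_dvd.mp (by rw [addVal_pow, addVal_uniformizer hπ, ha]; simp)
  have h1 : π ∣ poly t n a₀ := (dvd_pow_self π hi).trans hdvd
  obtain ⟨hdbl, hsimp⟩ := numRoots_of_root hπ h1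
  by_cases hd : π ∣ 2 * a₀ - t
  · have hi1 : i = 1 := by
      by_contra hne
      exact hmax a₀ hd ((pow_dvd_pow π (show 2 ≤ i by omega)).trans hdvd)
    have hre : π ∣ a₀ * a₀ - n := by
      rw [show a₀ * a₀ - n = a₀ * (2 * a₀ - t) - poly t n a₀ by simp only [poly]; ring]
      exact dvd_sub (hd.mul_left _) h1
    have him : π ∣ t - a₀ - a₀ := by
      rw [show t - a₀ - a₀ = -(2 * a₀ - t) by ring]; exact hd.neg_right
    obtain ⟨r, hr⟩ := hre
    obtain ⟨s, hs⟩ := him
    have hsq : (lin a₀ : QA O t n) * lin a₀ = algebraMap O _ π * ⟨r, s⟩ := by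
      rw [lin_mul_lin, hr, hs]
      ext <;> simp [QuadraticAlgebra.algebraMap_eq]
    have hN : addVal O (⟨r, s⟩ : QA O t n).norm = 0 := by
      have := congrArg (fun w : QA O t n => addVal O w.norm) hsq
      simp only [map_mul, norm_lin, QuadraticAlgebra.norm_algebraMap, addVal_mul, addVal_pow,
        addVal_uniformizer hπ, ha, hi1] at this
      obtain ⟨d, hd⟩ : ∃ d : ℕ, addVal O (⟨r, s⟩ : QA O t n).norm = d := by
        refine ENat.ne_top_iff_exists.mp (fun h => ?_) |>.imp fun e he => he.symm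
        rw [h] at this; simp at this
      rw [hd] at this ⊢
      norm_num at this
      have h2 : ((2 : ℕ) : ℕ∞) = ((2 + d : ℕ) : ℕ∞) := by push_cast; exact this
      have : d = 0 := by have := ENat.natCast_inj.mp h2; omega
      simp [this]
    have hu : IsUnit (⟨r, s⟩ : QA O t n) :=
      QuadraticAlgebra.isUnit_iff_norm_isUnit.mpr (addVal_eq_zero_iff.mp hN)
    have hNl : ¬IsUnit (lin a₀ : QA O t n).norm := by
      rw [norm_lin]; exact (not_isUnit_iff_dvd hπ).mpr h1
    refine ⟨π, lin a₀ * ⟨r, s⟩, 1, hπ.ne_zero, by rw [hsq]; ring,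
      isUnit_im_mul hπ (Or.inr isUnit_one) hNl hu, ?_, Or.inl ⟨hdbl hd, hi1, rfl⟩⟩
    rw [map_mul, addVal_mul, hN, norm_lin, ha, hi1, add_zero]
  · refine ⟨1, lin a₀ * lin a₀ * lin a₀, 3 * i, one_ne_zero, by simp, ?_, ?_,
      Or.inr ⟨hsimp hd, rfl⟩⟩
    · have e : ((lin a₀ : QA O t n) * lin a₀ * lin a₀).im =
          (2 * a₀ - t) * (2 * a₀ - t) - poly t n a₀ := by
        rw [lin_mul_lin]
        simp [lin, poly]
        ring
      rw [e]
      by_contra hu
      rw [not_isUnit_iff_dvd hπ] at hu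
      have := dvd_add hu h1
      rw [sub_add_cancel] at this
      rcases hπ.prime.dvd_or_dvd this with h | h <;> exact hd h
    · simp only [map_mul, norm_lin, addVal_mul, ha]
      norm_num
      ring

omit hπ

section Split

variable {F : Type*} [Field F] [Algebra O F] [IsFractionRing O F]

omit [IsDomain O] [IsDiscreteValuationRing O] in
theorem toL_injective : Function.Injective (toL F : QA O t n → LAlg F t n) := fun z w h => by
  have h1 := congrArg QuadraticAlgebra.re h
  have h2 := congrArg QuadraticAlgebra.im h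
  exact QuadraticAlgebra.ext (IsFractionRing.injective O F h1) (IsFractionRing.injective O F h2)

include hπ in
theorem exists_prim_smul (z : (LAlg F t n)ˣ) :
    ∃ (c : F) (w : QA O t n), c ≠ 0 ∧ (z : LAlg F t n) = c • toL F w ∧
      (IsUnit w.re ∨ IsUnit w.im) ∧ w.norm ≠ 0 := by
  obtain ⟨d, c, hc, A, hA, hcA, hd⟩ := exists_hasDepth (O := O) hπ (embU z)
  have hval : (((embU z : GL (Fin 2) F)) : Matrix (Fin 2) (Fin 2) F) = emb (z : LAlg F t n) := rfl
  rw [hval] at hcA
  have h00 := congrFun (congrFun hcA 0) 0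
  have h10 := congrFun (congrFun hcA 1) 0
  have h01 := congrFun (congrFun hcA 0) 1
  have h11 := congrFun (congrFun hcA 1) 1
  simp [emb] at h00 h10 h01 h11
  set w : QA O t n := ⟨A 0 0, A 1 0⟩
  have hz : c • (z : LAlg F t n) = toL F w := by
    ext <;> simp [toL, w, h00, h10]
  have e01 : A 0 1 = -(n * A 1 0) := IsFractionRing.injective O F (by
    rw [← h01, map_neg, map_mul, ← h10]; ring)
  have e11 : A 1 1 = A 0 0 + t * A 1 0 := IsFractionRing.injective O F (by
    rw [← h11, map_add, map_mul, ← h10, ← h00]; ring)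
  refine ⟨c⁻¹, w, inv_ne_zero hc, by rw [← hz, smul_smul, inv_mul_cancel₀ hc, one_smul], ?_, ?_⟩
  · by_contra hcon
    rw [not_or, not_isUnit_iff_dvd hπ, not_isUnit_iff_dvd hπ] at hcon
    obtain ⟨i, j, hij⟩ := hA
    refine (not_isUnit_iff_dvd hπ).mpr ?_ hij
    fin_cases i <;> fin_cases j
    · exact hcon.1
    · show π ∣ A 0 1
      rw [e01]; exact (hcon.2.mul_left _).neg_right
    · exact hcon.2
    · show π ∣ A 1 1
      rw [e11]; exact dvd_add hcon.1 (hcon.2.mul_left _)
  · intro h0
    have hdet : A.det = 0 := by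
      rw [Matrix.det_fin_two, e01, e11, ← h0, qa_norm]
      simp [w]; ring
    rw [hdet, addVal_zero] at hd
    exact ENat.natCast_ne_top d hd.symm

include hπ in
/-- Two elements `ω - a`, `ω - a₀` with roots congruent to the valuation differ by a unit. -/
theorem exists_lin_unit {a a₀ : O} {i : ℕ} (hva : addVal O (poly t n a) = i)
    (hv₀ : addVal O (poly t n a₀) = i) (hcong : π ^ i ∣ a - a₀) :
    ∃ v : (QA O t n)ˣ, algebraMap O _ (poly t n a₀) * lin a =
      algebraMap O _ (π ^ i) * ((lin a₀ : QA O t n) * (v : QA O t n)) := by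
  have hdvd : π ^ i ∣ poly t n a₀ :=
    addVal_le_iff_dvd.mp (by rw [addVal_pow, addVal_uniformizer hπ, hv₀]; simp)
  obtain ⟨r, hr⟩ : π ^ i ∣ -a * (t - a₀) + n := by
    have e : -a * (t - a₀) + n = poly t n a₀ + (a₀ - a) * (t - a₀) := by simp only [poly]; ring
    rw [e]
    exact dvd_add hdvd ((by simpa using hcong.neg_right : π ^ i ∣ a₀ - a).mul_right _)
  obtain ⟨s, hs⟩ : π ^ i ∣ a - a₀ := hcong
  have hmul : (lin a : QA O t n) * ⟨t - a₀, -1⟩ = algebraMap O _ (π ^ i) * ⟨r, s⟩ := by
    ext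
    · simp [lin, QuadraticAlgebra.algebraMap_eq]
      linear_combination hr
    · simp [lin, QuadraticAlgebra.algebraMap_eq]
      linear_combination hs
  have hu : IsUnit (⟨r, s⟩ : QA O t n) := by
    rw [QuadraticAlgebra.isUnit_iff_norm_isUnit]
    have h1 := congrArg (fun v : QA O t n => addVal O v.norm) hmul
    have hconj : (⟨t - a₀, -1⟩ : QA O t n).norm = poly t n a₀ := by rw [qa_norm, poly]; ring
    simp only [map_mul, norm_lin, QuadraticAlgebra.norm_algebraMap, addVal_mul, addVal_pow,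
      addVal_uniformizer hπ, hva, hconj, hv₀] at h1
    obtain ⟨d, hd⟩ : ∃ d : ℕ, addVal O (⟨r, s⟩ : QA O t n).norm = d := by
      refine (ENat.ne_top_iff_exists.mp (fun h => ?_)).imp fun e he => he.symm
      rw [h] at h1; simp [← Nat.cast_add] at h1
    rw [hd] at h1
    norm_num at h1
    have h2 : ((i + i : ℕ) : ℕ∞) = ((2 * i + d : ℕ) : ℕ∞) := by
      push_cast; exact h1
    refine addVal_eq_zero_iff.mp ?_
    rw [hd]
    have := ENat.natCast_inj.mp h2
    simp [show d = 0 by omega]
  have hkey : algebraMap O _ (poly t n a₀) * lin a =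
      algebraMap O _ (π ^ i) * ((lin a₀ : QA O t n) * ⟨r, s⟩) := by
    have e : (⟨t - a₀, -1⟩ : QA O t n) * lin a₀ = algebraMap O _ (poly t n a₀) := by
      ext
      · simp [lin, QuadraticAlgebra.algebraMap_eq, poly]; ring
      · simp [lin, QuadraticAlgebra.algebraMap_eq]
    calc _ = lin a * ⟨t - a₀, -1⟩ * lin a₀ := by rw [mul_assoc, e, mul_comm]
      _ = _ := by rw [hmul, mul_assoc, mul_comm (⟨r, s⟩ : QA O t n)]
  exact ⟨hu.unit, hkey⟩

variable {τ : O ≃+* O} (hτ : IsCubic τ) (hπτ : τ π = π) (ht : τ t = t) (hn : τ n = n)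
  (hmax : IsMaximalOrder π t n)
include hπ hτ hπτ ht hn hmax

/-- Every torus element is a fixed element times a unit. -/
theorem exists_split (z : (LAlg F t n)ˣ) :
    ∃ (c : F) (i : ℕ) (p : QA O t n) (u : (QA O t n)ˣ), c ≠ 0 ∧
      (z : LAlg F t n) = c • toL F (p * (u : QA O t n)) ∧
      ((i = 0 ∧ p = 1) ∨ (i ≠ 0 ∧ ∃ a₀, τ a₀ = a₀ ∧ p = lin a₀ ∧ addVal O (poly t n a₀) = i)) := by
  obtain ⟨c, w, hc, hz, hprim, hN⟩ := exists_prim_smul hπ z
  obtain ⟨i, hi⟩ : ∃ i : ℕ, addVal O w.norm = i :=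
    (ENat.ne_top_iff_exists.mp fun h => hN (addVal_eq_top_iff.mp h)).imp fun e he => he.symm
  by_cases hi0 : i = 0
  · subst hi0
    have hu : IsUnit w :=
      QuadraticAlgebra.isUnit_iff_norm_isUnit.mpr (addVal_eq_zero_iff.mp (by simpa using hi))
    exact ⟨c, 0, 1, hu.unit, hc, by simpa using hz, Or.inl ⟨rfl, rfl⟩⟩
  have hNu : ¬IsUnit w.norm := fun h => by
    rw [addVal_eq_zero_iff.mpr h] at hi
    exact hi0 (by exact_mod_cast hi.symm)
  obtain ⟨b, hb⟩ := isUnit_im_of_prim hπ hprim hNu
  set a := -(w.re * ↑b⁻¹)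
  have hw : w = algebraMap O _ (b : O) * lin a := by
    ext <;> simp [lin, a, QuadraticAlgebra.algebraMap_eq, hb.symm]
    rw [mul_comm w.re, Units.mul_inv_cancel_left]
  have hva : addVal O (poly t n a) = i := by
    rw [← hi, hw, map_mul, QuadraticAlgebra.norm_algebraMap, addVal_mul, addVal_pow,
      addVal_eq_zero_iff.mpr b.isUnit, norm_lin]
    simp
  obtain ⟨a₀, ha₀, hcong, hv₀⟩ := exists_fixed_root hπ hmax hτ hπτ ht hn hi0 hva
  obtain ⟨v, hkey⟩ := exists_lin_unit hπ hva hv₀ hcong
  have hP0 : algebraMap O F (poly t n a₀) ≠ 0 := fun h0 => by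
    rw [(IsFractionRing.injective O F) (h0.trans (map_zero _).symm), addVal_zero] at hv₀
    exact ENat.natCast_ne_top i hv₀.symm
  have halg : ∀ (x : O) (v : QA O t n),
      toL F (algebraMap O _ x * v) = algebraMap O F x • toL F v := fun x v => by
    ext <;> simp [toL, QuadraticAlgebra.algebraMap_eq, Algebra.smul_def]
  refine ⟨c * algebraMap O F b * algebraMap O F (π ^ i) / algebraMap O F (poly t n a₀), i, lin a₀,
    v, ?_, ?_, Or.inr ⟨hi0, a₀, ha₀, rfl, hv₀⟩⟩
  · exact div_ne_zero (mul_ne_zero (mul_ne_zero hc ((b.isUnit.map _).ne_zero))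
      (by simpa using pow_ne_zero i (piF_ne_zero (F := F) hπ))) hP0
  · have h1 := congrArg (toL F) hkey
    rw [halg, halg] at h1
    rw [hz, hw, halg, smul_smul, mul_div_assoc, mul_comm _ (_ / _), div_mul_eq_mul_div,
      ← inv_smul_eq_iff₀ hP0 |>.mpr h1.symm, smul_smul, smul_smul]
    congr 1
    field_simp

end Split

end FermatAgent.LT.Inert
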